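import Fermat.Agent.GlobalBound.Defs
import Fermat.Agent.TWEuler.TI
import Fermat.Agent.TWElement.Main
import Fermat.Agent.Oddness.Det

/-!
# Group theory of the residual image

Sylow `p`-subgroups of a finite subgroup of `GL₂` in characteristic `p` meet trivially, which
gives the Euler characteristic formula for the adjoint module and its twist; the adjoint module has
no invariants; complex conjugation fixes a plane of the twist.
-/

set_option autoImplicit false

noncomputable section

namespace Fermat.Agent.GlobalBound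

open ExtCitation Fermat.Agent.PoitouTate
open Fermat.Agent.TWLocal (M2 adj adj_mul adj_one adj_apply trace_adj rb_mul_inv rb_inv_mul)
open Fermat.Agent.TWElement (NoStableLine IsScalar)

variable {k : Type} [Field k]

/-! ### Trivial intersection of Sylow subgroups -/

section SylowTI

/-- A nilpotent two by two matrix has trace and determinant zero. -/
theorem trace_det_of_nilpotent {N : M2 k} {m : ℕ} (h : N ^ m = 0) : N.trace = 0 ∧ N.det = 0 :=
  ⟨(Matrix.isNilpotent_trace_of_isNilpotent ⟨m, h⟩).eq_zero,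
    eq_zero_of_pow_eq_zero (n := m) (by
      rcases m with _ | m
      · exact absurd h (by simp)
      · rw [← Matrix.det_pow, h, Matrix.det_zero])⟩

/-- Nilpotent matrices whose product has trace zero are proportional. -/
theorem exists_smul_of_nilpotent {N M : M2 k} (hN : N ≠ 0) (hNt : N.trace = 0) (hNd : N.det = 0)
    (hMt : M.trace = 0) (hMd : M.det = 0) (hNM : (N * M).trace = 0) : ∃ t : k, M = t • N := by
  rw [Matrix.trace_fin_two] at hNt hMt
  rw [Matrix.det_fin_two] at hNd hMd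
  simp only [Matrix.trace_fin_two, Matrix.mul_apply, Fin.sum_univ_two] at hNM
  have hN11 : N 1 1 = -N 0 0 := eq_neg_of_add_eq_zero_right hNt
  have hM11 : M 1 1 = -M 0 0 := eq_neg_of_add_eq_zero_right hMt
  rw [hN11] at hNd hNM
  rw [hM11] at hMd hNM
  have e1 : N 0 0 * M 1 0 = N 1 0 * M 0 0 := sub_eq_zero.1 (pow_eq_zero_iff two_ne_zero |>.1 (by
    linear_combination -M 1 0 ^ 2 * hNd - N 1 0 ^ 2 * hMd - N 1 0 * M 1 0 * hNM))
  have e2 : N 0 0 * M 0 1 = N 0 1 * M 0 0 := sub_eq_zero.1 (pow_eq_zero_iff two_ne_zero |>.1 (by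
    linear_combination -M 0 1 ^ 2 * hNd - N 0 1 ^ 2 * hMd - N 0 1 * M 0 1 * hNM))
  by_cases hb : N 0 1 = 0
  · by_cases hc : N 1 0 = 0
    · have ha : N 0 0 = 0 := pow_eq_zero_iff two_ne_zero |>.1 (by
        rw [hb] at hNd; linear_combination -hNd)
      exact absurd (TWElement.ext₂ (by simpa using ha) (by simpa using hb) (by simpa using hc)
        (by simp [hN11, ha])) hN
    · have ha : N 0 0 = 0 := pow_eq_zero_iff two_ne_zero |>.1 (by
        rw [hb] at hNd; linear_combination -hNd)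
      rw [ha, zero_mul] at e1
      have hM0 : M 0 0 = 0 := (mul_eq_zero.1 e1.symm).resolve_left hc
      have hM01 : M 0 1 = 0 := (mul_eq_zero.1 (by
        rw [ha, hb] at hNM; linear_combination hNM : M 0 1 * N 1 0 = 0)).resolve_right hc
      exact ⟨M 1 0 / N 1 0, TWElement.ext₂ (by simp [hM0, ha]) (by simp [hM01, hb])
        (by simp [hc]) (by simp [hM11, hM0, hN11, ha])⟩
  · have h00 : M 0 0 = M 0 1 / N 0 1 * N 0 0 := by
      field_simp
      linear_combination -e2
    refine ⟨M 0 1 / N 0 1, TWElement.ext₂ (by simpa using h00) (by simp [hb]) ?_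
      (by simp [hM11, hN11, h00])⟩
    simp only [Matrix.smul_apply, smul_eq_mul]
    field_simp
    have e3 : (M 1 0 * N 0 1 - M 0 1 * N 1 0) ^ 2 = 0 := by
      linear_combination (N 1 0 * M 0 1 + N 0 1 * M 1 0 - 2 * N 0 0 * M 0 0) * hNM
        + 4 * M 0 1 * M 1 0 * hNd - 4 * N 0 0 ^ 2 * hMd
    linear_combination (pow_eq_zero_iff two_ne_zero).1 e3

variable {Γ : Type} [Group Γ] {p : ℕ} [Fact p.Prime] [CharP k p] {ι : Γ →* M2 k}

theorem isNilpotent_sub_one {P : Subgroup Γ} (hP : IsPGroup p P) {x : Γ} (hx : x ∈ P) :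
    (ι x - 1).trace = 0 ∧ (ι x - 1).det = 0 := by
  obtain ⟨n, hn⟩ := hP ⟨x, hx⟩
  have hn' : x ^ p ^ n = 1 := congrArg Subtype.val hn
  refine trace_det_of_nilpotent (m := p ^ n) ?_
  have : CharP (M2 k) p := inferInstance
  rw [sub_pow_char_pow_of_commute (p := p) _ (Commute.one_right _), ← map_pow, hn', map_one,
    one_pow, sub_self]

/-- All elements of a `p`-subgroup are unipotent with one fixed line. -/
theorem exists_smul_of_pGroup {P : Subgroup Γ} (hP : IsPGroup p P) {x : Γ} (hx : x ∈ P)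
    (hx1 : ι x - 1 ≠ 0) {y : Γ} (hy : y ∈ P) : ∃ t : k, ι y - 1 = t • (ι x - 1) := by
  obtain ⟨hxt, hxd⟩ := isNilpotent_sub_one (ι := ι) hP hx
  obtain ⟨hyt, hyd⟩ := isNilpotent_sub_one (ι := ι) hP hy
  have hm := (isNilpotent_sub_one (ι := ι) hP (mul_mem hx hy)).1
  refine exists_smul_of_nilpotent hx1 hxt hxd hyt hyd ?_
  have e : (ι x - 1) * (ι y - 1) = (ι (x * y) - 1) - (ι x - 1) - (ι y - 1) := by
    rw [map_mul, sub_mul, one_mul, mul_sub, mul_one]; abel
  rw [e, Matrix.trace_sub, Matrix.trace_sub, hm, hxt, hyt, sub_zero, sub_zero]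

/-- Distinct `p`-Sylow subgroups of a finite subgroup of `GL₂` meet trivially. -/
theorem sylow_TI [Finite Γ] (hι : Function.Injective ι) (S : Sylow p Γ) :
    ∀ γ : Γ, γ ∉ Subgroup.normalizer ((S : Subgroup Γ) : Set Γ) → ∀ x ∈ (S : Subgroup Γ),
      γ⁻¹ * x * γ ∈ (S : Subgroup Γ) → x = 1 := by
  intro γ hγ x hx hxγ
  by_contra hne
  have hN : ι x - 1 ≠ 0 := fun e => hne (hι (by rw [sub_eq_zero.1 e, map_one]))
  set y := γ⁻¹ * x * γ with hy
  have hy1 : ι y - 1 ≠ 0 := fun e => hne (by
    have e' : γ⁻¹ * x * γ = 1 := hι (by rw [sub_eq_zero.1 e, map_one])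
    calc x = γ * (γ⁻¹ * x * γ) * γ⁻¹ := by group
      _ = 1 := by rw [e']; group)
  have hconj : ∀ s ∈ (S : Subgroup Γ), γ * s * γ⁻¹ ∈ (S : Subgroup Γ) := by
    intro s hs
    obtain ⟨t, ht⟩ := exists_smul_of_pGroup (ι := ι) S.2 hxγ hy1 hs
    have hz : ι (γ * s * γ⁻¹) - 1 = t • (ι x - 1) := by
      have e : ∀ a, ι γ * (ι a - 1) * ι γ⁻¹ = ι (γ * a * γ⁻¹) - 1 := fun a => by
        rw [mul_sub, sub_mul, mul_one, ← map_mul, ← map_mul, ← map_mul, mul_inv_cancel, map_one]
      rw [← e, ht, mul_smul_comm, smul_mul_assoc, e, hy]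
      congr 2
      group
    have hcomm : ∀ a ∈ (S : Subgroup Γ), γ * s * γ⁻¹ * a = a * (γ * s * γ⁻¹) := by
      intro a ha
      obtain ⟨u, hu⟩ := exists_smul_of_pGroup (ι := ι) S.2 hx hN ha
      have hz' := hz
      generalize ι x - 1 = N at hz' hu
      refine hι ?_
      rw [map_mul ι _ a, map_mul ι a _, sub_eq_iff_eq_add.1 hz', sub_eq_iff_eq_add.1 hu]
      simp only [add_mul, mul_add, smul_mul_assoc, mul_smul_comm, one_mul, mul_one, smul_smul,
        smul_add, mul_comm t u]
      abel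
    have hnorm : γ * s * γ⁻¹ ∈ Subgroup.normalizer ((S : Subgroup Γ) : Set Γ) := by
      refine Subgroup.mem_normalizer_iff.2 fun a => ⟨fun ha => ?_, fun ha => ?_⟩
      · rw [hcomm a ha, mul_inv_cancel_right]; exact ha
      · have h := hcomm _ ha
        have : a = γ * s * γ⁻¹ * a * (γ * s * γ⁻¹)⁻¹ := by
          set z := γ * s * γ⁻¹
          calc a = z⁻¹ * (z * a * z⁻¹ * z) := by group
            _ = z⁻¹ * (z * (z * a * z⁻¹)) := by rw [← h]
            _ = z * a * z⁻¹ := by group
        exact this.symm ▸ ha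
    have hp' : IsPGroup p (Subgroup.zpowers (γ * s * γ⁻¹)) := by
      obtain ⟨n, hn⟩ := S.2 ⟨s, hs⟩
      rintro ⟨z, m, rfl⟩
      refine ⟨n, Subtype.ext ?_⟩
      show ((γ * s * γ⁻¹) ^ m) ^ p ^ n = 1
      rw [← zpow_natCast, ← zpow_mul, mul_comm, zpow_mul, zpow_natCast, conj_pow,
        show s ^ p ^ n = 1 from congrArg Subtype.val hn, mul_one, mul_inv_cancel, one_zpow]
    have hin : γ * s * γ⁻¹ ∈ Subgroup.zpowers (γ * s * γ⁻¹) ⊓ (S : Subgroup Γ) := by
      rw [← hp'.inf_normalizer_sylow S]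
      exact ⟨Subgroup.mem_zpowers _, hnorm⟩
    exact hin.2
  exact hγ (Subgroup.mem_normalizer_fintype fun s hs => hconj s hs)

end SylowTI

/-! ### The finite image -/

section Image

variable (rb : GQ →* M2 k)

/-- The image of `rb`. -/
abbrev imGrp : Subgroup (M2 k)ˣ := rb.toHomUnits.range

/-- `rb` as a map onto its image. -/
def imProj : GQ →* imGrp rb := rb.toHomUnits.rangeRestrict

theorem imProj_surjective : Function.Surjective (imProj rb) :=
  rb.toHomUnits.rangeRestrict_surjective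

@[simp] theorem imProj_coe (g : GQ) : (((imProj rb g : imGrp rb) : (M2 k)ˣ) : M2 k) = rb g := rfl

theorem imProj_eq_one_iff (g : GQ) : imProj rb g = 1 ↔ rb g = 1 := by
  rw [Subtype.ext_iff, Units.ext_iff, imProj_coe]; rfl

/-- The image as matrices. -/
def imIncl : imGrp rb →* M2 k := (Units.coeHom (M2 k)).comp (imGrp rb).subtype

theorem imIncl_injective : Function.Injective (imIncl rb) :=
  fun _ _ e => Subtype.ext (Units.ext e)

/-- The image acting on trace-zero matrices by conjugation, twisted by a power of the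
determinant. -/
def imAct (e : ℕ) : imGrp rb →* AddMonoid.End (Tz k) where
  toFun γ := AddMonoidHom.mk'
    (fun x => ⟨(imIncl rb γ).det ^ e • (imIncl rb γ * x * imIncl rb γ⁻¹), by
      show (_ • (imIncl rb γ * (x : M2 k) * imIncl rb γ⁻¹) : M2 k).trace = 0
      rw [Matrix.trace_smul, Matrix.trace_mul_cycle, ← map_mul, inv_mul_cancel, map_one, one_mul,
        trace_coe x, smul_zero]⟩)
    fun x y => Subtype.ext (by
      show _ • (imIncl rb γ * ((x : M2 k) + y) * imIncl rb γ⁻¹) = _
      rw [mul_add, add_mul, smul_add]; rfl)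
  map_one' := AddMonoidHom.ext fun x => Subtype.ext (by
    show (imIncl rb 1).det ^ e • (imIncl rb 1 * (x : M2 k) * imIncl rb 1⁻¹) = _
    rw [inv_one, map_one, Matrix.det_one, one_pow, one_smul, one_mul, mul_one]; rfl)
  map_mul' γ δ := AddMonoidHom.ext fun x => Subtype.ext (by
    show (imIncl rb (γ * δ)).det ^ e • (imIncl rb (γ * δ) * (x : M2 k) * imIncl rb (γ * δ)⁻¹) =
      (imIncl rb γ).det ^ e • (imIncl rb γ *
        ((imIncl rb δ).det ^ e • (imIncl rb δ * (x : M2 k) * imIncl rb δ⁻¹)) * imIncl rb γ⁻¹)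
    rw [mul_inv_rev, map_mul, map_mul, Matrix.det_mul, mul_pow, mul_smul_comm, smul_mul_assoc,
      smul_smul]
    simp only [mul_assoc])

theorem imAct_coe (e : ℕ) (g : GQ) (x : Tz k) :
    ((imAct rb e (imProj rb g) x : Tz k) : M2 k) = (rb g).det ^ e • (rb g * x * rb g⁻¹) := by
  show (imIncl rb (imProj rb g)).det ^ e •
    (imIncl rb (imProj rb g) * (x : M2 k) * imIncl rb (imProj rb g)⁻¹) = _
  rw [← map_inv (imProj rb) g]
  rfl

theorem imAct_zero_comp : (imAct rb 0).comp (imProj rb) = adAct rb :=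
  MonoidHom.ext fun g => AddMonoidHom.ext fun x => Subtype.ext (by
    exact (imAct_coe rb 0 g x).trans (by rw [pow_zero, one_smul]; rfl))

theorem imAct_one_comp : (imAct rb 1).comp (imProj rb) = twAct rb :=
  MonoidHom.ext fun g => AddMonoidHom.ext fun x => Subtype.ext (by
    exact (imAct_coe rb 1 g x).trans (by rw [pow_one]; rfl))

variable {p : ℕ} [Fact p.Prime] {L : Levels GQ} {c : GQ}

/-- The Euler characteristic identity for the adjoint module and its twist. -/
theorem eulerHolds_ad_tw [Finite k] (hpk : (p : k) = 0) (hker : ∃ U, L.mem U ∧ ∀ g ∈ U, rb g = 1)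
    (hre : TWEuler.RightExact L p) (hp2 : Odd p) (hc : c * c = 1) {ψ : Act GQ (ZMod p)}
    (hψ : ∀ g, rb g = 1 → ψ g 1 = 1) (hN : TWEuler.AllWeights L c ψ) :
    TWEuler.EulerHolds L c (adAct rb) ∧ TWEuler.EulerHolds L c (twAct rb) := by
  have : CharP k p := (CharP.charP_iff_prime_eq_zero Fact.out).2 hpk
  let : Fintype (imGrp rb) := Fintype.ofFinite _
  obtain ⟨U, hU, hle⟩ := hker
  have hker' : ∃ U, L.mem U ∧ U ≤ (imProj rb).ker :=
    ⟨U, hU, fun g hg => (imProj_eq_one_iff rb g).2 (hle g hg)⟩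
  obtain ⟨S⟩ : Nonempty (Sylow p (imGrp rb)) := inferInstance
  have key : ∀ e, TWEuler.EulerHolds L c ((imAct rb e).comp (imProj rb)) := fun e =>
    TWEuler.eulerHolds_of_TI (imProj rb) (imProj_surjective rb) hker' hre hp2 hc
      (fun g hg => hψ g ((imProj_eq_one_iff rb g).1 hg)) hN S
      (sylow_TI (imIncl_injective rb) S) (nsmul_eq_zero hpk) (imAct rb e)
  refine ⟨?_, ?_⟩
  · have h := key 0; rwa [imAct_zero_comp] at h
  · have h := key 1; rwa [imAct_one_comp] at h

/-- The kernel of `rb` fixes the `p`-th roots of unity. -/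
theorem muAct_one_of_rb (hdet : DetCyclo p rb) {g : GQ} (hg : rb g = 1) : muAct p g 1 = 1 := by
  rw [muAct_apply, cycloChar_eq_one hdet hg, Units.val_one, one_mul]

end Image

/-! ### No invariants -/

section Invariants

variable {rb : GQ →* M2 k}

/-- The adjoint module has no invariants when no line is stable. -/
theorem inv_adAct_eq_bot (h2 : (2 : k) ≠ 0) (hρ : NoStableLine rb) : Inv (adAct rb) = ⊥ := by
  refine (AddSubgroup.eq_bot_iff_forall _).2 fun x hx => ?_
  have hs : IsScalar (x : M2 k) := TWElement.isScalar_of_commute hρ (.inl rfl) fun g _ => by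
    have e : rb g * (x : M2 k) * rb g⁻¹ = x := by
      rw [← adAct_coe, mem_Inv.1 hx g]
    calc rb g * (x : M2 k) = rb g * (x : M2 k) * (rb g⁻¹ * rb g) := by rw [rb_inv_mul, mul_one]
      _ = x * rb g := by rw [← mul_assoc, e]
  by_contra hne
  exact TWElement.not_isScalar_of_trace h2 (fun e => hne (Subtype.ext e)) (trace_coe x) hs

end Invariants

/-! ### Complex conjugation -/

section Conjugation

variable {rb : GQ →* M2 k} {c : GQ}

theorem rb_conj_facts (h2 : (2 : k) ≠ 0) (hc : c * c = 1) (hd : (rb c).det = -1) :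
    rb c * rb c = 1 ∧ rb c⁻¹ = rb c ∧ (rb c).trace = 0 ∧ ¬ IsScalar (rb c) := by
  have hsq : rb c * rb c = 1 := by rw [← map_mul, hc, map_one]
  have hinv : c⁻¹ = c := inv_eq_of_mul_eq_one_right hc
  have hsc : ¬ IsScalar (rb c) := by
    rintro hs
    obtain ⟨a, ha⟩ := (TWElement.isScalar_iff_exists _).1 hs
    have h1 := congrFun (congrFun hsq 0) 0
    rw [ha] at h1 hd
    simp at h1
    rw [Matrix.det_smul, Matrix.det_one, mul_one, Fintype.card_fin] at hd
    exact h2 (by linear_combination hd - h1)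
  refine ⟨hsq, by rw [hinv], ?_, hsc⟩
  by_contra ht
  have h01 := congrFun (congrFun hsq 0) 1
  have h10 := congrFun (congrFun hsq 1) 0
  have h00 := congrFun (congrFun hsq 0) 0
  have h11 := congrFun (congrFun hsq 1) 1
  simp [Matrix.mul_apply, Fin.sum_univ_two] at h01 h10 h00 h11
  rw [Matrix.trace_fin_two] at ht
  rw [Matrix.det_fin_two] at hd
  refine hsc ⟨?_, ?_, ?_⟩
  · exact (mul_eq_zero.1 (by linear_combination h01 :
      rb c 0 1 * (rb c 0 0 + rb c 1 1) = 0)).resolve_right ht
  · exact (mul_eq_zero.1 (by linear_combination h10 :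
      rb c 1 0 * (rb c 0 0 + rb c 1 1) = 0)).resolve_right ht
  · exact sub_eq_zero.1 ((mul_eq_zero.1 (by linear_combination h00 - h11 :
      (rb c 0 0 - rb c 1 1) * (rb c 0 0 + rb c 1 1) = 0)).resolve_right ht)

/-- The trace against `rb c` detects the twisted fixed points of `c`. -/
theorem mem_fixedBy_tw_iff (h2 : (2 : k) ≠ 0) (hc : c * c = 1) (hd : (rb c).det = -1) (x : Tz k) :
    x ∈ TWEuler.fixedBy (twAct rb) c ↔ (rb c * (x : M2 k)).trace = 0 := by
  obtain ⟨hsq, hinv, ht, -⟩ := rb_conj_facts h2 hc hd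
  have e : rb c * (x : M2 k) + (x : M2 k) * rb c = (rb c * (x : M2 k)).trace • 1 := by
    rw [Matrix.trace_fin_two] at ht
    have hC : rb c 1 1 = -rb c 0 0 := eq_neg_of_add_eq_zero_right ht
    have hX := trace_coe x
    rw [Matrix.trace_fin_two] at hX
    have hX' : (x : M2 k) 1 1 = -(x : M2 k) 0 0 := eq_neg_of_add_eq_zero_right hX
    refine TWElement.ext₂ ?_ ?_ ?_ ?_ <;>
      simp [Matrix.trace_fin_two, Matrix.mul_apply, Fin.sum_univ_two, hC, hX'] <;> ring
  rw [TWEuler.mem_fixedBy]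
  constructor
  · intro h
    have h' := congrArg Subtype.val h
    rw [twAct_coe, hinv, hd, neg_one_smul] at h'
    have hm := congrArg (· * rb c) h'
    simp only [neg_mul, mul_assoc, hsq, mul_one] at hm
    rw [← hm, add_neg_cancel] at e
    have e' := congrFun (congrFun e.symm 0) 0
    simpa using e'
  · intro h
    rw [h, zero_smul] at e
    refine Subtype.ext ?_
    rw [twAct_coe, hinv, hd, neg_one_smul, eq_neg_of_add_eq_zero_left e, neg_mul, neg_neg,
      mul_assoc, hsq, mul_one]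

/-- An involution of determinant `-1` fixes a plane of the twisted adjoint module. -/
theorem card_fixedBy_tw [Finite k] (h2 : (2 : k) ≠ 0) (hc : c * c = 1) (hd : (rb c).det = -1) :
    Nat.card ↥(TWEuler.fixedBy (twAct rb) c) = Nat.card k ^ 2 := by
  obtain ⟨hsq, -, ht, -⟩ := rb_conj_facts h2 hc hd
  let f : Tz k →+ k := AddMonoidHom.mk' (fun x => (rb c * (x : M2 k)).trace) fun x y => by
    rw [Submodule.coe_add, mul_add, Matrix.trace_add]
  have hf : Function.Surjective f := fun a => ⟨(a / 2) • ⟨rb c, ht⟩, by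
    show (rb c * ((a / 2) • rb c)).trace = a
    rw [mul_smul_comm, hsq, Matrix.trace_smul, Matrix.trace_one, Fintype.card_fin, smul_eq_mul]
    push_cast
    exact div_mul_cancel₀ a h2⟩
  have hker : TWEuler.fixedBy (twAct rb) c = f.ker := AddSubgroup.ext (mem_fixedBy_tw_iff h2 hc hd)
  have h := AddSubgroup.card_eq_card_quotient_mul_card_addSubgroup f.ker
  rw [Nat.card_congr (QuotientAddGroup.quotientKerEquivOfSurjective f hf).toEquiv, card_tz,
    ← hker, pow_succ'] at h
  exact (Nat.eq_of_mul_eq_mul_left Nat.card_pos h).symm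

variable {p : ℕ} [Fact p.Prime]

theorem cycloChar_complexConjugation : cycloChar p complexConjugation = -1 :=
  have : NeZero p := ⟨(Fact.out : p.Prime).ne_zero⟩
  Oddness.modularCyclotomicCharacter_of_involution p (card_rootsOfUnity_eq_self p)
    complexConjugation_mul_self Oddness.complexConjugation_ne_one

/-- Complex conjugation has determinant `-1`. -/
theorem det_rb_complexConjugation (hdet : DetCyclo p rb) :
    (rb complexConjugation).det = -1 := by
  obtain ⟨hpk, h⟩ := hdet
  rw [h, cycloChar_complexConjugation, Units.val_neg, Units.val_one]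
  obtain ⟨m, rfl⟩ : ∃ m, p = m + 1 := ⟨p - 1, (Nat.sub_add_cancel (Fact.out : p.Prime).pos).symm⟩
  rw [ZMod.val_neg_one]
  push_cast at hpk
  exact eq_neg_of_add_eq_zero_left hpk

end Conjugation

/-- The hypothesis `hdet` of the Taylor-Wiles statement gives `DetCyclo`. -/
theorem detCyclo_matrixHom {p : ℕ} [Fact p.Prime] {ρbar : ResidualGaloisRep k}
    (b : Module.Basis (Fin 2) k ρbar.V)
    (hdet : (GaloisRepAdic.ofResidualGaloisRep ρbar).DetIsCyclotomic p) :
    DetCyclo p (TWElement.matrixHom ρbar b) := by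
  obtain ⟨hp0, hd⟩ := TWElement.det_matrixHom ρbar b p hdet
  refine ⟨hp0, fun g => hd g _ fun μ hμ => ?_⟩
  obtain ⟨i, -, rfl⟩ := (isPrimitiveRoot_zetaP p).eq_pow_of_pow_eq_one hμ
  rw [map_pow, ← pow_mul, mul_comm, pow_mul]
  exact congrArg (· ^ i) (galField_zetaP p g)

end Fermat.Agent.GlobalBound

end
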