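import Fermat.Agent.GlobalBound.Defs
import Fermat.Agent.TWAssembly.GoodPrimes

/-!
# The adjoint action of a matrix with distinct eigenvalues

For `disc2 A ≠ 0`, a trace-zero matrix decomposes as a multiple of `axis A` plus an element of the
image of `Ad A - 1`.
-/

set_option autoImplicit false

noncomputable section

namespace Fermat.Agent.GlobalBound

open Fermat.Agent.TWLocal (M2)
open Fermat.Agent.TWAssembly (disc2 sq_eq_trace_smul_sub)

variable {k : Type} [Field k]

/-- The trace-zero part of a matrix, doubled. -/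
def axis (A : M2 k) : Tz k :=
  ⟨(2 : k) • A - A.trace • (1 : M2 k), by
    simp [LinearMap.mem_ker, Matrix.trace_fin_two]
    ring⟩

@[simp] theorem axis_coe (A : M2 k) :
    (axis A : M2 k) = (2 : k) • A - A.trace • (1 : M2 k) := rfl

/-- The axis of a matrix commutes with it. -/
theorem axis_mul_comm (A : M2 k) : A * (axis A : M2 k) = (axis A : M2 k) * A := by
  simp [mul_sub, sub_mul]

theorem trace_mul_axis (A : M2 k) : (A * (axis A : M2 k)).trace = disc2 A := by
  simp [disc2, Matrix.trace_fin_two, Matrix.det_fin_two, Matrix.mul_apply, Fin.sum_univ_two]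
  ring

/-- The trace pairing with the axis. -/
theorem trace_axis_mul (A : M2 k) (Y : Tz k) :
    ((axis A : M2 k) * (Y : M2 k)).trace = 2 * (A * (Y : M2 k)).trace := by
  rw [axis_coe, sub_mul, Matrix.trace_sub, smul_mul_assoc, smul_mul_assoc, one_mul,
    Matrix.trace_smul, Matrix.trace_smul, trace_coe, smul_zero, sub_zero, smul_eq_mul]

theorem cayley_polar {A Z : M2 k} (hZ : Z.trace = 0) (hAZ : (A * Z).trace = 0) :
    Z * A = A.trace • Z - A * Z := by
  have h1 : Z 1 1 = -Z 0 0 := by
    rw [Matrix.trace_fin_two] at hZ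
    linear_combination hZ
  simp [Matrix.trace_fin_two, Matrix.mul_apply, Fin.sum_univ_two, h1] at hAZ
  ext i j
  fin_cases i <;> fin_cases j <;>
    simp [Matrix.mul_apply, Fin.sum_univ_two, Matrix.trace_fin_two, h1]
  all_goals first | linear_combination hAZ | linear_combination -hAZ | ring

/-- The double commutator on the complement of the axis. -/
theorem double_commutator {A Z : M2 k} (hZ : Z.trace = 0) (hAZ : (A * Z).trace = 0) :
    A * (A * Z - Z * A) - (A * Z - Z * A) * A = disc2 A • Z := by
  have h := cayley_polar hZ hAZ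
  have h1 : A * (Z * A) = A.trace • (A * Z) - A * (A * Z) := by
    rw [h, mul_sub, mul_smul_comm]
  have h2 : Z * A * A = A.trace • (A.trace • Z - A * Z) - (A.trace • (A * Z) - A * (A * Z)) := by
    rw [h, sub_mul, smul_mul_assoc, h, mul_assoc, h, mul_sub, mul_smul_comm]
  have h3 : A * (A * Z) = A.trace • (A * Z) - A.det • Z := by
    rw [← mul_assoc, sq_eq_trace_smul_sub, sub_mul, smul_mul_assoc, smul_mul_assoc, one_mul]
  rw [mul_sub, sub_mul, mul_assoc A Z A, h1, h2, h3, disc2]
  module

/-- A trace-zero matrix is a multiple of the axis plus an element of the image of `Ad A - 1`. -/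
theorem exists_axis_decomp {A B : M2 k} (hAB : A * B = 1) (hd : disc2 A ≠ 0) (Y : Tz k) :
    ∃ (c : k) (X : Tz k), (Y : M2 k) = c • (axis A : M2 k) + (A * (X : M2 k) * B - X) ∧
      c * disc2 A = (A * (Y : M2 k)).trace := by
  set c := (A * (Y : M2 k)).trace / disc2 A with hc
  set Y' : Tz k := Y - c • axis A with hY'
  have hY't : (A * (Y' : M2 k)).trace = 0 := by
    rw [hY', Submodule.coe_sub, Submodule.coe_smul, mul_sub, mul_smul_comm, Matrix.trace_sub,
      Matrix.trace_smul, trace_mul_axis, smul_eq_mul, hc, div_mul_cancel₀ _ hd, sub_self]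
  set Z : M2 k := (Y' : M2 k) * A with hZ
  have hZt : Z.trace = 0 := by rw [hZ, Matrix.trace_mul_comm, hY't]
  have hAZ : (A * Z).trace = 0 := by
    rw [hZ, ← mul_assoc, Matrix.trace_mul_comm, ← mul_assoc, sq_eq_trace_smul_sub, sub_mul,
      smul_mul_assoc, smul_mul_assoc, one_mul, Matrix.trace_sub, Matrix.trace_smul,
      Matrix.trace_smul, hY't, trace_coe, smul_zero, smul_zero, sub_zero]
  set X : Tz k := ⟨(disc2 A)⁻¹ • (A * Z - Z * A), by
    show ((disc2 A)⁻¹ • (A * Z - Z * A)).trace = 0
    rw [Matrix.trace_smul, Matrix.trace_sub, Matrix.trace_mul_comm A Z, sub_self, smul_zero]⟩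
  refine ⟨c, X, ?_, by rw [hc, div_mul_cancel₀ _ hd]⟩
  have h : A * (X : M2 k) - (X : M2 k) * A = (Y' : M2 k) * A := by
    show A * ((disc2 A)⁻¹ • (A * Z - Z * A)) - (disc2 A)⁻¹ • (A * Z - Z * A) * A = Z
    rw [mul_smul_comm, smul_mul_assoc, ← smul_sub, double_commutator hZt hAZ, smul_smul,
      inv_mul_cancel₀ hd, one_smul]
  have h' : A * (X : M2 k) * B - X = (Y' : M2 k) := by
    have := congrArg (· * B) h
    simp only [sub_mul, mul_assoc, hAB, mul_one] at this
    rwa [← mul_assoc] at this
  rw [h', hY', Submodule.coe_sub, Submodule.coe_smul]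
  abel

end Fermat.Agent.GlobalBound

end
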