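import Fermat.Agent.PoitouTate.RightExact

/-!
# Cup products of characters with trivial coefficients

A nonzero character `v` has some character `u` with `u ∪ v` detected in `H²`
(`exists_cup_ne_zero`), through the extension of `ZMod p` by itself defined by `v`.
-/

set_option autoImplicit false

noncomputable section

namespace Fermat.Agent.GlobalBound

open Fermat.Agent.PoitouTate

variable {G : Type} [Group G] {p : ℕ} [Fact p.Prime]

/-- The translation action of a character on `ZMod p`. -/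
def shiftPerm {v : G → ZMod p} (hv : ∀ g h, v (g * h) = v g + v h) : G →* Equiv.Perm (ZMod p) where
  toFun g := Equiv.addRight (v g)
  map_one' := Equiv.ext fun y => by
    have h0 : v 1 = 0 := by simpa using hv 1 1
    simp [h0]
  map_mul' g h := Equiv.ext fun y => by
    show y + v (g * h) = y + v h + v g
    rw [hv]
    abel

@[simp] theorem shiftPerm_apply {v : G → ZMod p} (hv : ∀ g h, v (g * h) = v g + v h) (g : G)
    (y : ZMod p) : shiftPerm hv g y = y + v g := rfl

theorem shiftPerm_symm_apply {v : G → ZMod p} (hv : ∀ g h, v (g * h) = v g + v h) (g : G)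
    (y : ZMod p) : (shiftPerm hv g).symm y = y - v g := by
  rw [Equiv.symm_apply_eq, shiftPerm_apply, sub_add_cancel]

/-- The extension of `ZMod p` by itself defined by a character. -/
def extAct {v : G → ZMod p} (hv : ∀ g h, v (g * h) = v g + v h) : Act G (ZMod p × ZMod p) where
  toFun g := AddMonoidHom.mk' (fun x => (x.1, x.2 + v g * x.1)) fun x x' => by
    refine Prod.ext rfl ?_
    simp only [Prod.fst_add, Prod.snd_add, mul_add]
    abel
  map_one' := AddMonoidHom.ext fun x => Prod.ext rfl (by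
    have h0 : v 1 = 0 := by simpa using hv 1 1
    show x.2 + v 1 * x.1 = x.2
    rw [h0, zero_mul, add_zero])
  map_mul' g h := AddMonoidHom.ext fun x => Prod.ext rfl (by
    show x.2 + v (g * h) * x.1 = x.2 + v h * x.1 + v g * x.1
    rw [hv]
    ring)

@[simp] theorem extAct_apply {v : G → ZMod p} (hv : ∀ g h, v (g * h) = v g + v h) (g : G)
    (x : ZMod p × ZMod p) : extAct hv g x = (x.1, x.2 + v g * x.1) := rfl

/-- Characters with trivial coefficients pair nondegenerately with any nonzero character, as soon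
as `H²` of a cyclic cover is detected by a functional on `H²` of the base. -/
theorem exists_cup_ne_zero {L : Levels G} {μ : Act G (ZMod p)} {χ : G →* (ZMod p)ˣ}
    (E : EulerFamily L μ χ) (hχ : ∀ g, χ g = 1) (hμ : ∀ g a, μ g a = (χ g : ZMod p) * a)
    (F : H2 L μ →+ ZMod p)
    (hF : ∀ (Y : Type) [Fintype Y] (σ : G →* Equiv.Perm Y), IsTransitive σ → IsSmoothSet L σ →
      Function.Bijective fun z => F (H2.coef sumHom (sumHom_intertwines σ μ) z))
    {v : G → ZMod p} (hv : ∀ g h, v (g * h) = v g + v h) (hlc : L.IsLC₁ v)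
    (hne : ∃ g, v g ≠ 0) :
    ∃ u : G → ZMod p, (∀ g h, u (g * h) = u g + u h) ∧ L.IsLC₁ u ∧
      ∀ c : ↥(z2 L μ), (∀ g h, c.1 g h = u g * v h) → F (H2.mk c) ≠ 0 := by
  classical
  have hμ1 : ∀ g a, μ g a = a := fun g a => by rw [hμ, hχ, Units.val_one, one_mul]
  have hlcv := hlc
  obtain ⟨g₀, hg₀⟩ := hne
  have h1 : v 1 = 0 := by simpa using hv 1 1
  have hvn : ∀ n : ℕ, v (g₀ ^ n) = n * v g₀ := fun n => by
    induction n with
    | zero => simp [h1]
    | succ n ih => rw [pow_succ, hv, ih, Nat.cast_succ, add_mul, one_mul]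
  obtain ⟨U, hU, hvU⟩ := hlc
  have hUv : ∀ s ∈ U, v s = 0 := fun s hs => by
    have := hvU 1 s hs
    rwa [one_mul, h1] at this
  have := L.normal hU
  have := finite_coset hU le_rfl
  let _ : Fintype (G ⧸ U) := Fintype.ofFinite _
  have htr : IsTransitive (shiftPerm hv) := ⟨⟨0⟩, fun y z => by
    refine ⟨g₀ ^ ((z - y) / v g₀).val, ?_⟩
    rw [shiftPerm_apply, hvn, ZMod.natCast_zmod_val, div_mul_cancel₀ _ hg₀, add_sub_cancel]⟩
  have hsm : IsSmoothSet L (shiftPerm hv) := ⟨U, hU, fun s hs => Equiv.ext fun y => by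
    rw [shiftPerm_apply, hUv s hs, add_zero]; rfl⟩
  have hbij := hF (ZMod p) (shiftPerm hv) htr hsm
  have hμs : IsSmooth L μ := fun a => ⟨U, hU, fun s _ => hμ1 s a⟩
  have hsE : IsSmooth L (extAct hv) := fun x => ⟨U, hU, fun s hs => by
    rw [extAct_apply, hUv s hs, zero_mul, add_zero]⟩
  have htriv : IsTrivOn (permAct (shiftPerm hv) μ) χ U := fun s hs => ⟨hχ s, fun φ =>
    funext fun y => by rw [permAct_apply, hμ1, shiftPerm_symm_apply, hUv s hs, sub_zero]⟩
  -- the two maps out of `Map(ZMod p, μ)`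
  let π' : (ZMod p → ZMod p) →+ ZMod p × ZMod p :=
    AddMonoidHom.mk' (fun f => (∑ y, f y, ∑ y, y * f y)) fun f f' => by
      simp only [Pi.add_apply, mul_add, Finset.sum_add_distrib, Prod.mk_add_mk]
  have hπ' : IsEquivariant (permAct (shiftPerm hv) μ) (extAct hv) π' := fun g f => by
    have hval : ∀ y, permAct (shiftPerm hv) μ g f y = f (y - v g) := fun y => by
      rw [permAct_apply, hμ1, shiftPerm_symm_apply]
    refine Prod.ext ?_ ?_
    · show ∑ y, permAct (shiftPerm hv) μ g f y = ∑ y, f y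
      simp only [hval]
      exact Equiv.sum_comp (Equiv.subRight (v g)) f
    · show ∑ y, y * permAct (shiftPerm hv) μ g f y = ∑ y, y * f y + v g * ∑ y, f y
      simp only [hval, Finset.mul_sum, ← Finset.sum_add_distrib]
      refine Fintype.sum_equiv (Equiv.subRight (v g)) _ _ fun y => ?_
      rw [Equiv.subRight_apply]
      ring
  have hsurj : Function.Surjective π' := fun x => by
    refine ⟨Pi.single 0 (x.1 - x.2) + Pi.single 1 x.2, Prod.ext ?_ ?_⟩
    · show ∑ y, (Pi.single 0 (x.1 - x.2) + Pi.single 1 x.2 : ZMod p → ZMod p) y = x.1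
      simp [Finset.sum_add_distrib, Finset.sum_pi_single']
    · show ∑ y, y * (Pi.single 0 (x.1 - x.2) + Pi.single 1 x.2 : ZMod p → ZMod p) y = x.2
      simp [mul_add, Finset.sum_add_distrib, Pi.single_apply]
  let ι : ZMod p →+ ZMod p × ZMod p := AddMonoidHom.inr _ _
  let π : ZMod p × ZMod p →+ ZMod p := AddMonoidHom.fst _ _
  have hse : ShortExact μ (extAct hv) μ ι π :=
    { equiv_ι := fun g a => by
        show ((0 : ZMod p), μ g a) = extAct hv g (0, a)
        rw [extAct_apply, mul_zero, add_zero, hμ1]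
      equiv_π := fun g x => by
        show (extAct hv g x).1 = μ g x.1
        rw [extAct_apply, hμ1]
      injective := fun a b h => congrArg Prod.snd h
      surjective := fun a => ⟨(a, 0), rfl⟩
      exact := fun x => ⟨fun h => ⟨x.2, Prod.ext (show (0 : ZMod p) = x.1 from h.symm) rfl⟩,
        by rintro ⟨a, rfl⟩; rfl⟩ }
  -- classes of the subgroup die in the extension
  obtain ⟨w₁, hw₁⟩ := hbij.2 1
  set z := H2.coef sumHom (sumHom_intertwines (shiftPerm hv) μ) w₁ with hz
  have hz1 : F z = 1 := hw₁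
  have hιz : H2.coef (L := L) ι hse.equiv_ι z = 0 := by
    obtain ⟨w, hw⟩ := H2.surjective_coef E hμ hμs hU htriv hπ' hsurj
      (H2.coef (L := L) ι hse.equiv_ι z)
    have hw0 : H2.coef sumHom (sumHom_intertwines (shiftPerm hv) μ) w = 0 := by
      have h0 : H2.coef (L := L) π hse.equiv_π (H2.coef (L := L) π' hπ' w) = 0 := by
        rw [hw]
        exact (hse.exact_H2 hsE _).2 ⟨z, rfl⟩
      rw [H2.map_map] at h0
      refine Eq.trans ?_ h0
      exact congrFun (congrArg DFunLike.coe (H2.map_congr _ _ _ _ (by ext; rfl) (by ext f; rfl))) w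
    have : w = 0 := hbij.1 (by
      show F (H2.coef sumHom _ w) = F (H2.coef sumHom _ 0)
      rw [hw0]; simp)
    rw [← hw, this, map_zero]
  obtain ⟨c, hc⟩ := (hse.exact_δ₁_H2 hsE _).1 hιz
  obtain ⟨c, rfl⟩ := H1.mk_surjective c
  refine ⟨c.1, fun g h => by rw [cocycle₁_mul c.2.2, hμ1, add_comm], c.2.1, fun d hd => ?_⟩
  -- the connecting map is the cup product with `v`
  have hvz : (fun g h => v g * c.1 h) ∈ z2 L μ := by
    refine ⟨?_, ?_⟩
    · obtain ⟨V, hV, hVf⟩ := hlcv.comp₂ c.2.1 Prod.mk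
      refine ⟨V, hV, fun g h s hs t ht => ?_⟩
      have e1 := congrArg Prod.fst (hVf g s hs)
      have e2 := congrArg Prod.snd (hVf h t ht)
      simp only at e1 e2
      simp only [e1, e2]
    · intro g h j
      simp only [hμ1, hv, cocycle₁_mul c.2.2]
      ring
  have hb : L.IsLC₁ fun g => (c.1 g, (0 : ZMod p)) := c.2.1.comp fun a => (a, 0)
  have hδ := hse.δ₁_mk hsE (c := c) ⟨_, hvz⟩ hb (fun g => rfl) fun g h => by
    rw [d1_apply, extAct_apply]
    refine Prod.ext ?_ ?_
    · show (0 : ZMod p) = c.1 h - c.1 (g * h) + c.1 g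
      rw [cocycle₁_mul c.2.2, hμ1]
      abel
    · show v g * c.1 h = 0 + v g * c.1 h - 0 + 0
      abel
  have hanti : H2.mk d = -H2.mk ⟨_, hvz⟩ := by
    rw [eq_neg_iff_add_eq_zero, ← map_add, H2.mk_eq_zero_iff]
    refine ⟨fun g => -(c.1 g * v g), (c.2.1.comp₂ hlcv Prod.mk).comp
      (fun x => -(x.1 * x.2)), funext fun g => funext fun h => ?_⟩
    simp only [d1_apply, AddSubgroup.coe_add, Pi.add_apply, hd g h, hμ1, hv,
      cocycle₁_mul c.2.2]
    ring
  have hzc : z = H2.mk ⟨_, hvz⟩ := hc.symm.trans hδ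
  rw [hanti, map_neg, ← hzc, hz1]
  exact neg_ne_zero.2 one_ne_zero

end Fermat.Agent.GlobalBound

end
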