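import Fermat.Agent.PoitouTate.Inputs
import Fermat.Agent.PoitouTate.LocalFrobenius
import Fermat.Agent.PoitouTate.Hasse

/-!
# Frobenius and inertia in a decomposition group

Modulo any level, `G_{ℚ_q}` is generated by a Frobenius and inertia (`exists_eq_pow_mul`); so the
cyclotomic character modulo `p` is trivial on it when `q ≡ 1 (mod p)`.
-/

set_option autoImplicit false

noncomputable section

namespace Fermat.Agent.GlobalBound

open ExtCitation Fermat.Agent.PoitouTate

variable {q : ℕ} [hq : Fact q.Prime]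

/-- An element of `G_{ℚ_q}` inducing a Frobenius. -/
abbrev IsLocalFrob (g : GQl q) : Prop :=
  (padicPlace q).IsFrobeniusAt (localGaloisToGlobal q g) q

/-- An element of `G_{ℚ_q}` inducing an element of inertia. -/
abbrev IsLocalInertia (g : GQl q) : Prop :=
  localGaloisToGlobal q g ∈ (padicPlace q).inertiaSubgroupIn ℚ

/-- Modulo a level every element is a power of Frobenius times an element of inertia. -/
theorem exists_eq_pow_mul {g₀ : GQl q} (hg₀ : IsLocalFrob g₀) {V : Subgroup (GQl q)}
    (hV : (localLevels q).mem V) (g : GQl q) :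
    ∃ (n : ℕ) (i t : GQl q), IsLocalInertia i ∧ t ∈ V ∧ g = g₀ ^ n * i * t := by
  obtain ⟨U, ⟨hn, F, hF, -, rfl⟩, rfl⟩ := hV
  have : IsGalois ℚ QBar := by
    have : IsAlgClosure ℚ QBar := ⟨inferInstance, AlgebraicClosure.isAlgebraic ℚ⟩
    have : Normal ℚ QBar := IsAlgClosure.normal ℚ QBar
    exact {}
  have : IsGalois ℚ F := (InfiniteGalois.normal_iff_isGalois F).1 hn
  obtain ⟨n, τ, hτ, hI⟩ := exists_frobenius_pow_mul_inertia (padicPlace_liesOverPrime q) hq.out F
    hg₀ (localGaloisToGlobal_mem_decompositionSubgroup q g)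
  obtain ⟨i, hi⟩ := padicPlace_mul_left_mem (q := q)
    (Fermat.Agent.GaloisBasics.inertiaSubgroupIn_le_decompositionSubgroup hI)
  refine ⟨n, i, i⁻¹ * (g₀ ^ n)⁻¹ * g, by rw [IsLocalInertia, hi]; exact hI, ?_, by group⟩
  rw [Subgroup.mem_comap, map_mul, map_mul, map_inv, map_inv, hi, map_pow]
  convert F.fixingSubgroup.inv_mem hτ using 1
  group

variable {p : ℕ} [hp : Fact p.Prime]

/-- A prime `q ≡ 1 (mod p)` differs from `p`. -/
theorem ne_of_dvd_sub_one (h : p ∣ q - 1) : q ≠ p := by
  rintro rfl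
  have h2 := hq.out.two_le
  have := Nat.le_of_dvd (by omega) h
  omega

/-- At a prime congruent to one modulo `p` the cyclotomic character is trivial. -/
theorem cycloChar_local_eq_one (h : p ∣ q - 1) (g : GQl q) :
    cycloChar p (localGaloisToGlobal q g) = 1 := by
  have : NeZero p := ⟨hp.out.ne_zero⟩
  have hqp : ¬ q ∣ p := fun e =>
    ne_of_dvd_sub_one h ((Nat.prime_dvd_prime_iff_eq hq.out hp.out).1 e)
  obtain ⟨U, hU, hU1⟩ := exists_level_cycloChar (p := p)
  obtain ⟨V, hV, hVU⟩ := compat_local q U hU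
  obtain ⟨g₀, hg₀, -⟩ := exists_local_frobenius (q := q)
  obtain ⟨n, i, t, hi, ht, rfl⟩ := exists_eq_pow_mul hg₀ hV g
  have h0 : cycloChar p (localGaloisToGlobal q g₀) = 1 := by
    refine Units.ext ?_
    have e := Fermat.Agent.GaloisBasics.modularCyclotomicCharacter_frobenius
      (padicPlace_liesOverPrime q) hq.out (card_rootsOfUnity_eq_self p) hqp hg₀
    refine e.trans ?_
    rw [Units.val_one, ← Nat.sub_add_cancel hq.out.one_le, Nat.cast_add, Nat.cast_one,
      (ZMod.natCast_eq_zero_iff _ _).2 h, zero_add]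
  have h1 : cycloChar p (localGaloisToGlobal q i) = 1 :=
    Fermat.Agent.GaloisBasics.modularCyclotomicCharacter_inertia
      (padicPlace_liesOverPrime q) hq.out (card_rootsOfUnity_eq_self p) hqp hi
  simp only [map_mul, map_pow, h0, h1, hU1 _ (hVU ht), one_pow, mul_one]

end Fermat.Agent.GlobalBound

end
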