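import Fermat.Agent.GlobalBound.Core
import Fermat.Agent.TWLocal.Generation
import Fermat.Agent.GlobalBound.TameCup
import Fermat.Agent.GlobalBound.TameAdjoint
import Fermat.Agent.GlobalBound.TameFrobenius
import Fermat.Agent.PoitouTate.Pairing

/-!
# The local pairing at a Taylor–Wiles prime

At a prime `q ≡ 1 (mod p)` where `rb` is unramified with distinct Frobenius eigenvalues, a
twisted class orthogonal to all adjoint classes is trivial (`exists_d0_of_locCup_eq_zero`).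
-/

set_option autoImplicit false

noncomputable section

namespace Fermat.Agent.GlobalBound

open ExtCitation Fermat.Agent.PoitouTate
open Fermat.Agent.TWLocal (M2 rb_mul_inv rb_inv_mul)
open Fermat.Agent.TWAssembly (disc2)

variable {k : Type} [Field k] {p : ℕ} [Fact p.Prime]

section Local

variable (I : InvSystem p) (ℓ : k →+ ZMod p) {rb : GQ →* M2 k} (hdet : DetCyclo p rb)
  {q : Nat.Primes}

include hdet in
theorem det_local_eq_one (hq1 : p ∣ (q : ℕ) - 1) (g : GQl (q : ℕ)) :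
    (rb (localGaloisToGlobal (q : ℕ) g)).det = 1 := by
  rw [hdet.2, cycloChar_local_eq_one hq1, Units.val_one, ZMod.val_one, Nat.cast_one]

include hdet in
theorem twLoc_eq_adLoc (hq1 : p ∣ (q : ℕ) - 1) : twLoc rb (q : ℕ) = adLoc rb (q : ℕ) := by
  refine MonoidHom.ext fun g => AddMonoidHom.ext fun x => Subtype.ext ?_
  show ((twAct rb (localGaloisToGlobal (q : ℕ) g) x : Tz k) : M2 k) =
    ((adAct rb (localGaloisToGlobal (q : ℕ) g) x : Tz k) : M2 k)
  rw [twAct_coe, adAct_coe, det_local_eq_one hdet hq1, one_smul]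

/-- A fixed vector pairing nontrivially with the values of a twisted cocycle gives a class
pairing nontrivially with it. -/
theorem exists_locCup_ne_zero_of_fixed (hL : LocalInputs I q) (hq1 : p ∣ (q : ℕ) - 1)
    (hs : IsSmooth (localLevels q) (twLoc rb q)) {x₀ : Tz k}
    (hx : ∀ g, adLoc rb q g x₀ = x₀) {y : GQl (q : ℕ) → Tz k}
    (hy : y ∈ z1 (localLevels q) (twLoc rb q)) (hne : ∃ g, trPair ℓ x₀ (y g) ≠ 0) :
    ∃ f ∈ z1 (localLevels q) (adLoc rb q), locCup I ℓ hdet q f y ≠ 0 := by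
  have hχ : ∀ g : GQl (q : ℕ),
      ((cycloChar p).comp (localGaloisToGlobal (q : ℕ))) g = 1 := cycloChar_local_eq_one hq1
  have hμ1 : ∀ (g : GQl (q : ℕ)) (a : ZMod p), muLoc p (q : ℕ) g a = a := fun g a => by
    show muAct p (localGaloisToGlobal (q : ℕ) g) a = a
    rw [muAct_apply, cycloChar_local_eq_one hq1, Units.val_one, one_mul]
  have hpair : ∀ g z, trPair ℓ x₀ (twLoc rb q g z) = trPair ℓ x₀ z := fun g z => by
    conv_lhs => rw [← hx g]
    exact (trPair_equivariant ℓ hdet (localGaloisToGlobal (q : ℕ) g) x₀ z).trans (hμ1 g _)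
  let v : GQl (q : ℕ) → ZMod p := fun g => trPair ℓ x₀ (y g)
  have hv : ∀ g h, v (g * h) = v g + v h := fun g h => by
    simp only [v, cocycle₁_mul hy.2 g h, map_add, hpair, add_comm]
  obtain ⟨u, hu, hulc, huv⟩ := exists_cup_ne_zero (localEuler hL) hχ (fun _ _ => rfl)
    (I.invMu q) (fun Y _ σ htr hsm => hL.bijective Y σ htr hsm fun g x _ => hχ g)
    hv (hy.1.comp _) hne
  let m : ZMod p →+ Tz k := ZMod.lift p ⟨zmultiplesHom _ x₀, by
    rw [zmultiplesHom_apply, natCast_zsmul, nsmul_eq_zero hdet.1]⟩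
  have hm1 : m 1 = x₀ := by
    have := ZMod.lift_coe p (A := Tz k) ⟨zmultiplesHom _ x₀, by
      rw [zmultiplesHom_apply, natCast_zsmul, nsmul_eq_zero hdet.1]⟩ 1
    simpa [m] using this
  have hm : ∀ a, m a = a.val • x₀ := fun a => by
    rw [← hm1, ← map_nsmul, nsmul_one, ZMod.natCast_zmod_val]
  have hf : (fun g => m (u g)) ∈ z1 (localLevels q) (adLoc rb q) :=
    ⟨hulc.comp _, d1_eq_zero_of_mul fun g h => by
      show m (u (g * h)) = _
      rw [hu, map_add, hm (u h), map_nsmul, hx, add_comm]⟩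
  refine ⟨_, hf, ?_⟩
  rw [locCup_eq I ℓ hdet q hs hf hy]
  refine huv _ fun g h => ?_
  show trPair ℓ (m (u g)) (twLoc rb q g (y h)) = u g * trPair ℓ x₀ (y h)
  rw [hm, map_nsmul, AddMonoidHom.nsmul_apply, hpair, nsmul_eq_mul, ZMod.natCast_zmod_val]

variable (hI : ∀ σ ∈ (padicPlace (q : ℕ)).inertiaSubgroupIn ℚ, rb σ = 1)
  (hsA : IsSmooth (localLevels q) (adLoc rb q))
  {g₀ : GQl (q : ℕ)} (hg₀ : IsLocalFrob g₀)

include hI in
theorem adLoc_inertia {i : GQl (q : ℕ)} (hi : IsLocalInertia i) (x : Tz k) :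
    adLoc rb q i x = x := by
  refine Subtype.ext ?_
  show ((adAct rb (localGaloisToGlobal (q : ℕ) i) x : Tz k) : M2 k) = x
  rw [adAct_coe, hI _ hi, hI _ (inv_mem hi), one_mul, mul_one]

include hI hsA hg₀ in
/-- What commutes with Frobenius is invariant. -/
theorem adLoc_eq_self {x : Tz k}
    (hx : rb (localGaloisToGlobal (q : ℕ) g₀) * (x : M2 k) =
      (x : M2 k) * rb (localGaloisToGlobal (q : ℕ) g₀)) (g : GQl (q : ℕ)) :
    adLoc rb q g x = x := by
  have h0 : adLoc rb q g₀ x = x := by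
    refine Subtype.ext ?_
    show ((adAct rb (localGaloisToGlobal (q : ℕ) g₀) x : Tz k) : M2 k) = x
    rw [adAct_coe, hx, mul_assoc, rb_mul_inv, mul_one]
  have hn : ∀ n : ℕ, adLoc rb q (g₀ ^ n) x = x := fun n => by
    induction n with
    | zero => rw [pow_zero, act_one_apply]
    | succ n ih => rw [pow_succ, act_mul_apply, h0, ih]
  obtain ⟨V, hV, hVx⟩ := hsA x
  obtain ⟨n, i, t, hi, ht, rfl⟩ := exists_eq_pow_mul hg₀ hV g
  rw [act_mul_apply, act_mul_apply, hVx t ht, adLoc_inertia hI hi, hn]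

omit hI hsA hg₀ in
theorem eq_zero_of_commute {A : M2 k} (hd : disc2 A ≠ 0) {z : M2 k} (hz : z.trace = 0)
    (hAz : (A * z).trace = 0) (hc : A * z = z * A) : z = 0 := by
  have h := double_commutator hz hAz
  rw [hc, sub_self, mul_zero, zero_mul, sub_self] at h
  exact (smul_eq_zero.1 h.symm).resolve_left hd

omit hI hsA hg₀ in
/-- **Nondegeneracy at a Taylor-Wiles prime.** A class orthogonal to all classes of the adjoint
representation is trivial. -/
theorem exists_d0_of_locCup_eq_zero_of_disc (hp2 : p ≠ 2) (I : InvSystem p) {ℓ : k →+ ZMod p}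
    (hℓ : ℓ ≠ 0) {rb : GQ →* M2 k} (hdet : DetCyclo p rb)
    (hrb : ∃ U, allLevels.mem U ∧ ∀ g ∈ U, rb g = 1) (q : Nat.Primes) (hL : LocalInputs I q)
    (hq1 : p ∣ (q : ℕ) - 1) (hI : ∀ σ ∈ (padicPlace (q : ℕ)).inertiaSubgroupIn ℚ, rb σ = 1)
    {φ : GQ} (hφ : (padicPlace (q : ℕ)).IsFrobeniusAt φ q)
    (hd : disc2 (rb φ) ≠ 0) {y : GQl (q : ℕ) → Tz k}
    (hy : y ∈ z1 (localLevels q) (twLoc rb q))
    (h : ∀ f ∈ z1 (localLevels q) (adLoc rb q), locCup I ℓ hdet q f y = 0) :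
    y ∈ (d0 (twLoc rb q)).range := by
  obtain ⟨g₀, rfl⟩ := padicPlace_mul_left_mem (q := (q : ℕ)) hφ.mem_decompositionSubgroup
  set A := rb (localGaloisToGlobal (q : ℕ) g₀) with hA
  have h2 : (2 : k) ≠ 0 := two_ne_zero_of_cast hp2 hdet.1
  have e := twLoc_eq_adLoc hdet hq1
  obtain ⟨U, hU, hU1⟩ := hrb
  have hsA : IsSmooth (localLevels q) (adLoc rb q) := fun x => by
    obtain ⟨V, hV, hle⟩ := compat_local (q : ℕ) U hU
    refine ⟨V, hV, fun s hs => Subtype.ext ?_⟩
    show ((adAct rb (localGaloisToGlobal (q : ℕ) s) x : Tz k) : M2 k) = x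
    rw [adAct_coe, hU1 _ (hle hs), hU1 _ (inv_mem (hle hs)), one_mul, mul_one]
  have hs : IsSmooth (localLevels q) (twLoc rb q) := by rw [e]; exact hsA
  -- the values of `y` are orthogonal to the axis
  have horth : ∀ g, ((axis A : M2 k) * (y g : M2 k)).trace = 0 := fun g => by
    by_contra hne
    obtain ⟨t, ht⟩ : ∃ t, ℓ t ≠ 0 := by
      by_contra h'
      push Not at h'
      exact hℓ (AddMonoidHom.ext h')
    obtain ⟨f, hf, hfy⟩ := exists_locCup_ne_zero_of_fixed I ℓ hdet hL hq1 hs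
      (x₀ := (t / ((axis A : M2 k) * (y g : M2 k)).trace) • axis A)
      (adLoc_eq_self hI hsA hφ (by
        rw [Submodule.coe_smul, mul_smul_comm, smul_mul_assoc, ← hA, axis_mul_comm])) hy ⟨g, by
        rw [trPair_apply, Submodule.coe_smul, smul_mul_assoc, Matrix.trace_smul, smul_eq_mul,
          div_mul_cancel₀ _ hne]
        exact ht⟩
    exact hfy (h f hf)
  have horth' : ∀ g, (A * (y g : M2 k)).trace = 0 := fun g => by
    have := horth g
    rw [trace_axis_mul] at this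
    exact (mul_eq_zero.1 this).resolve_left h2
  obtain ⟨c, X, hcX, hcd⟩ := exists_axis_decomp (rb_mul_inv rb _) hd (y g₀)
  rw [horth', mul_eq_zero] at hcd
  rw [hcd.resolve_right hd, zero_smul, zero_add, ← hA] at hcX
  have hdX : ∀ g, ((d0 (twLoc rb q) X g : Tz k) : M2 k) =
      rb (localGaloisToGlobal (q : ℕ) g) * (X : M2 k) * rb (localGaloisToGlobal (q : ℕ) g)⁻¹ -
        X := fun g => by
    rw [e, d0_apply, Submodule.coe_sub]
    exact congrArg (· - (X : M2 k)) (adAct_coe rb _ X)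
  refine ⟨X, sub_eq_zero.1 ?_⟩
  set y' := d0 (twLoc rb q) X - y with hy'def
  have hy'z : y' ∈ z1 (localLevels q) (twLoc rb q) :=
    sub_mem ⟨hs.isLC₁_d0 X, d1_d0 _ X⟩ hy
  have hy'0 : y' g₀ = 0 := Subtype.ext (by
    rw [hy'def, Pi.sub_apply, Submodule.coe_sub, hdX, hcX, ← hA, sub_self, ZeroMemClass.coe_zero])
  have horthX : ∀ g, (A * (y' g : M2 k)).trace = 0 := fun g => by
    have hfix : rb (localGaloisToGlobal (q : ℕ) g)⁻¹ * (axis A : M2 k) *
        rb (localGaloisToGlobal (q : ℕ) g) = axis A := by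
      have h1 := congrArg Subtype.val (adLoc_eq_self hI hsA hφ (x := axis A) (axis_mul_comm A) g⁻¹)
      rw [← map_inv (localGaloisToGlobal (q : ℕ))]
      conv_rhs => rw [← h1]
      show _ = ((adAct rb (localGaloisToGlobal (q : ℕ) g⁻¹) (axis A) : Tz k) : M2 k)
      rw [adAct_coe, ← map_inv (localGaloisToGlobal (q : ℕ)), inv_inv]
    have h1 : ((axis A : M2 k) * (rb (localGaloisToGlobal (q : ℕ) g) * (X : M2 k) *
        rb (localGaloisToGlobal (q : ℕ) g)⁻¹)).trace = ((axis A : M2 k) * (X : M2 k)).trace := by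
      rw [← mul_assoc, ← mul_assoc, Matrix.trace_mul_comm, ← mul_assoc, ← mul_assoc, hfix]
    have h0 : ((axis A : M2 k) * (y' g : M2 k)).trace = 0 := by
      rw [hy'def, Pi.sub_apply, Submodule.coe_sub, hdX, mul_sub, mul_sub, Matrix.trace_sub,
        Matrix.trace_sub, h1, horth, sub_self, sub_zero]
    rw [trace_axis_mul] at h0
    exact (mul_eq_zero.1 h0).resolve_left h2
  -- pass to the decomposition group
  let E := decompositionEquiv (q : ℕ)
  let cD : ↥((padicPlace (q : ℕ)).decompositionSubgroup ℚ) → M2 k := fun σ => y' (E.symm σ)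
  obtain ⟨W, hW, hWf⟩ := hy'z.1
  obtain ⟨U', hU', hWU'⟩ := hW
  obtain ⟨W₁, hW₁, hW₁U, hW₁U'⟩ := allLevels.inf hU hU'
  obtain ⟨hn, F, hF, -, hFW⟩ := hW₁
  have : IsGalois ℚ QBar := by
    have : IsAlgClosure ℚ QBar := ⟨inferInstance, AlgebraicClosure.isAlgebraic ℚ⟩
    have : Normal ℚ QBar := IsAlgClosure.normal ℚ QBar
    exact {}
  have : IsGalois ℚ F := (InfiniteGalois.normal_iff_isGalois F).1 (hFW ▸ hn)
  have hmemF : ∀ σ : GQ, (∀ x ∈ F, σ x = x) → σ ∈ W₁ := fun σ hσ =>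
    hFW ▸ (IntermediateField.mem_fixingSubgroup_iff F σ).2 hσ
  have hcF : TWLocal.FixedAtLevel _ F cD := fun σ hσ => by
    have hm : E.symm σ ∈ W := by
      rw [← hWU', Subgroup.mem_comap, ← decompositionEquiv_apply, MulEquiv.apply_symm_apply]
      exact hW₁U' (hmemF _ hσ)
    have := hWf 1 _ hm
    rw [one_mul, cocycle₁_map_one hy'z.2] at this
    show ((y' (E.symm σ) : Tz k) : M2 k) = 0
    rw [this, ZeroMemClass.coe_zero]
  have hcZ : cD ∈ TWLocal.Z1 rb _ := by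
    refine ⟨fun σ τ => ?_, fun σ => trace_coe _, F, hF, hcF⟩
    show ((y' (E.symm (σ * τ)) : Tz k) : M2 k) = _
    rw [map_mul, cocycle₁_mul hy'z.2, Submodule.coe_add, add_comm, e]
    refine congrArg _ ?_
    show ((adAct rb (localGaloisToGlobal (q : ℕ) (E.symm σ)) _ : Tz k) : M2 k) = _
    rw [← decompositionEquiv_apply, MulEquiv.apply_symm_apply]
    rfl
  have hqk : ((q : ℕ) : k) = 1 := by
    obtain ⟨m, hm⟩ := hq1
    have h1 := Nat.sub_add_cancel q.2.one_le
    rw [← h1, hm, Nat.cast_add, Nat.cast_mul, hdet.1, zero_mul, zero_add, Nat.cast_one]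
  obtain ⟨t, ht, -, -, hdetm⟩ := TWLocal.exists_inertia_determining (rb := rb)
    (padicPlace_liesOverPrime (q : ℕ)) q.2 (Fact.out : p.Prime) (ne_of_dvd_sub_one hq1)
    (by rw [hqk]; exact one_ne_zero) F (fun σ hσ => hU1 σ (hW₁U (hmemF σ hσ)))
    (fun σ hσ => by rw [hI σ hσ, one_pow]) hφ
  obtain ⟨hrel, hzero⟩ := hdetm cD hcZ hcF
  set Φ : ↥((padicPlace (q : ℕ)).decompositionSubgroup ℚ) :=
    ⟨localGaloisToGlobal (q : ℕ) g₀, hφ.mem_decompositionSubgroup⟩ with hΦ
  set T : ↥((padicPlace (q : ℕ)).decompositionSubgroup ℚ) := ⟨t, TWLocal.inertia_le ht⟩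
  have hEΦ : E.symm Φ = g₀ := by
    rw [MulEquiv.symm_apply_eq]
    exact Subtype.ext (decompositionEquiv_apply (q : ℕ) g₀).symm
  have hΦ0 : cD Φ = 0 := by
    show ((y' (E.symm Φ) : Tz k) : M2 k) = 0
    rw [hEΦ, hy'0, ZeroMemClass.coe_zero]
  rw [TWLocal.cocycle_conj hcZ, hΦ0, map_zero, zero_add, sub_zero,
    TWLocal.cocycle_pow_of_eq_one hcZ (σ := T) (hI t ht), ← Nat.cast_smul_eq_nsmul k, hqk,
    one_smul, TWLocal.adj_apply] at hrel
  have hcomm : A * cD T = cD T * A := by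
    have h1 := congrArg (· * A) hrel
    simp only [mul_assoc] at h1
    rwa [hA, rb_inv_mul, mul_one] at h1
  have hT0 : cD T = 0 := eq_zero_of_commute hd (trace_coe _) (horthX _) hcomm
  have hc0 := hzero hΦ0 hT0
  refine funext fun g => Subtype.ext ?_
  have h1 := congrFun hc0 (E g)
  simp only [cD, MulEquiv.symm_apply_apply] at h1
  exact h1

omit hI hsA hg₀ in
/-- A class orthogonal to all classes of the adjoint representation is trivial, when the
eigenvalues of Frobenius are distinct elements of `k`. -/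
theorem exists_d0_of_locCup_eq_zero (hp2 : p ≠ 2) (I : InvSystem p) {ℓ : k →+ ZMod p}
    (hℓ : ℓ ≠ 0) {rb : GQ →* M2 k} (hdet : DetCyclo p rb)
    (hrb : ∃ U, allLevels.mem U ∧ ∀ g ∈ U, rb g = 1) (q : Nat.Primes) (hL : LocalInputs I q)
    (hq1 : p ∣ (q : ℕ) - 1) (hI : ∀ σ ∈ (padicPlace (q : ℕ)).inertiaSubgroupIn ℚ, rb σ = 1)
    {φ : GQ} (hφ : (padicPlace (q : ℕ)).IsFrobeniusAt φ q)
    (hroots : ∃ a b : k, a ≠ b ∧ a + b = (rb φ).trace ∧ a * b = (rb φ).det)
    {y : GQl (q : ℕ) → Tz k} (hy : y ∈ z1 (localLevels q) (twLoc rb q))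
    (h : ∀ f ∈ z1 (localLevels q) (adLoc rb q), locCup I ℓ hdet q f y = 0) :
    y ∈ (d0 (twLoc rb q)).range := by
  obtain ⟨a, b, hab, ht, hd⟩ := hroots
  refine exists_d0_of_locCup_eq_zero_of_disc hp2 I hℓ hdet hrb q hL hq1 hI hφ ?_ hy h
  rw [disc2, ← ht, ← hd, show (a + b) ^ 2 - 4 * (a * b) = (a - b) ^ 2 by ring]
  exact pow_ne_zero _ (sub_ne_zero.2 hab)

end Local

end Fermat.Agent.GlobalBound

end
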