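import Fermat.Agent.GlobalBound.Main
import Fermat.Agent.GlobalBound.TameLocal
import Fermat.Agent.GlobalBound.GroupTheory
import Fermat.Agent.TWElement.Bridge
import Fermat.Agent.TWLocal.Conditions
import Fermat.Agent.FlatBound.Conditions
import Fermat.Agent.PoitouTate.LocalInputsProof
import Fermat.Prelude.Def_GaloisRep_StrictOrdinary
import Fermat.Prelude.Def_GaloisRep_Flat

/-!
# Taylor–Wiles primes from global duality

Specialisation of the global bound to a residual representation (`exists_bound_rbOf`,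
`globalBoundProp_rbOf`) and the resulting existence of Taylor–Wiles primes for the strict ordinary
and the flat deformation problems (`exists_taylorWilesPrimes_of_inputs`).
-/

set_option autoImplicit false

noncomputable section

open Polynomial IsLocalRing

namespace Fermat.Agent.GlobalBound

open ExtCitation Fermat.Agent.PoitouTate
open Fermat.Agent.TWLocal (M2)
open Fermat.Agent.TWAssembly (rbOf rbOf_apply disc2)

/-- A finite field of characteristic `p` has a nonzero functional to `ZMod p`. -/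
theorem exists_functional (k : Type) [Field k] [Finite k] {p : ℕ} [Fact p.Prime]
    (hpk : (p : k) = 0) : ∃ ℓ : k →+ ZMod p, ℓ ≠ 0 := by
  by_contra! h
  have : Subsingleton (k →+ ZMod p) := ⟨fun f g => (h f).trans (h g).symm⟩
  have h1 := card_hom_zmod (p := p) k fun x => by rw [nsmul_eq_mul, hpk, zero_mul]
  rw [Nat.card_unique] at h1
  exact (Finite.one_lt_card (α := k)).ne h1

/-- Coboundaries satisfy the strict ordinary conditions. -/
theorem cob_mem_strictConds {k : Type} [Field k] {rb : GQ →* M2 k} {p q : ℕ}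
    {A : ValuationSubring QBar}
    (hrb : ∃ F : IntermediateField ℚ QBar, FiniteDimensional ℚ F ∧
      ∀ σ : GQ, (∀ x ∈ F, σ x = x) → rb σ = 1) (X : M2 k) :
    TWLocal.cob rb (A.decompositionSubgroup ℚ) X ∈ TWLocal.strictConds p rb q A := by
  by_cases hqp : q = p
  · subst hqp
    rw [TWLocal.strictConds, TWLocal.localConds_self]
    unfold TWLocal.Lord
    split_ifs with h
    · exact ⟨TWLocal.cob_mem_Z1 hrb X, TWLocal.cob_mem_sup h.choose_spec X⟩
    · exact LinearMap.mem_range_self _ X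
  · rw [TWLocal.strictConds, TWLocal.localConds_ne hqp]
    exact TWLocal.cob_mem_condUnip hrb X

variable {𝒪 : Type} [CommRing 𝒪] [IsDomain 𝒪] [IsDiscreteValuationRing 𝒪]
  [IsAdicComplete (maximalIdeal 𝒪) 𝒪] (ρbar : ResidualGaloisRep (ResidueField 𝒪))
  (b : Module.Basis (Fin 2) (ResidueField 𝒪) ρbar.V)

omit [IsAdicComplete (maximalIdeal 𝒪) 𝒪] in
/-- Eigenvalues of a split matrix with distinct eigenvalues. -/
theorem exists_roots_rbOf
    (hsplit : ∀ σ : GQ, ∃ α β : ResidueField 𝒪,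
      LinearMap.charpoly (ρbar.ρ σ) = (X - C α) * (X - C β))
    (g : GQ) (hd : disc2 (rbOf ρbar b g) ≠ 0) :
    ∃ a c : ResidueField 𝒪, a ≠ c ∧ a + c = (rbOf ρbar b g).trace ∧
      a * c = (rbOf ρbar b g).det := by
  obtain ⟨a, c, hne, h⟩ := TWAssembly.exists_distinct_roots b (ρbar.ρ g) (hsplit g) hd
  rw [← LinearMap.charpoly_toMatrix (ρbar.ρ g) b, ← rbOf_apply, Matrix.charpoly_fin_two] at h
  have h1 := congrArg (fun P => Polynomial.coeff P 1) h
  have h0 := congrArg (fun P => Polynomial.coeff P 0) h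
  simp [Polynomial.mul_coeff_zero, Polynomial.mul_coeff_one, Polynomial.coeff_X] at h1 h0
  exact ⟨a, c, hne, by linear_combination h1, h0.symm⟩

omit [IsAdicComplete (maximalIdeal 𝒪) 𝒪] in
/-- The bound over an enlarged base set `T` of primes, for arbitrary dimensions `w`. -/
theorem exists_bound_rbOf [Finite (ResidueField 𝒪)] (p : ℕ) [Fact p.Prime] (hp2 : p ≠ 2)
    (habs : ρbar.IsAbsolutelyIrreducible)
    (hdet : (GaloisRepAdic.ofResidualGaloisRep ρbar).DetIsCyclotomic p)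
    (hsplit : ∀ σ : GQ, ∃ α β : ResidueField 𝒪,
      LinearMap.charpoly (ρbar.ρ σ) = (X - C α) * (X - C β))
    (hTW : ∀ (K : Type) [Field K] [Algebra (ResidueField 𝒪) K]
      (G : Subgroup (AlgebraicClosure ℚ ≃ₐ[ℚ] AlgebraicClosure ℚ)), G.index = 2 →
      ∀ V : Submodule K (ρbar.baseChange K).V,
        (∀ σ ∈ G, ∀ x ∈ V, (ρbar.baseChange K).ρ σ x ∈ V) → V = ⊥ ∨ V = ⊤)
    (S Smin : Finset ℕ) (hpSmin : p ∈ Smin) (hS : ∀ q ∈ S, q.Prime)
    (hmin : ∀ q : ℕ, q.Prime → q ≠ p → (q ∈ Smin ↔ ¬ ρbar.IsUnramifiedAt q))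
    (T₀ : Finset ℕ) (hminT : Smin ⊆ T₀) (hT₀S : T₀ ⊆ S)
    (I : InvSystem p) (hG : ∀ T : Finset Nat.Primes, pPrime p ∈ T → GlobalInputs I T)
    (hre : ∀ T : Finset Nat.Primes, pPrime p ∈ T → TWEuler.RightExact (sLevels T) p)
    (hN : ∀ T : Finset Nat.Primes, pPrime p ∈ T →
      TWEuler.AllWeights (sLevels T) complexConjugation (muAct p))
    (w : ℕ → ℕ) (L : (q : ℕ) → (P : ValuationSubring QBar) →
      Submodule (ResidueField 𝒪) (P.decompositionSubgroup ℚ → M2 (ResidueField 𝒪)))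
    (hLcob : ∀ q : Nat.Primes, (q : ℕ) ∈ T₀ → ∀ Y : M2 (ResidueField 𝒪), Y.trace = 0 →
      TWLocal.cob (rbOf ρbar b) ((padicPlace (q : ℕ)).decompositionSubgroup ℚ) Y ∈
        L q (padicPlace (q : ℕ)))
    (hLdim : ∀ q : Nat.Primes, (q : ℕ) ∈ T₀ →
      FiniteDimensional (ResidueField 𝒪) (L q (padicPlace (q : ℕ))) ∧
        Module.finrank (ResidueField 𝒪) (L q (padicPlace (q : ℕ))) ≤ w q) :
    ∃ D : Submodule (ResidueField 𝒪) (GQ → M2 (ResidueField 𝒪)),
      FiniteDimensional (ResidueField 𝒪) D ∧ D ≤ TWAssembly.twCocycles (rbOf ρbar b) ∧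
      (∀ y ∈ D, (∃ Y : M2 (ResidueField 𝒪), Y.trace = 0 ∧ ∀ σ, y σ =
        (rbOf ρbar b σ).det • (rbOf ρbar b σ * Y * rbOf ρbar b σ⁻¹) - Y) → y = 0) ∧
      ∀ (n : ℕ) (Q : Finset ℕ), (∀ q ∈ Q, TWAssembly.GoodPrime (rbOf ρbar b) p S n q) →
        (∀ y : D, (∀ q ∈ Q, y ∈ TWAssembly.detectKer (rbOf ρbar b) D q) → y = 0) →
        FiniteDimensional (ResidueField 𝒪) ((TWAssembly.selmer (rbOf ρbar b) (T₀ ∪ Q) T₀ L).map
            (LinearMap.range (TWAssembly.adCoboundary (rbOf ρbar b))).mkQ) ∧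
          Module.finrank (ResidueField 𝒪) ((TWAssembly.selmer (rbOf ρbar b) (T₀ ∪ Q) T₀ L).map
              (LinearMap.range (TWAssembly.adCoboundary (rbOf ρbar b))).mkQ) +
            3 * T₀.card + 1 ≤ Q.card + ∑ q ∈ T₀, w q := by
  have hdc : DetCyclo p (rbOf ρbar b) := detCyclo_matrixHom b hdet
  have hns : TWElement.NoStableLine (rbOf ρbar b) :=
    TWElement.noStableLine_matrixHom ρbar b habs hTW
  have h2 := two_ne_zero_of_cast hp2 hdc.1
  obtain ⟨F, hF, hF1⟩ := TWLocal.exists_level_rbOf (ρbar := ρbar) b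
  have hrb : ∃ F : IntermediateField ℚ QBar, FiniteDimensional ℚ F ∧
      ∀ σ ∈ F.fixingSubgroup, rbOf ρbar b σ = 1 :=
    ⟨F, hF, fun σ hσ => hF1 σ ((IntermediateField.mem_fixingSubgroup_iff _ _).1 hσ)⟩
  obtain ⟨ℓ, hℓ⟩ := exists_functional (ResidueField 𝒪) hdc.1
  have hdc' := det_rb_complexConjugation (rb := rbOf ρbar b) hdc
  have hur : ∀ q : ℕ, q.Prime → q ∉ Smin → ∀ A : ValuationSubring QBar, A.LiesOverPrime q →
      ∀ σ ∈ A.inertiaSubgroupIn ℚ, rbOf ρbar b σ = 1 := fun q hq hqS A hA σ hσ => by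
    have hu : ρbar.IsUnramifiedAt q :=
      not_not.1 fun h => hqS ((hmin q hq fun h' => hqS (h' ▸ hpSmin)).2 h)
    rw [rbOf_apply, show ρbar.ρ σ = 1 from hu A hA σ hσ]
    exact LinearMap.toMatrix_one _
  have hall : ∃ U, allLevels.mem U ∧ ∀ g ∈ U, rbOf ρbar b g = 1 := by
    obtain ⟨U, ⟨hn, E, hE, -, hfix⟩, hU1⟩ := exists_sLevel_rb (S := primesOf Smin) hrb
      fun q hq A hA σ hσ => hur q q.2 (fun h => hq (mem_primesOf.2 h)) A hA σ hσ
    exact ⟨U, ⟨hn, E, hE, trivial, hfix⟩, hU1⟩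
  refine exists_bound_of_inputs hp2 hdc hrb I hℓ S T₀ (hminT hpSmin) hT₀S
    (fun q hq => hS q (hT₀S hq)) (fun q hq hqT => hur q hq fun h => hqT (hminT h)) hG
    (localInputs hp2 I)
    (fun T hT ⟨U, hU, hU1⟩ => ?_) (fun T hT hU => ?_) ?_ (inv_adAct_eq_bot h2 hns)
    (fun q hq1 hI φ hφ hr y hy horth => exists_d0_of_locCup_eq_zero hp2 I hℓ hdc hall q
      (localInputs hp2 I q) hq1 hI hφ hr hy horth)
    (exists_roots_rbOf ρbar b hsplit) w L hLcob hLdim
  · exact ⟨(hre T hT).finite₁ _ _ (isSmooth_adAct hU hU1) (nsmul_eq_zero hdc.1),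
      (hre T hT).finite₁ _ _ (isSmooth_twAct hU hU1) (nsmul_eq_zero hdc.1),
      (hre T hT).finite₂ _ _ (isSmooth_twAct hU hU1) (nsmul_eq_zero hdc.1)⟩
  · exact (eulerHolds_ad_tw (rbOf ρbar b) hdc.1 hU (hre T hT)
      ((Fact.out : p.Prime).odd_of_ne_two hp2) complexConjugation_mul_self
      (fun g hg => muAct_one_of_rb _ hdc hg) (hN T hT)).2
  · rw [card_fixedBy_tw h2 complexConjugation_mul_self hdc', card_tz, ← pow_succ]

omit [IsAdicComplete (maximalIdeal 𝒪) 𝒪] in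
/-- The global bound for a family of local conditions of the expected dimensions. -/
theorem globalBoundProp_rbOf [Finite (ResidueField 𝒪)] (p : ℕ) [Fact p.Prime] (hp2 : p ≠ 2)
    (habs : ρbar.IsAbsolutelyIrreducible)
    (hdet : (GaloisRepAdic.ofResidualGaloisRep ρbar).DetIsCyclotomic p)
    (hsplit : ∀ σ : GQ, ∃ α β : ResidueField 𝒪,
      LinearMap.charpoly (ρbar.ρ σ) = (X - C α) * (X - C β))
    (hTW : ∀ (K : Type) [Field K] [Algebra (ResidueField 𝒪) K]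
      (G : Subgroup (AlgebraicClosure ℚ ≃ₐ[ℚ] AlgebraicClosure ℚ)), G.index = 2 →
      ∀ V : Submodule K (ρbar.baseChange K).V,
        (∀ σ ∈ G, ∀ x ∈ V, (ρbar.baseChange K).ρ σ x ∈ V) → V = ⊥ ∨ V = ⊤)
    (S Smin : Finset ℕ) (hpSmin : p ∈ Smin) (hSmin : Smin ⊆ S) (hS : ∀ q ∈ S, q.Prime)
    (hmin : ∀ q : ℕ, q.Prime → q ≠ p → (q ∈ Smin ↔ ¬ ρbar.IsUnramifiedAt q))
    (I : InvSystem p) (hG : ∀ T : Finset Nat.Primes, pPrime p ∈ T → GlobalInputs I T)
    (hre : ∀ T : Finset Nat.Primes, pPrime p ∈ T → TWEuler.RightExact (sLevels T) p)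
    (hN : ∀ T : Finset Nat.Primes, pPrime p ∈ T →
      TWEuler.AllWeights (sLevels T) complexConjugation (muAct p))
    (L : (q : ℕ) → (P : ValuationSubring QBar) →
      Submodule (ResidueField 𝒪) (P.decompositionSubgroup ℚ → M2 (ResidueField 𝒪)))
    (hLcob : ∀ q : Nat.Primes, (q : ℕ) ∈ Smin → ∀ Y : M2 (ResidueField 𝒪), Y.trace = 0 →
      TWLocal.cob (rbOf ρbar b) ((padicPlace (q : ℕ)).decompositionSubgroup ℚ) Y ∈
        L q (padicPlace (q : ℕ)))
    (hLdim : ∀ q : Nat.Primes, (q : ℕ) ∈ Smin →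
      FiniteDimensional (ResidueField 𝒪) (L q (padicPlace (q : ℕ))) ∧
        Module.finrank (ResidueField 𝒪) (L q (padicPlace (q : ℕ))) ≤
          if (q : ℕ) = p then 4 else 3) :
    TWAssembly.GlobalBoundProp (rbOf ρbar b) p S Smin L := by
  obtain ⟨D, hfin, hle, hcob, hD⟩ := exists_bound_rbOf ρbar b p hp2 habs hdet hsplit hTW S Smin
    hpSmin hS hmin Smin subset_rfl hSmin I hG hre hN (fun q => if q = p then 4 else 3) L
    hLcob hLdim
  refine ⟨D, hfin, hle, hcob, fun n Q hQ hdetect _ => ⟨(hD n Q hQ hdetect).1, ?_⟩⟩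
  have h := (hD n Q hQ hdetect).2
  rw [← Finset.add_sum_erase _ _ hpSmin, if_pos rfl,
    Finset.sum_congr rfl fun q hq => if_neg (Finset.ne_of_mem_erase hq), Finset.sum_const,
    Finset.card_erase_of_mem hpSmin, smul_eq_mul] at h
  have := Finset.card_pos.2 ⟨p, hpSmin⟩
  omega

/-- The Taylor-Wiles primes statement from the global inputs of duality. -/
theorem exists_taylorWilesPrimes_of_inputs
    [Finite (ResidueField 𝒪)] (p : ℕ) [Fact p.Prime] (hp2 : p ≠ 2)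
        (habs : ρbar.IsAbsolutelyIrreducible)
    (hdet : (GaloisRepAdic.ofResidualGaloisRep ρbar).DetIsCyclotomic p)
    (hsplit : ∀ σ : AlgebraicClosure ℚ ≃ₐ[ℚ] AlgebraicClosure ℚ,
      ∃ α β : ResidueField 𝒪, LinearMap.charpoly (ρbar.ρ σ) = (X - C α) * (X - C β))
    (hTW : ∀ (K : Type) [Field K] [Algebra (ResidueField 𝒪) K]
      (G : Subgroup (AlgebraicClosure ℚ ≃ₐ[ℚ] AlgebraicClosure ℚ)), G.index = 2 →
      ∀ V : Submodule K (ρbar.baseChange K).V,
        (∀ σ ∈ G, ∀ x ∈ V, (ρbar.baseChange K).ρ σ x ∈ V) → V = ⊥ ∨ V = ⊤)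
    (S Smin : Finset ℕ) (hpSmin : p ∈ Smin) (hSmin : Smin ⊆ S) (hS : ∀ q ∈ S, q.Prime)
    (hmin : ∀ q : ℕ, q.Prime → q ≠ p → (q ∈ Smin ↔ ¬ ρbar.IsUnramifiedAt q))
    (I : InvSystem p) (hG : ∀ T : Finset Nat.Primes, pPrime p ∈ T → GlobalInputs I T)
    (hre : ∀ T : Finset Nat.Primes, pPrime p ∈ T → TWEuler.RightExact (sLevels T) p)
    (hN : ∀ T : Finset Nat.Primes, pPrime p ∈ T →
      TWEuler.AllWeights (sLevels T) complexConjugation (muAct p)) :
    (∃ r : ℕ, ∀ n : ℕ, ∃ qv : Fin r → ℕ, Function.Injective qv ∧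
      (∀ i, (qv i).Prime ∧ qv i ∉ S ∧ p ^ (n + 1) ∣ qv i - 1) ∧
      (∀ i, ∀ P : ValuationSubring (AlgebraicClosure ℚ), P.LiesOverPrime (qv i) →
        ∀ φ : AlgebraicClosure ℚ ≃ₐ[ℚ] AlgebraicClosure ℚ, P.IsFrobeniusAt φ (qv i) →
          ∃ α β : ResidueField 𝒪, α ≠ β ∧ LinearMap.charpoly (ρbar.ρ φ) = (X - C α) * (X - C β)) ∧
      ∀ DQ : GaloisRep.DeformationRingData 𝒪 ρbar (fun _A _ _ _ ρ =>
          GaloisRep.strictOrdinaryCondition 𝒪 p (Smin ∪ Finset.univ.image qv) ρ ∧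
            ∀ q ∈ Smin, q.Prime → q ≠ p → ρ.IsUnipotentOnInertiaAt q),
        ∃ γ : MvPowerSeries (Fin r) 𝒪 →ₐ[𝒪] DQ.R, Function.Surjective γ) ∧
    (∃ r : ℕ, ∀ n : ℕ, ∃ qv : Fin r → ℕ, Function.Injective qv ∧
      (∀ i, (qv i).Prime ∧ qv i ∉ S ∧ p ^ (n + 1) ∣ qv i - 1) ∧
      (∀ i, ∀ P : ValuationSubring (AlgebraicClosure ℚ), P.LiesOverPrime (qv i) →
        ∀ φ : AlgebraicClosure ℚ ≃ₐ[ℚ] AlgebraicClosure ℚ, P.IsFrobeniusAt φ (qv i) →
          ∃ α β : ResidueField 𝒪, α ≠ β ∧ LinearMap.charpoly (ρbar.ρ φ) = (X - C α) * (X - C β)) ∧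
      ∀ DQ : GaloisRep.DeformationRingData 𝒪 ρbar (fun _A _ _ _ ρ =>
          GaloisRep.flatCondition 𝒪 p (Smin ∪ Finset.univ.image qv) ρ ∧
            ∀ q ∈ Smin, q.Prime → q ≠ p → ρ.IsUnipotentOnInertiaAt q),
        ∃ γ : MvPowerSeries (Fin r) 𝒪 →ₐ[𝒪] DQ.R, Function.Surjective γ) := by
  let b := Module.finBasisOfFinrankEq (ResidueField 𝒪) ρbar.V ρbar.finrank_eq
  have hp : p.Prime := Fact.out
  have hSmin' : ∀ q ∈ Smin, q.Prime := fun q hq => hS q (hSmin hq)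
  have hram : ∀ q ∈ Smin, q ≠ p → ¬ ρbar.IsUnramifiedAt q := fun q hq hqp =>
    (hmin q (hSmin' q hq) hqp).1 hq
  have helem := TWElement.twElementProp_rbOf p hp2 ρbar habs hdet hTW b
  obtain ⟨F, hF, hF1⟩ := TWLocal.exists_level_rbOf (ρbar := ρbar) b
  have hrbc : ∃ F : IntermediateField ℚ (AlgebraicClosure ℚ), FiniteDimensional ℚ F ∧
      ∀ σ ∈ F.fixingSubgroup, rbOf ρbar b σ = 1 :=
    ⟨F, hF, fun σ hσ => hF1 σ ((IntermediateField.mem_fixingSubgroup_iff _ _).1 hσ)⟩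
  have hpk := (detCyclo_matrixHom b hdet).1
  have h2 := two_ne_zero_of_cast hp2 hpk
  have hbound := globalBoundProp_rbOf ρbar b p hp2 habs hdet hsplit hTW S Smin hpSmin hSmin hS
    hmin I hG hre hN
  constructor
  · refine TWAssembly.exists_taylorWiles_half ρbar p hsplit S Smin
      (fun T => GaloisRep.strictOrdinaryCondition 𝒪 p T) (fun T A _ _ _ ρ h => h.1)
      (fun T A _ _ _ ρ h => h.2.2) (fun T A B _ _ _ _ _ _ φ hφ ρ _ h =>
        ⟨TWAssembly.detIsCyclotomic_baseChange _ hφ h.1,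
          TWAssembly.isStrictOrdinaryAt_baseChange _ hφ h.2.1,
          fun q hq hqT => TWAssembly.isUnramifiedAt_baseChange _ hφ (h.2.2 q hq hqT)⟩)
      b helem (TWLocal.strictConds p (rbOf ρbar b)) hrbc
      (fun T DQ V hV d q hq P hP =>
        TWLocal.strictConds_mem b hp hp2 Smin hSmin' hram T DQ V hV d q hq P hP)
      (hbound _ (fun q _ Y _ => cob_mem_strictConds ⟨F, hF, hF1⟩ Y)
        fun q _ => TWLocal.finrank_strictConds_le
          (padicPlace_liesOverPrime _) q.2 hp hp2 hpk h2 ⟨F, hF, hF1⟩)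
  · exact TWAssembly.exists_taylorWiles_half ρbar p hsplit S Smin
      (fun T => GaloisRep.flatCondition 𝒪 p T) (fun T A _ _ _ ρ h => h.1)
      (fun T A _ _ _ ρ h => h.2.2) (fun T A B _ _ _ _ _ _ φ hφ ρ hsurj h =>
        ⟨TWAssembly.detIsCyclotomic_baseChange _ hφ h.1,
          TWAssembly.isFlatAt_baseChange _ hφ hsurj h.2.1,
          fun q hq hqT => TWAssembly.isUnramifiedAt_baseChange _ hφ (h.2.2 q hq hqT)⟩)
      b helem (FlatBound.flatConds p (rbOf ρbar b)) hrbc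
      (fun T DQ V hV d q hq P hP =>
        FlatBound.flatConds_mem b Smin hSmin' hram T DQ V hV d q hq P hP)
      (hbound _ (fun q _ Y _ => FlatBound.cob_mem_flatConds (FlatBound.contRep_rbOf b) Y)
        fun q _ => FlatBound.finrank_flatConds_le (padicPlace_liesOverPrime _) q.2 hp hp2 hpk h2
          (FlatBound.contRep_rbOf b) (FlatBound.cycloDet_rbOf b hdet))

end Fermat.Agent.GlobalBound

end
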