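import Fermat.Agent.GlobalBound.Core
import Fermat.Agent.PoitouTate.GlobalKummer
import Fermat.Agent.PoitouTate.Outside
import Fermat.Agent.PoitouTate.LocalDecomp
import Fermat.Agent.TWAssembly.Selmer

/-!
# Matrix valued cocycles and cohomology over a finite set of primes

Matrix valued cocycles with conditions at decomposition groups give classes in the cohomology of
levels unramified outside `S`; `finrank_map_mkQ_le` is the counting bound in terms of dimensions.
-/

set_option autoImplicit false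

noncomputable section

namespace Fermat.Agent.GlobalBound

open ExtCitation Fermat.Agent.PoitouTate
open Fermat.Agent.TWLocal (M2 adj)
open Fermat.Agent.TWAssembly (adCoboundary resPlace adCocycles)

/-- The primes occurring in a finite set of natural numbers. -/
def primesOf (T : Finset ℕ) : Finset Nat.Primes := (T.subtype Nat.Prime : Finset {q // Nat.Prime q})

/-- Membership in `primesOf`. -/
@[simp] theorem mem_primesOf {T : Finset ℕ} {q : Nat.Primes} : q ∈ primesOf T ↔ (q : ℕ) ∈ T :=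
  Finset.mem_subtype (p := Nat.Prime) (a := (q : {q // Nat.Prime q}))

/-- `primesOf` preserves the cardinality of a set of primes. -/
theorem card_primesOf {T : Finset ℕ} (hT : ∀ q ∈ T, q.Prime) : (primesOf T).card = T.card := by
  show ((T.subtype Nat.Prime : Finset {q // Nat.Prime q})).card = T.card
  rw [← Finset.card_map (Function.Embedding.subtype _), Finset.subtype_map,
    Finset.filter_true_of_mem hT]

/-- A sum over the primes occurring in a set of primes is a sum over this set. -/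
theorem sum_primesOf {T : Finset ℕ} (hT : ∀ q ∈ T, q.Prime) (f : ℕ → ℕ) :
    ∑ q ∈ primesOf T, f q = ∑ q ∈ T, f q := by
  show ∑ q ∈ (T.subtype Nat.Prime : Finset {q // Nat.Prime q}), f q.1 = _
  refine (Finset.sum_map _ (Function.Embedding.subtype _) f).symm.trans ?_
  rw [Finset.subtype_map, Finset.filter_true_of_mem hT]

/-- A normal subgroup containing an open subgroup and the inertia outside `S` contains a level
unramified outside `S`. -/
theorem exists_sLevel_le_of_normal {S : Finset Nat.Primes} (H : Subgroup GQ) [H.Normal]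
    (F : IntermediateField ℚ QBar) [FiniteDimensional ℚ F] (hF : F.fixingSubgroup ≤ H)
    (hI : ∀ q : Nat.Primes, q ∉ S → ∀ A : ValuationSubring QBar, A.LiesOverPrime (q : ℕ) →
      A.inertiaSubgroupIn ℚ ≤ H) :
    ∃ U, (sLevels S).mem U ∧ U ≤ H := by
  have : Algebra.IsAlgebraic ℚ QBar := AlgebraicClosure.isAlgebraic ℚ
  have : IsAlgClosure ℚ QBar := ⟨inferInstance, inferInstance⟩
  have : Normal ℚ QBar := IsAlgClosure.normal ℚ QBar
  have : IsGalois ℚ QBar := ⟨⟩
  have hop : IsOpen (H : Set GQ) :=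
    Subgroup.isOpen_mono hF (IntermediateField.fixingSubgroup_isOpen F)
  let Hc : ClosedSubgroup GQ := ⟨H, H.isClosed_of_isOpen hop⟩
  have hH : (IntermediateField.fixedField H).fixingSubgroup = H :=
    InfiniteGalois.fixingSubgroup_fixedField Hc
  have hle : IntermediateField.fixedField H ≤ F := by
    intro x hx
    rw [← InfiniteGalois.fixedField_fixingSubgroup F, IntermediateField.mem_fixedField_iff]
    exact fun g hg => (IntermediateField.mem_fixedField_iff _ _).1 hx g (hF hg)
  have : FiniteDimensional ℚ (IntermediateField.fixedField H) :=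
    Module.Finite.of_injective (IntermediateField.inclusion hle).toLinearMap
      (IntermediateField.inclusion_injective hle)
  obtain ⟨U, hU, hUle⟩ := exists_sLevel_le (S := S) (F := IntermediateField.fixedField H)
    ⟨inferInstance, fun q hq A hA g hg => hH.symm ▸ hI q hq A hA hg⟩
  exact ⟨U, hU, hUle.trans hH.le⟩

variable {k : Type} [Field k] {rb : GQ →* M2 k}

/-- A representation with open kernel, unramified outside `S`, is trivial on some level. -/
theorem exists_sLevel_rb {S : Finset Nat.Primes}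
    (hrb : ∃ F : IntermediateField ℚ QBar, FiniteDimensional ℚ F ∧
      ∀ σ ∈ F.fixingSubgroup, rb σ = 1)
    (hunr : ∀ q : Nat.Primes, q ∉ S → ∀ A : ValuationSubring QBar, A.LiesOverPrime (q : ℕ) →
      ∀ σ ∈ A.inertiaSubgroupIn ℚ, rb σ = 1) :
    ∃ U, (sLevels S).mem U ∧ ∀ u ∈ U, rb u = 1 := by
  obtain ⟨F, hF, h⟩ := hrb
  obtain ⟨U, hU, hle⟩ := exists_sLevel_le_of_normal (S := S) rb.ker F (fun g hg => h g hg)
    fun q hq A hA g hg => hunr q hq A hA g hg
  exact ⟨U, hU, fun u hu => hle hu⟩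

/-- The adjoint module is smooth for the levels unramified outside `S`. -/
theorem isSmooth_adAct {S : Finset Nat.Primes} {U : Subgroup GQ} (hU : (sLevels S).mem U)
    (h : ∀ u ∈ U, rb u = 1) : IsSmooth (sLevels S) (adAct rb) := fun _ =>
  ⟨U, hU, fun u hu => Subtype.ext (TWLocal.adj_of_eq_one (h u hu) _)⟩

/-- The twisted module is smooth for the levels unramified outside `S`. -/
theorem isSmooth_twAct {S : Finset Nat.Primes} {U : Subgroup GQ} (hU : (sLevels S).mem U)
    (h : ∀ u ∈ U, rb u = 1) : IsSmooth (sLevels S) (twAct rb) := fun x =>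
  ⟨U, hU, fun u hu => Subtype.ext (by
    show (rb u).det • adj rb u (x : M2 k) = x
    rw [TWLocal.adj_of_eq_one (h u hu), h u hu, Matrix.det_one, one_smul])⟩

theorem isSmooth_comp {S : Finset Nat.Primes} {ρ : Act GQ (Tz k)} (hρ : IsSmooth (sLevels S) ρ)
    (q : Nat.Primes) : IsSmooth (localLevels q) (ρ.comp (localGaloisToGlobal q)) := fun x => by
  obtain ⟨U, hU, h⟩ := hρ x
  obtain ⟨V, hV, hle⟩ := compat_local_sLevels (q : ℕ) S U hU
  exact ⟨V, hV, fun s hs => h _ (hle hs)⟩

/-- Matrix valued cocycles unramified outside `S` are cocycles over `S`. -/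
theorem exists_z1_of_adCocycle {S : Finset Nat.Primes}
    (hrb : ∃ F : IntermediateField ℚ QBar, FiniteDimensional ℚ F ∧
      ∀ σ ∈ F.fixingSubgroup, rb σ = 1)
    (hunr : ∀ q : Nat.Primes, q ∉ S → ∀ A : ValuationSubring QBar, A.LiesOverPrime (q : ℕ) →
      ∀ σ ∈ A.inertiaSubgroupIn ℚ, rb σ = 1)
    {c : GQ → M2 k} (hc : c ∈ adCocycles rb)
    (hcI : ∀ q : Nat.Primes, q ∉ S → ∀ A : ValuationSubring QBar, A.LiesOverPrime (q : ℕ) →
      ∀ σ ∈ A.inertiaSubgroupIn ℚ, c σ = 0) :
    ∃ f ∈ z1 (sLevels S) (adAct rb), ∀ g, (f g : M2 k) = c g := by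
  obtain ⟨hmul, htr, F₁, hF₁, hlev⟩ := hc
  obtain ⟨F₀, hF₀, hF₀1⟩ := hrb
  have h1 : c 1 = 0 := by
    have h := hmul 1 1
    rw [inv_one, map_one, mul_one, one_mul, mul_one] at h
    exact left_eq_add.1 h
  have hker : ∀ {g}, rb g = 1 → rb g⁻¹ = 1 := fun {g} hg => by
    have h := TWLocal.rb_mul_inv rb g
    rwa [hg, one_mul] at h
  let H : Subgroup GQ :=
    { carrier := {g | rb g = 1 ∧ c g = 0}
      mul_mem' := fun {a b} ha hb => ⟨by rw [map_mul, ha.1, hb.1, mul_one], by
        rw [hmul a b, ha.2, hb.2, mul_zero, zero_mul, add_zero]⟩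
      one_mem' := ⟨map_one rb, h1⟩
      inv_mem' := fun {a} ha => ⟨hker ha.1, by
        have h := hmul a a⁻¹
        rw [mul_inv_cancel, h1, ha.2, zero_add, ha.1, hker ha.1, one_mul, mul_one] at h
        exact h.symm⟩ }
  have : H.Normal := ⟨fun g hg a => ⟨by
      rw [map_mul, map_mul, hg.1, mul_one, TWLocal.rb_mul_inv], by
      have h2 : c (g * a⁻¹) = c a⁻¹ := by
        rw [hmul g a⁻¹, hg.2, hg.1, hker hg.1, zero_add, one_mul, mul_one]
      rw [mul_assoc, hmul a (g * a⁻¹), h2, ← hmul a a⁻¹, mul_inv_cancel, h1]⟩⟩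
  obtain ⟨U, hU, hle⟩ := exists_sLevel_le_of_normal (S := S) H (F₀ ⊔ F₁)
    (fun g hg => ⟨hF₀1 g (IntermediateField.fixingSubgroup_antitone le_sup_left hg), by
      rw [← one_mul g, hlev 1 g (IntermediateField.fixingSubgroup_antitone le_sup_right hg), h1]⟩)
    fun q hq A hA g hg => ⟨hunr q hq A hA g hg, hcI q hq A hA g hg⟩
  refine ⟨fun g => ⟨c g, htr g⟩, (mem_z1 _ _).2 ⟨⟨U, hU, fun g s hs => Subtype.ext ?_⟩,
    d1_eq_zero_of_mul fun g h => Subtype.ext ?_⟩, fun g => rfl⟩
  · show c (g * s) = c g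
    rw [hmul g s, (hle hs).2, mul_zero, zero_mul, add_zero]
  · show c (g * h) = rb g * c h * rb g⁻¹ + c g
    rw [hmul g h, add_comm]

section Local

variable (rb) (q : Nat.Primes)
  (Λ : Submodule k ((padicPlace (q : ℕ)).decompositionSubgroup ℚ → M2 k))

/-- A condition on the decomposition group, as a condition on local cocycles. -/
def toLoc : AddSubgroup (GQl (q : ℕ) → Tz k) where
  carrier := {f | f ∈ z1 (localLevels q) (adLoc rb q) ∧
    ∃ c ∈ Λ, ∀ g, (f g : M2 k) = c (decompositionEquiv (q : ℕ) g)}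
  add_mem' := by
    rintro f f' ⟨hf, c, hc, h⟩ ⟨hf', c', hc', h'⟩
    exact ⟨add_mem hf hf', c + c', add_mem hc hc', fun g => by
      rw [Pi.add_apply, Submodule.coe_add, h g, h' g]; rfl⟩
  zero_mem' := ⟨zero_mem _, 0, zero_mem _, fun g => rfl⟩
  neg_mem' := by
    rintro f ⟨hf, c, hc, h⟩
    exact ⟨neg_mem hf, -c, neg_mem hc, fun g => by
      rw [Pi.neg_apply, Submodule.coe_neg, h g]; rfl⟩

theorem finite_card_toLoc [Finite k] [FiniteDimensional k Λ] :
    Finite (toLoc rb q Λ) ∧
      Nat.card (toLoc rb q Λ) ≤ Nat.card k ^ Module.finrank k Λ := by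
  have : Finite Λ := Module.finite_of_finite k
  let F : toLoc rb q Λ → Λ := fun f => ⟨f.2.2.choose, f.2.2.choose_spec.1⟩
  have hF : Function.Injective F := fun f f' h => Subtype.ext (funext fun g => Subtype.ext (by
    rw [f.2.2.choose_spec.2 g, f'.2.2.choose_spec.2 g]
    exact congrFun (congrArg Subtype.val h) _))
  exact ⟨Finite.of_injective F hF,
    (Nat.card_le_card_of_injective F hF).trans (Module.natCard_eq_pow_finrank).le⟩

theorem range_d0_le_toLoc (hs : IsSmooth (localLevels q) (adLoc rb q))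
    (hcob : ∀ X : M2 k, X.trace = 0 → resPlace (padicPlace (q : ℕ)) (adCoboundary rb X) ∈ Λ) :
    (d0 (adLoc rb q)).range ≤ toLoc rb q Λ := by
  rintro _ ⟨a, rfl⟩
  refine ⟨(mem_z1 _ _).2 ⟨hs.isLC₁_d0 a, d1_d0 _ a⟩,
    -resPlace (padicPlace (q : ℕ)) (adCoboundary rb a.1), neg_mem (hcob _ (trace_coe a)),
    fun g => ?_⟩
  show rb _ * (a : M2 k) * rb _ - a =
    -((a : M2 k) -
       rb (decompositionEquiv (q : ℕ) g : GQ) * a * rb (decompositionEquiv (q : ℕ) g : GQ)⁻¹)
  rw [decompositionEquiv_apply, neg_sub]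

end Local

section Bound

variable [Finite k] {p : ℕ} [Fact p.Prime] (I : InvSystem p) (ℓ : k →+ ZMod p)
  (hdet : DetCyclo p rb)

/-- The bound on classes of cocycles unramified outside `S` satisfying local conditions. -/
theorem finrank_map_mkQ_le (S : Finset Nat.Primes)
    (hrb : ∃ F : IntermediateField ℚ QBar, FiniteDimensional ℚ F ∧
      ∀ σ ∈ F.fixingSubgroup, rb σ = 1)
    (hunr : ∀ q : Nat.Primes, q ∉ S → ∀ A : ValuationSubring QBar, A.LiesOverPrime (q : ℕ) →
      ∀ σ ∈ A.inertiaSubgroupIn ℚ, rb σ = 1)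
    (Λ : ∀ q : S, Submodule k ((padicPlace ((q : Nat.Primes) : ℕ)).decompositionSubgroup ℚ → M2 k))
    (hΛ : ∀ q, FiniteDimensional k (Λ q))
    (hcob : ∀ (q : S) (X : M2 k), X.trace = 0 →
      resPlace (padicPlace ((q : Nat.Primes) : ℕ)) (adCoboundary rb X) ∈ Λ q)
    (hfin1 : Finite (H1 (sLevels S) (adAct rb)))
    (hfin2 : Finite (H1 (sLevels S) (twAct rb)))
    (hfin3 : Finite (H2 (sLevels S) (twAct rb)))
    (hrec : ∀ z : H2 (sLevels S) (muAct p),
      ∑ q : S, I.invMu (q : Nat.Primes) (muLocalize S ((q : Nat.Primes) : ℕ) z) = 0)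
    (hEul : TWEuler.EulerHolds (sLevels S) complexConjugation (twAct rb))
    (hFix : Nat.card ↥(TWEuler.fixedBy (twAct rb) complexConjugation) * Nat.card k =
      Nat.card (Tz k))
    (hLow : (∏ q : S, Nat.card ↥(Inv (adLoc rb (q : Nat.Primes)))) *
      Nat.card (shaH1 S (adAct rb)) ≤ Nat.card (H2 (sLevels S) (twAct rb)))
    (hInj : ∀ y ∈ z1 (sLevels S) (twAct rb),
      (∀ q : S, ∀ f ∈ toLoc rb q (Λ q),
        locCup I ℓ hdet (q : Nat.Primes) f (resLoc ((q : Nat.Primes) : ℕ) y) = 0) →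
        y ∈ (d0 (twAct rb)).range)
    (W : Submodule k (GQ → M2 k)) (hW : W ≤ adCocycles rb)
    (hWI : ∀ c ∈ W, ∀ q : Nat.Primes, q ∉ S → ∀ A : ValuationSubring QBar,
      A.LiesOverPrime (q : ℕ) → ∀ σ ∈ A.inertiaSubgroupIn ℚ, c σ = 0)
    (hWL : ∀ c ∈ W, ∀ q : S, resPlace (padicPlace ((q : Nat.Primes) : ℕ)) c ∈ Λ q) :
    FiniteDimensional k (W.map (LinearMap.range (adCoboundary rb)).mkQ) ∧
      Module.finrank k (W.map (LinearMap.range (adCoboundary rb)).mkQ) + 3 * S.card + 1 ≤
        ∑ q : S, Module.finrank k (Λ q) := by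
  classical
  obtain ⟨U, hU, hU1⟩ := exists_sLevel_rb hrb hunr
  have hsA := isSmooth_adAct hU hU1
  have hsT := isSmooth_twAct hU hU1
  have hcount := card_selClasses_mul_le I ℓ hdet S (fun q => toLoc rb q (Λ q))
    (fun q => isSmooth_comp hsT q) (fun q f hf => hf.1)
    (fun q => range_d0_le_toLoc rb q (Λ q) (isSmooth_comp hsA q) (hcob q))
    (fun q => (finite_card_toLoc rb q (Λ q)).1) hfin1 hfin2 hfin3 hrec hsT hEul hFix hLow hInj
  -- representatives
  have hz : ∀ c : W, ∃ f ∈ z1 (sLevels S) (adAct rb), ∀ g, (f g : M2 k) = c.1 g := fun c =>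
    exists_z1_of_adCocycle hrb hunr (hW c.2) (hWI c.1 c.2)
  choose f hf hfc using hz
  have hsel : ∀ c : W, H1.mk ⟨f c, hf c⟩ ∈ selClasses S (fun q => toLoc rb q (Λ q)) rb := by
    refine fun c => ⟨⟨f c, hf c⟩, fun q => ⟨resLoc_mem_z1 (hf c) q,
      resPlace (padicPlace ((q : Nat.Primes) : ℕ)) c.1, hWL c.1 c.2 q, fun g => ?_⟩, rfl⟩
    show (f c (localGaloisToGlobal _ g) : M2 k) =
      c.1 (decompositionEquiv ((q : Nat.Primes) : ℕ) g : GQ)
    rw [hfc, decompositionEquiv_apply]
  have hrep : ∀ x : W.map (LinearMap.range (adCoboundary rb)).mkQ, ∃ c : W,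
      (LinearMap.range (adCoboundary rb)).mkQ c.1 = x.1 := fun x => by
    obtain ⟨c, hc, h⟩ := x.2
    exact ⟨⟨c, hc⟩, h⟩
  choose r hr using hrep
  let J : W.map (LinearMap.range (adCoboundary rb)).mkQ →
      selClasses S (fun q => toLoc rb q (Λ q)) rb := fun x => ⟨_, hsel (r x)⟩
  have hJ : Function.Injective J := by
    intro x x' h
    obtain ⟨a, ha⟩ := (H1.mk_eq_mk_iff _ _).1 (congrArg Subtype.val h)
    refine Subtype.ext ?_
    rw [← hr x, ← hr x', ← sub_eq_zero, ← map_sub, Submodule.mkQ_apply,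
      Submodule.Quotient.mk_eq_zero]
    refine ⟨-(a : M2 k), funext fun g => ?_⟩
    have hg := congrArg Subtype.val (congrFun ha g)
    rw [adCoboundary, LinearMap.coe_mk, AddHom.coe_mk]
    show -(a : M2 k) - rb g * -(a : M2 k) * rb g⁻¹ = (r x).1 g - (r x').1 g
    rw [← hfc, ← hfc]
    refine Eq.trans ?_ hg
    show _ = rb g * (a : M2 k) * rb g⁻¹ - a
    rw [mul_neg, neg_mul, sub_neg_eq_add, neg_add_eq_sub]
  have : Finite (selClasses S (fun q => toLoc rb q (Λ q)) rb) := inferInstance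
  have hfinW : Finite (W.map (LinearMap.range (adCoboundary rb)).mkQ) := Finite.of_injective J hJ
  refine ⟨Module.Finite.of_finite, ?_⟩
  have h1 : Nat.card k ^ (Module.finrank k (W.map (LinearMap.range (adCoboundary rb)).mkQ) +
      3 * S.card + 1) ≤ Nat.card k ^ ∑ q : S, Module.finrank k (Λ q) := by
    rw [pow_succ, pow_add, pow_mul, ← card_tz (k := k), ← Module.natCard_eq_pow_finrank,
      ← Finset.prod_pow_eq_pow_sum]
    calc _ = Nat.card (W.map (LinearMap.range (adCoboundary rb)).mkQ) * Nat.card k *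
          Nat.card (Tz k) ^ S.card := by ring
      _ ≤ Nat.card (selClasses S (fun q => toLoc rb q (Λ q)) rb) * Nat.card k *
          Nat.card (Tz k) ^ S.card := by
        gcongr
        exact Nat.card_le_card_of_injective J hJ
      _ ≤ _ := hcount.trans (Finset.prod_le_prod' fun q _ => (finite_card_toLoc rb q (Λ q)).2)
  exact (Nat.pow_le_pow_iff_right (Finite.one_lt_card : 1 < Nat.card k)).1 h1

end Bound

end Fermat.Agent.GlobalBound

end
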