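import Fermat.Agent.GlobalBound.Defs
import Fermat.Agent.PoitouTate.ShaDefs
import Fermat.Agent.TWEuler.Ratio
import Mathlib.LinearAlgebra.Dual.Lemmas
import Mathlib.FieldTheory.Finiteness
import Mathlib.Algebra.Field.ZMod

/-!
# Counting Selmer classes of the adjoint representation

`card_selClasses_mul_le` bounds the number of classes of `ad⁰` satisfying local conditions `Lv q`
at the places of `S` by `∏ #(Lv q)`, given the reciprocity law, the Euler characteristic of the
twist, a lower bound for its `H²` and the injectivity of twisted classes against the conditions.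
-/

set_option autoImplicit false

noncomputable section

namespace Fermat.Agent.GlobalBound

open ExtCitation Fermat.Agent.PoitouTate Fermat.Agent.TWEuler
open Fermat.Agent.TWLocal (M2)

theorem card_hom_zmod_of_module {p : ℕ} [Fact p.Prime] (A : Type*) [AddCommGroup A] [Finite A]
    [Module (ZMod p) A] : Nat.card (A →+ ZMod p) = Nat.card A := by
  let e : (A →+ ZMod p) ≃ Module.Dual (ZMod p) A :=
    { toFun := fun f => f.toZModLinearMap p
      invFun := fun f => f.toAddMonoidHom
      left_inv := fun f => AddMonoidHom.ext fun a => rfl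
      right_inv := fun f => LinearMap.ext fun a => rfl }
  have b : Module.Basis _ (ZMod p) A := Module.Free.chooseBasis (ZMod p) A
  exact Nat.card_congr (e.trans b.toDualEquiv.symm.toEquiv)

/-- A finite group killed by `p` has as many additive functionals as elements. -/
theorem card_hom_zmod {p : ℕ} [Fact p.Prime] (A : Type*) [AddCommGroup A] [Finite A]
    (hA : ∀ a : A, p • a = 0) : Nat.card (A →+ ZMod p) = Nat.card A :=
  @card_hom_zmod_of_module p _ A _ _ (AddCommGroup.zmodModule hA)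

/-- A group of functionals killing a subgroup is no larger than the quotient. -/
theorem card_mul_card_le {p : ℕ} [Fact p.Prime] {A : Type*} [AddCommGroup A] [Finite A]
    (hA : ∀ a : A, p • a = 0) (N : AddSubgroup A) (Φ : AddSubgroup (A →+ ZMod p))
    (h : ∀ φ ∈ Φ, ∀ a ∈ N, φ a = 0) : Nat.card Φ * Nat.card N ≤ Nat.card A := by
  have hq : ∀ a : A ⧸ N, p • a = 0 := fun a => by
    induction a using QuotientAddGroup.induction_on with
    | H a => exact congrArg QuotientAddGroup.mk (hA a)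
  have : Finite (A ⧸ N →+ ZMod p) := Finite.of_injective _ DFunLike.coe_injective
  rw [AddSubgroup.card_eq_card_quotient_mul_card_addSubgroup N, ← card_hom_zmod (A ⧸ N) hq]
  refine Nat.mul_le_mul_right _ (Nat.card_le_card_of_injective
    (fun φ : Φ => QuotientAddGroup.lift N φ.1 fun a ha => h φ.1 φ.2 a ha) fun φ φ' e => ?_)
  exact Subtype.ext (AddMonoidHom.ext fun a => DFunLike.congr_fun e (a : A ⧸ N))

theorem card_range_d0_mul_card_inv {G A : Type*} [Group G] [AddCommGroup A] (ρ : Act G A) :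
    Nat.card (d0 ρ).range * Nat.card ↥(Inv ρ) = Nat.card A := by
  rw [AddSubgroup.card_eq_card_quotient_mul_card_addSubgroup (d0 ρ).ker,
    Nat.card_congr (QuotientAddGroup.quotientKerEquivRange (d0 ρ)).toEquiv,
    show (d0 ρ).ker = Inv ρ from AddSubgroup.ext fun a =>
      ⟨fun h g => sub_eq_zero.1 (congrFun h g), fun h => funext fun g => sub_eq_zero.2 (h g)⟩]

/-- A quotient whose kernel contains the kernel of `Φ` is no larger than the image of `Φ`. -/
theorem card_quot_le_card_range {Z R Q : Type*} [AddCommGroup Z] [AddCommGroup R] [AddCommGroup Q]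
    (Φ : Z →+ R) [Finite Φ.range] (f : Z →+ Q) (hf : Function.Surjective f)
    (h : ∀ z, Φ z = 0 → f z = 0) : Nat.card Q ≤ Nat.card Φ.range := by
  refine Nat.card_le_card_of_surjective (fun φ => f φ.2.choose) fun x => ?_
  obtain ⟨y, rfl⟩ := hf x
  refine ⟨⟨Φ y, y, rfl⟩, sub_eq_zero.1 ?_⟩
  rw [← map_sub]
  refine h _ ?_
  rw [map_sub, (⟨Φ y, y, rfl⟩ : Φ.range).2.choose_spec, sub_self]

/-- The image of a subgroup under `mk` is bounded by the images of the kernel and of `g`. -/
theorem card_map_le {Z H R : Type*} [AddCommGroup Z] [AddCommGroup H] [AddCommGroup R]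
    {S' : AddSubgroup Z} (mk : Z →+ H) (g : ↥S' →+ R) (K : AddSubgroup H) [Finite K]
    (M : AddSubgroup R) [Finite M] (hK : ∀ z, g z = 0 → mk z.1 ∈ K) (hM : ∀ x ∈ g.range, x ∈ M)
    (N : AddSubgroup H) (hN : N = S'.map mk) : Nat.card N ≤ Nat.card K * Nat.card M := by
  subst hN
  have hsurj : ∀ x : g.range, ∃ z, g z = x.1 := fun x => x.2
  choose s hs using hsurj
  rw [← Nat.card_prod]
  refine (Nat.card_le_card_of_injective (fun x : ↥(S'.map mk) =>
    ((⟨x.1 - mk (s ⟨g ⟨x.2.choose, x.2.choose_spec.1⟩, _, rfl⟩).1, ?_⟩ : K),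
      (⟨g ⟨x.2.choose, x.2.choose_spec.1⟩, hM _ ⟨_, rfl⟩⟩ : M))) fun x x' e => ?_)
  · let z₀ : S' := ⟨x.2.choose, x.2.choose_spec.1⟩
    have h := hK (z₀ - s ⟨g z₀, z₀, rfl⟩) (by rw [map_sub, hs, sub_self])
    rw [AddSubgroup.coe_sub, map_sub] at h
    rwa [show mk z₀.1 = x.1 from x.2.choose_spec.2] at h
  · obtain ⟨e1, e2⟩ := Prod.ext_iff.1 e
    have e1' := congrArg Subtype.val e1
    have e2' := congrArg Subtype.val e2
    refine Subtype.ext ?_
    simp only at e1' e2'
    simp only [e2'] at e1'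
    exact sub_left_injective e1'

theorem card_eq_card_map_mk_mul {P : Type*} [AddCommGroup P] (B A : AddSubgroup P) (hBA : B ≤ A) :
    Nat.card A = Nat.card (A.map (QuotientAddGroup.mk' B)) * Nat.card B := by
  let g' : A →+ P ⧸ B := (QuotientAddGroup.mk' B).comp A.subtype
  rw [AddSubgroup.card_eq_card_quotient_mul_card_addSubgroup g'.ker,
    Nat.card_congr (QuotientAddGroup.quotientKerEquivRange g').toEquiv,
    show g'.range = A.map (QuotientAddGroup.mk' B) by
      rw [AddMonoidHom.range_comp, AddSubgroup.range_subtype]]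
  congr 1
  exact Nat.card_congr
    { toFun := fun x => ⟨x.1.1, (QuotientAddGroup.eq_zero_iff _).1 x.2⟩
      invFun := fun x => ⟨⟨x.1, hBA x.2⟩, (QuotientAddGroup.eq_zero_iff _).2 x.2⟩
      left_inv := fun x => rfl
      right_inv := fun x => rfl }

/-- The abstract counting step. -/
theorem card_map_mul_card_range_le {p : ℕ} [Fact p.Prime] {P Z H Y : Type*} [AddCommGroup P]
    [Finite P] [AddCommGroup Z] [AddCommGroup H] [AddCommGroup Y] (hP : ∀ x : P, p • x = 0)
    {S' : AddSubgroup Z} (mk : Z →+ H) (res : ↥S' →+ P) (B : AddSubgroup P) (K : AddSubgroup H)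
    [Finite K] (hK : ∀ z, res z ∈ B → mk z.1 ∈ K) (Φ : Y →+ (P →+ ZMod p))
    (hΦres : ∀ y z, Φ y (res z) = 0) (hΦB : ∀ y, ∀ x ∈ B, Φ y x = 0) :
    Nat.card (S'.map mk) * Nat.card B * Nat.card Φ.range ≤ Nat.card K * Nat.card P := by
  let A := res.range ⊔ B
  have h1 := card_mul_card_le hP A Φ.range (by
    rintro _ ⟨y, rfl⟩ x hx
    obtain ⟨_, ⟨z, rfl⟩, w, hw, rfl⟩ := AddSubgroup.mem_sup.1 hx
    rw [map_add, hΦres, hΦB y w hw, add_zero])
  have h2 := card_eq_card_map_mk_mul B A le_sup_right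
  have h3 : Nat.card (S'.map mk) ≤ Nat.card K * Nat.card (A.map (QuotientAddGroup.mk' B)) :=
    card_map_le mk ((QuotientAddGroup.mk' B).comp res) K _
      (fun z hz => hK z ((QuotientAddGroup.eq_zero_iff _).1 hz))
      (by rintro _ ⟨z, rfl⟩; exact ⟨res z, AddSubgroup.mem_sup_left ⟨z, rfl⟩, rfl⟩) _ rfl
  calc Nat.card (S'.map mk) * Nat.card B * Nat.card Φ.range
      ≤ Nat.card K * Nat.card (A.map (QuotientAddGroup.mk' B)) * Nat.card B * Nat.card Φ.range := by
        gcongr
    _ = Nat.card K * (Nat.card Φ.range * Nat.card A) := by rw [h2]; ring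
    _ ≤ _ := Nat.mul_le_mul_left _ h1

variable {k : Type} [Field k] [Finite k] {p : ℕ} [Fact p.Prime]
  (I : InvSystem p) (ℓ : k →+ ZMod p) {rb : GQ →* M2 k} (hdet : DetCyclo p rb)

section Bilinear

variable {q : Nat.Primes} (hs : IsSmooth (localLevels q) (twLoc rb q))

include hs

omit [Finite k] in
theorem locCup_add_left {f f' y : GQl (q : ℕ) → Tz k} (hf : f ∈ z1 (localLevels q) (adLoc rb q))
    (hf' : f' ∈ z1 (localLevels q) (adLoc rb q)) (hy : y ∈ z1 (localLevels q) (twLoc rb q)) :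
    locCup I ℓ hdet q (f + f') y = locCup I ℓ hdet q f y + locCup I ℓ hdet q f' y := by
  rw [locCup_eq I ℓ hdet q hs hf hy, locCup_eq I ℓ hdet q hs hf' hy,
    locCup_eq I ℓ hdet q hs (add_mem hf hf') hy, ← map_add, ← map_add]
  refine congrArg _ (congrArg H2.mk (Subtype.ext (funext fun g => funext fun h => ?_)))
  simp [cup]

omit [Finite k] in
theorem locCup_add_right {f y y' : GQl (q : ℕ) → Tz k} (hf : f ∈ z1 (localLevels q) (adLoc rb q))
    (hy : y ∈ z1 (localLevels q) (twLoc rb q)) (hy' : y' ∈ z1 (localLevels q) (twLoc rb q)) :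
    locCup I ℓ hdet q f (y + y') = locCup I ℓ hdet q f y + locCup I ℓ hdet q f y' := by
  rw [locCup_eq I ℓ hdet q hs hf hy, locCup_eq I ℓ hdet q hs hf hy',
    locCup_eq I ℓ hdet q hs hf (add_mem hy hy'), ← map_add, ← map_add]
  refine congrArg _ (congrArg H2.mk (Subtype.ext (funext fun g => funext fun h => ?_)))
  simp [cup, mul_add, Matrix.trace_add]

omit [Finite k] in
theorem locCup_d0_left (a : Tz k) {y : GQl (q : ℕ) → Tz k}
    (hy : y ∈ z1 (localLevels q) (twLoc rb q))
    (ha : d0 (adLoc rb q) a ∈ z1 (localLevels q) (adLoc rb q)) :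
    locCup I ℓ hdet q (d0 (adLoc rb q) a) y = 0 := by
  rw [locCup_eq I ℓ hdet q hs ha hy]
  obtain ⟨hyl, hy0⟩ := (mem_z1 (localLevels q) (twLoc rb q)).1 hy
  have hz : H2.mk (L := localLevels q) (ρ := muLoc p q)
      ⟨cup (trPair ℓ) (twLoc rb q) (d0 (adLoc rb q) a) y,
        cup_mem_z2 (ρ := adLoc rb q) (σ := twLoc rb q) (τ := muLoc p q)
          (fun g a b => trPair_equivariant ℓ hdet (localGaloisToGlobal (q : ℕ) g) a b) hs ha hy⟩ =
      0 := by
    refine (H2.mk_eq_zero_iff _).2 ⟨fun g => trPair ℓ a (y g), hyl.comp _,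
      funext fun g => funext fun h => ?_⟩
    show muLoc p q g (trPair ℓ a (y h)) - trPair ℓ a (y (g * h)) + trPair ℓ a (y g) =
      trPair ℓ (adLoc rb q g a - a) (twLoc rb q g (y h))
    rw [cocycle₁_mul hy0 g h, map_add, map_sub, AddMonoidHom.sub_apply]
    rw [show trPair ℓ (adLoc rb q g a) (twLoc rb q g (y h)) = muLoc p q g (trPair ℓ a (y h)) from
      trPair_equivariant ℓ hdet _ a (y h)]
    abel
  rw [hz, map_zero]

omit [Finite k] in
theorem locCup_zero_left {y : GQl (q : ℕ) → Tz k}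
    (hy : y ∈ z1 (localLevels q) (twLoc rb q)) : locCup I ℓ hdet q 0 y = 0 := by
  have h := locCup_add_left I ℓ hdet hs (zero_mem _) (zero_mem _) hy
  rw [add_zero] at h
  exact add_eq_left.1 h.symm

end Bilinear

/-- Restriction of functions to the decomposition group at `q`. -/
abbrev resLoc (q : ℕ) [Fact q.Prime] (f : GQ → Tz k) : GQl q → Tz k :=
  fun g => f (localGaloisToGlobal q g)

omit [Finite k] in
/-- Restrictions of cocycles over `S` are local cocycles. -/
theorem resLoc_mem_z1 {S : Finset Nat.Primes} {ρ : Act GQ (Tz k)} {f : GQ → Tz k}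
    (hf : f ∈ z1 (sLevels S) ρ) (q : Nat.Primes) :
    resLoc q f ∈ z1 (localLevels q) (ρ.comp (localGaloisToGlobal q)) :=
  cochainMap₁_mem_z1 (σ := ρ.comp (localGaloisToGlobal q)) (localGaloisToGlobal q)
    (compat_local_sLevels q S) (AddMonoidHom.id _) (fun _ _ => rfl) hf

section Selmer

variable (S : Finset Nat.Primes) (Lv : ∀ q : S, AddSubgroup (GQl ((q : Nat.Primes) : ℕ) → Tz k))

/-- Global cocycles satisfying the local conditions. -/
def selCocycles (rb : GQ →* M2 k) : AddSubgroup ↥(z1 (sLevels S) (adAct rb)) where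
  carrier := {f | ∀ q : S, resLoc ((q : Nat.Primes) : ℕ) f.1 ∈ Lv q}
  add_mem' := fun hf hg q => add_mem (hf q) (hg q)
  zero_mem' := fun _ => zero_mem _
  neg_mem' := fun hf q => neg_mem (hf q)

/-- Their classes. -/
def selClasses (rb : GQ →* M2 k) : AddSubgroup (H1 (sLevels S) (adAct rb)) :=
  (selCocycles S Lv rb).map H1.mk

/-- The counting argument. -/
theorem card_selClasses_mul_le
    (hsm : ∀ q : S, IsSmooth (localLevels (q : Nat.Primes)) (twLoc rb (q : Nat.Primes)))
    (hLz : ∀ q : S, Lv q ≤ z1 (localLevels (q : Nat.Primes)) (adLoc rb (q : Nat.Primes)))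
    (hLb : ∀ q : S, (d0 (adLoc rb (q : Nat.Primes))).range ≤ Lv q)
    (hLfin : ∀ q : S, Finite (Lv q))
    (hfin1 : Finite (H1 (sLevels S) (adAct rb)))
    (_hfin2 : Finite (H1 (sLevels S) (twAct rb)))
    (_hfin3 : Finite (H2 (sLevels S) (twAct rb)))
    (hrec : ∀ z : H2 (sLevels S) (muAct p),
      ∑ q : S, I.invMu (q : Nat.Primes) (muLocalize S ((q : Nat.Primes) : ℕ) z) = 0)
    (hsmG : IsSmooth (sLevels S) (twAct rb))
    (hEul : EulerHolds (sLevels S) complexConjugation (twAct rb))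
    (hFix : Nat.card ↥(fixedBy (twAct rb) complexConjugation) * Nat.card k = Nat.card (Tz k))
    (hLow : (∏ q : S, Nat.card ↥(Inv (adLoc rb (q : Nat.Primes)))) *
      Nat.card (shaH1 S (adAct rb)) ≤ Nat.card (H2 (sLevels S) (twAct rb)))
    (hInj : ∀ y ∈ z1 (sLevels S) (twAct rb),
      (∀ q : S, ∀ f ∈ Lv q,
        locCup I ℓ hdet (q : Nat.Primes) f (resLoc ((q : Nat.Primes) : ℕ) y) = 0) →
        y ∈ (d0 (twAct rb)).range) :
    Nat.card (selClasses S Lv rb) * Nat.card k * Nat.card (Tz k) ^ S.card ≤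
      ∏ q : S, Nat.card (Lv q) := by
  classical
  have hp : ∀ x : Tz k, p • x = 0 := nsmul_eq_zero hdet.1
  let P := ∀ q : S, Lv q
  have hP : ∀ F : P, p • F = 0 := fun F =>
    funext fun q => Subtype.ext (funext fun g => hp _)
  -- the pairing with twisted classes
  let Φ : ↥(z1 (sLevels S) (twAct rb)) →+ (P →+ ZMod p) :=
    AddMonoidHom.mk' (fun y => AddMonoidHom.mk'
      (fun F => ∑ q : S, locCup I ℓ hdet (q : Nat.Primes) (F q).1
        (resLoc ((q : Nat.Primes) : ℕ) y.1))
      (fun F F' => by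
        rw [← Finset.sum_add_distrib]
        exact Finset.sum_congr rfl fun q _ => locCup_add_left I ℓ hdet (hsm q) (hLz q (F q).2)
          (hLz q (F' q).2) (resLoc_mem_z1 y.2 q)))
      fun y y' => AddMonoidHom.ext fun F => by
        rw [AddMonoidHom.add_apply]
        show ∑ q : S, _ = ∑ q : S, _ + ∑ q : S, _
        rw [← Finset.sum_add_distrib]
        exact Finset.sum_congr rfl fun q _ => locCup_add_right I ℓ hdet (hsm q) (hLz q (F q).2)
          (resLoc_mem_z1 y.2 q) (resLoc_mem_z1 y'.2 q)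
  -- the coboundaries and the image of the global classes
  let B : AddSubgroup P :=
    { carrier := {F | ∀ q : S, (F q).1 ∈ (d0 (adLoc rb (q : Nat.Primes))).range}
      add_mem' := fun hF hG q => add_mem (hF q) (hG q)
      zero_mem' := fun q => zero_mem _
      neg_mem' := fun hF q => neg_mem (hF q) }
  let res : ↥(selCocycles S Lv rb) →+ P :=
    AddMonoidHom.mk' (fun f q => ⟨resLoc ((q : Nat.Primes) : ℕ) f.1.1, f.2 q⟩) fun f g => rfl
  have hB : ∀ y, ∀ G ∈ B, Φ y G = 0 := fun y G hG => by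
    refine Finset.sum_eq_zero fun q _ => ?_
    obtain ⟨a, ha⟩ := hG q
    have hmem : d0 (adLoc rb (q : Nat.Primes)) a ∈ z1 _ _ := hLz q (hLb q ⟨a, rfl⟩)
    rw [← ha]
    exact locCup_d0_left I ℓ hdet (hsm q) a (resLoc_mem_z1 y.2 q) hmem
  have hG0 : ∀ y f, Φ y (res f) = 0 := fun y f => by
    have hz := cup_mem_z2 (ρ := adAct rb) (σ := twAct rb) (τ := muAct p)
      (fun g a b => trPair_equivariant ℓ hdet g a b) hsmG f.1.2 y.2
    rw [← hrec (H2.mk ⟨_, hz⟩)]
    refine Finset.sum_congr rfl fun q _ => ?_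
    show locCup I ℓ hdet (q : Nat.Primes) (resLoc ((q : Nat.Primes) : ℕ) f.1.1) _ = _
    rw [locCup_eq I ℓ hdet _ (hsm q) (resLoc_mem_z1 f.1.2 q) (resLoc_mem_z1 y.2 q)]
    rfl
  have : Finite (P →+ ZMod p) := Finite.of_injective _ DFunLike.coe_injective
  -- twisted classes inject
  have h1 : Nat.card (H1 (sLevels S) (twAct rb)) ≤ Nat.card Φ.range := by
    refine card_quot_le_card_range Φ H1.mk H1.mk_surjective fun y hy => ?_
    obtain ⟨a, ha⟩ := hInj y.1 y.2 fun q f hf => by
      have h0 : Φ y (Pi.single q ⟨f, hf⟩) = 0 := by rw [hy]; rfl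
      change ∑ q' : S, locCup I ℓ hdet (q' : Nat.Primes)
        ((Pi.single q (⟨f, hf⟩ : Lv q) : P) q').1
        (resLoc ((q' : Nat.Primes) : ℕ) y.1) = 0 at h0
      rw [Finset.sum_eq_single q] at h0
      · rwa [Pi.single_eq_same] at h0
      · intro q' _ hq'
        rw [Pi.single_eq_of_ne hq']
        exact locCup_zero_left I ℓ hdet (hsm q') (resLoc_mem_z1 y.2 q')
      · simp
    exact (H1.mk_eq_zero_iff _).2 ⟨a, ha⟩
  -- the Selmer classes
  let mk1 : ↥(z1 (sLevels S) (adAct rb)) →+ H1 (sLevels S) (adAct rb) := H1.mk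
  let K : AddSubgroup (H1 (sLevels S) (adAct rb)) := shaH1 S (adAct rb)
  have hK : ∀ z : ↥(selCocycles S Lv rb), res z ∈ B → mk1 z.1 ∈ K := fun z hz =>
    mem_shaH1.2 fun q hq => by
      obtain ⟨a, ha⟩ := hz ⟨q, hq⟩
      exact (H1.mk_eq_zero_iff _).2 ⟨a, ha⟩
  have h2 := @card_map_mul_card_range_le p _ P ↥(z1 (sLevels S) (adAct rb))
    (H1 (sLevels S) (adAct rb)) ↥(z1 (sLevels S) (twAct rb)) _ _ _ _ _ hP (selCocycles S Lv rb) mk1
    res B K _ hK Φ hG0 hB
  have h4 : Nat.card B = ∏ q : S, Nat.card (d0 (adLoc rb (q : Nat.Primes))).range := by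
    rw [← Nat.card_pi]
    exact Nat.card_congr
      { toFun := fun F q => ⟨(F.1 q).1, F.2 q⟩
        invFun := fun F => ⟨fun q => ⟨(F q).1, hLb q (F q).2⟩, fun q => (F q).2⟩
        left_inv := fun F => rfl
        right_inv := fun F => rfl }
  have h5 : Nat.card k * Nat.card (H2 (sLevels S) (twAct rb)) ≤
      Nat.card (H1 (sLevels S) (twAct rb)) := by
    have hc : 0 < Nat.card ↥(fixedBy (twAct rb) complexConjugation) := Nat.card_pos
    have hi : 1 ≤ Nat.card ↥(Inv (twAct rb)) := Nat.card_pos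
    unfold EulerHolds at hEul
    rw [← hFix] at hEul
    refine Nat.le_of_mul_le_mul_right ?_ hc
    rw [← hEul]
    calc Nat.card k * Nat.card (H2 (sLevels S) (twAct rb)) *
          Nat.card ↥(fixedBy (twAct rb) complexConjugation)
        = 1 * Nat.card (H2 (sLevels S) (twAct rb)) *
            (Nat.card ↥(fixedBy (twAct rb) complexConjugation) * Nat.card k) := by ring
      _ ≤ _ := by gcongr
  have hsha : 0 < Nat.card (shaH1 S (adAct rb)) := Nat.card_pos
  refine Nat.le_of_mul_le_mul_left ?_ hsha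
  calc Nat.card (shaH1 S (adAct rb)) *
        (Nat.card (selClasses S Lv rb) * Nat.card k * Nat.card (Tz k) ^ S.card)
      = Nat.card (selClasses S Lv rb) * Nat.card B *
          (Nat.card k * ((∏ q : S, Nat.card ↥(Inv (adLoc rb (q : Nat.Primes)))) *
            Nat.card (shaH1 S (adAct rb)))) := by
        rw [h4, ← Fintype.card_coe, ← Finset.card_univ, ← Finset.prod_const,
          Finset.prod_congr rfl fun (q : S) _ =>
            (card_range_d0_mul_card_inv (adLoc rb ((q : Nat.Primes) : ℕ))).symm,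
          Finset.prod_mul_distrib]
        ring
    _ ≤ Nat.card (selClasses S Lv rb) * Nat.card B * Nat.card Φ.range := by
        gcongr
        exact ((Nat.mul_le_mul_left _ hLow).trans h5).trans h1
    _ ≤ _ := by rw [← Nat.card_pi]; exact h2

end Selmer

end Fermat.Agent.GlobalBound

end
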