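import Fermat.Agent.PoitouTate.Inputs
import Fermat.Agent.TWLocal.Basic

/-!
# The trace-zero adjoint module and its twist

`Tz k` is the space of trace-zero `2 × 2` matrices, with the adjoint action `adAct` of a
representation `rb`, its twist `twAct` by the determinant, the trace pairing `trPair` between them
and the local invariant `locCup` of the cup product of two local cocycles.
-/

set_option autoImplicit false

noncomputable section

namespace Fermat.Agent.GlobalBound

open ExtCitation Fermat.Agent.PoitouTate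
open Fermat.Agent.TWLocal (M2 adj adj_mul adj_one trace_adj rb_mul_inv rb_inv_mul)

variable {k : Type} [Field k]

/-- Trace-zero matrices. -/
abbrev Tz (k : Type) [Field k] : Submodule k (M2 k) :=
  LinearMap.ker (Matrix.traceLinearMap (Fin 2) k k)

/-- Elements of `Tz k` have trace zero. -/
theorem trace_coe (x : Tz k) : (x : M2 k).trace = 0 := x.2

/-- `Tz k` is killed by `p`. -/
theorem nsmul_eq_zero {p : ℕ} (hpk : (p : k) = 0) (x : Tz k) : p • x = 0 := by
  rw [← Nat.cast_smul_eq_nsmul k, hpk, zero_smul]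

/-- The adjoint action on trace-zero matrices, as a linear map. -/
def adTz (rb : GQ →* M2 k) (g : GQ) : Tz k →ₗ[k] Tz k :=
  ((adj rb g).comp (Tz k).subtype).codRestrict (Tz k) fun x => by
    show (adj rb g (x : M2 k)).trace = 0
    rw [trace_adj]
    exact trace_coe x

@[simp] theorem adTz_coe (rb : GQ →* M2 k) (g : GQ) (x : Tz k) :
    (adTz rb g x : M2 k) = adj rb g x := rfl

/-- The adjoint action. -/
def adAct (rb : GQ →* M2 k) : Act GQ (Tz k) where
  toFun g := (adTz rb g).toAddMonoidHom
  map_one' := AddMonoidHom.ext fun x => Subtype.ext (adj_one rb x)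
  map_mul' g h := AddMonoidHom.ext fun x => Subtype.ext (adj_mul rb g h x)

/-- The adjoint action is conjugation. -/
@[simp] theorem adAct_coe (rb : GQ →* M2 k) (g : GQ) (x : Tz k) :
    ((adAct rb g x : Tz k) : M2 k) = rb g * x * rb g⁻¹ := rfl

/-- The twist of the adjoint action by the determinant. -/
def twAct (rb : GQ →* M2 k) : Act GQ (Tz k) where
  toFun g := ((rb g).det • adTz rb g).toAddMonoidHom
  map_one' := AddMonoidHom.ext fun x => Subtype.ext (by
    show (rb 1).det • adj rb 1 (x : M2 k) = x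
    rw [map_one, Matrix.det_one, one_smul, adj_one])
  map_mul' g h := AddMonoidHom.ext fun x => Subtype.ext (by
    show (rb (g * h)).det • adj rb (g * h) (x : M2 k) =
      (rb g).det • adj rb g ((rb h).det • adj rb h (x : M2 k))
    rw [map_mul, Matrix.det_mul, adj_mul, map_smul, smul_smul])

/-- The twisted action is conjugation times the determinant. -/
@[simp] theorem twAct_coe (rb : GQ →* M2 k) (g : GQ) (x : Tz k) :
    ((twAct rb g x : Tz k) : M2 k) = (rb g).det • (rb g * x * rb g⁻¹) := rfl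

/-- The adjoint action at a prime. -/
abbrev adLoc (rb : GQ →* M2 k) (q : ℕ) [Fact q.Prime] : Act (GQl q) (Tz k) :=
  (adAct rb).comp (localGaloisToGlobal q)

/-- The twisted adjoint action at a prime. -/
abbrev twLoc (rb : GQ →* M2 k) (q : ℕ) [Fact q.Prime] : Act (GQl q) (Tz k) :=
  (twAct rb).comp (localGaloisToGlobal q)

/-- The determinant of `rb` is the cyclotomic character mod `p`. -/
def DetCyclo (p : ℕ) [Fact p.Prime] (rb : GQ →* M2 k) : Prop :=
  (p : k) = 0 ∧ ∀ g, (rb g).det = ((((cycloChar p g : (ZMod p)ˣ) : ZMod p).val : ℕ) : k)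

/-- Trace-zero matrices have three coordinates. -/
def tzEquiv : Tz k ≃ k × k × k where
  toFun x := ((x : M2 k) 0 0, (x : M2 k) 0 1, (x : M2 k) 1 0)
  invFun a := ⟨!![a.1, a.2.1; a.2.2, -a.1], by
    show (!![a.1, a.2.1; a.2.2, -a.1] : M2 k).trace = 0
    simp [Matrix.trace_fin_two]⟩
  left_inv x := Subtype.ext (Matrix.ext fun i j => by
    have h := trace_coe x
    rw [Matrix.trace_fin_two] at h
    fin_cases i <;> fin_cases j <;> simp [eq_neg_of_add_eq_zero_right h])
  right_inv a := by simp

/-- The trace-zero matrices number `#k ^ 3`. -/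
theorem card_tz : Nat.card (Tz k) = Nat.card k ^ 3 := by
  rw [Nat.card_congr tzEquiv, Nat.card_prod, Nat.card_prod]; ring

section Characteristic

variable {p : ℕ} [Fact p.Prime]

/-- `2` is invertible in odd characteristic. -/
theorem two_ne_zero_of_cast (hp2 : p ≠ 2) (hpk : (p : k) = 0) : (2 : k) ≠ 0 := fun h => by
  obtain ⟨m, hm⟩ := (Fact.out : p.Prime).odd_of_ne_two hp2
  rw [hm, Nat.cast_add, Nat.cast_mul, Nat.cast_ofNat, h, zero_mul, zero_add, Nat.cast_one] at hpk
  exact one_ne_zero hpk

/-- The cyclotomic character is trivial on the kernel of `rb`. -/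
theorem cycloChar_eq_one {rb : GQ →* M2 k} (hdet : DetCyclo p rb) {u : GQ} (hu : rb u = 1) :
    cycloChar p u = 1 := by
  have h := hdet.2 u
  rw [hu, Matrix.det_one, ← Nat.cast_one] at h
  have : CharP k p := (CharP.charP_iff_prime_eq_zero Fact.out).2 hdet.1
  rw [CharP.natCast_eq_natCast k p] at h
  refine Units.ext (ZMod.val_injective p ?_)
  rw [Units.val_one, ZMod.val_one]
  exact (h.eq_of_lt_of_lt (Fact.out : p.Prime).one_lt (ZMod.val_lt _)).symm

end Characteristic

section Pairing

variable {p : ℕ} [Fact p.Prime] (ℓ : k →+ ZMod p)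

/-- The trace pairing composed with a functional on `k`. -/
def trPair : Tz k →+ Tz k →+ ZMod p :=
  AddMonoidHom.mk' (fun x => AddMonoidHom.mk' (fun y => ℓ ((x : M2 k) * (y : M2 k)).trace)
      fun y y' => by rw [Submodule.coe_add, mul_add, Matrix.trace_add, map_add])
    fun x x' => AddMonoidHom.ext fun y => by
      show ℓ (((x + x' : Tz k) : M2 k) * (y : M2 k)).trace = _
      rw [Submodule.coe_add, add_mul, Matrix.trace_add, map_add]
      rfl

/-- The pairing is the functional of the trace of the product. -/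
@[simp] theorem trPair_apply (x y : Tz k) : trPair ℓ x y = ℓ ((x : M2 k) * (y : M2 k)).trace :=
  rfl

/-- The pairing takes the adjoint and twisted actions to the cyclotomic action. -/
theorem trPair_equivariant {rb : GQ →* M2 k} (hdet : DetCyclo p rb) (g : GQ) (x y : Tz k) :
    trPair ℓ (adAct rb g x) (twAct rb g y) = muAct p g (trPair ℓ x y) := by
  have e : rb g * (x : M2 k) * rb g⁻¹ * (rb g * (y : M2 k) * rb g⁻¹) =
      rb g * ((x : M2 k) * (y : M2 k)) * rb g⁻¹ := by
    simp only [mul_assoc, ← mul_assoc (rb g⁻¹) (rb g), rb_inv_mul, one_mul]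
  rw [trPair_apply, trPair_apply, muAct_apply, adAct_coe, twAct_coe, mul_smul_comm, e,
    Matrix.trace_smul, Matrix.trace_mul_comm (rb g * _), ← mul_assoc, rb_inv_mul, one_mul,
    hdet.2 g, smul_eq_mul, ← nsmul_eq_mul, map_nsmul, nsmul_eq_mul, ZMod.natCast_zmod_val]

end Pairing

section Cup

variable {p : ℕ} [Fact p.Prime] {G : Type*} [Group G] {A B : Type*} [AddCommGroup A]
  [AddCommGroup B] {ρ : Act G A} {σ : Act G B} {τ : Act G (ZMod p)}

/-- The cup product of two cochains of degree one. -/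
def cup (β : A →+ B →+ ZMod p) (σ : Act G B) (f : G → A) (y : G → B) : G → G → ZMod p :=
  fun g h => β (f g) (σ g (y h))

/-- Cup products of cocycles are `2`-cocycles. -/
theorem cup_mem_z2 {β : A →+ B →+ ZMod p} (hβ : ∀ g a b, β (ρ g a) (σ g b) = τ g (β a b))
    {L : Levels G} (hσ : IsSmooth L σ) {f : G → A} (hf : f ∈ z1 L ρ) {y : G → B}
    (hy : y ∈ z1 L σ) : cup β σ f y ∈ z2 L τ := by
  obtain ⟨hfl, hf0⟩ := (mem_z1 L ρ).1 hf
  obtain ⟨hyl, hy0⟩ := (mem_z1 L σ).1 hy
  refine (mem_z2 L τ).2 ⟨?_, fun g h j => ?_⟩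
  · obtain ⟨U, hU, hUy, hfix⟩ := hσ.exists_level hyl
    obtain ⟨V, hV, hVf⟩ := hfl
    obtain ⟨Z, hZ, hZU, hZV⟩ := L.inf hU hV
    refine ⟨Z, hZ, fun g h s hs t ht => ?_⟩
    show β (f (g * s)) (σ (g * s) (y (h * t))) = β (f g) (σ g (y h))
    rw [hVf g s (hZV hs), hUy h t (hZU ht), act_mul_apply, hfix h s (hZU hs)]
  · simp only [cup, cocycle₁_mul hf0 g h, cocycle₁_mul hy0 h j, map_add, act_mul_apply,
      AddMonoidHom.add_apply, hβ]
    abel

end Cup

section Loc

variable {p : ℕ} [Fact p.Prime] (I : InvSystem p) (ℓ : k →+ ZMod p) {rb : GQ →* M2 k}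
  (hdet : DetCyclo p rb)

open scoped Classical in
/-- The local invariant of the cup product (zero unless both are cocycles). -/
def locCup (q : Nat.Primes) (f y : GQl (q : ℕ) → Tz k) : ZMod p :=
  if h : IsSmooth (localLevels q) (twLoc rb q) ∧ f ∈ z1 (localLevels q) (adLoc rb q) ∧
      y ∈ z1 (localLevels q) (twLoc rb q) then
    I.invMu q (H2.mk ⟨cup (trPair ℓ) (twLoc rb q) f y,
      cup_mem_z2 (ρ := adLoc rb q) (σ := twLoc rb q) (τ := muLoc p q)
        (fun g a b => trPair_equivariant ℓ hdet (localGaloisToGlobal (q : ℕ) g) a b)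
          h.1 h.2.1 h.2.2⟩)
  else 0

/-- `locCup` is the invariant of the cup product class. -/
theorem locCup_eq (q : Nat.Primes) {f y : GQl (q : ℕ) → Tz k}
    (hs : IsSmooth (localLevels q) (twLoc rb q)) (hf : f ∈ z1 (localLevels q) (adLoc rb q))
    (hy : y ∈ z1 (localLevels q) (twLoc rb q)) :
    locCup I ℓ hdet q f y = I.invMu q (H2.mk ⟨cup (trPair ℓ) (twLoc rb q) f y,
      cup_mem_z2 (ρ := adLoc rb q) (σ := twLoc rb q) (τ := muLoc p q)
        (fun g a b => trPair_equivariant ℓ hdet (localGaloisToGlobal (q : ℕ) g) a b) hs hf hy⟩) :=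
  dif_pos ⟨hs, hf, hy⟩

end Loc

end Fermat.Agent.GlobalBound

end
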