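import Fermat.Agent.PoitouTate.Pairing
import Fermat.Agent.PoitouTate.FiniteDuality
import Fermat.Agent.GlobalBound.Defs

/-!
# A lower bound for `H²` over `S`

By Poitou–Tate duality, `#Ш¹(M*) * ∏ #H⁰(ℚ_q, M*) ≤ #H²(S, M)` when `M*` has no global invariants
(`card_mul_le`), applied to the twisted adjoint module in `card_H2_tw_lower`.
-/

set_option autoImplicit false

noncomputable section

namespace Fermat.Agent.GlobalBound

open ExtCitation Fermat.Agent.PoitouTate
open Fermat.Agent.TWLocal (M2)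

section General

variable {p : ℕ} [Fact p.Prime] {I : InvSystem p} {S : Finset Nat.Primes}
variable {M : Type} [AddCommGroup M] [Module (ZMod p) M] [Finite M] {ρ : Act GQ M}
variable {U₀ : Subgroup GQ}
variable (hI : DualInputs I S) (hU₀ : (sLevels S).mem U₀) (htriv : IsTrivOn ρ (cycloChar p) U₀)

/-- The families of local invariants of the dual module at the places of `S`. -/
abbrev InvFamily (S : Finset Nat.Primes) (ρ : Act GQ M) : Type :=
  ∀ q : ↥S, ↥(Inv ((dualAct p ρ).comp (localGaloisToGlobal ((q : Nat.Primes) : ℕ))))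

/-- A family of invariants as a datum. -/
def famDatum (b : InvFamily (p := p) S ρ) : Datum (p := p) S ρ :=
  Datum.ofInv (fun q => (b q).1) fun q g => (b q).2 g

/-- The functional on `H²` of a family of invariants. -/
def famFun : InvFamily (p := p) S ρ →+ (H2 (sLevels S) ρ →+ ZMod p) :=
  AddMonoidHom.mk' (fun b => (famDatum b).pairFun hI hU₀ htriv) fun b b' => by
    rw [← Datum.pairFun_add hI hU₀ htriv]
    exact congrArg (fun d : Datum (p := p) S ρ => d.pairFun hI hU₀ htriv)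
      (Datum.ext' (add_zero (0 : ↥(z1 (sLevels S) (dualAct p ρ)))).symm rfl)

theorem famFun_sha (b : InvFamily (p := p) S ρ) {x : H2 (sLevels S) ρ} (hx : x ∈ shaH2 S ρ) :
    famFun hI hU₀ htriv b x = 0 := by
  show (famDatum b).pairFun hI hU₀ htriv x = 0
  rw [famDatum, Datum.pairFun_ofInv]
  exact Finset.sum_eq_zero fun q _ => by rw [mem_shaH2.1 hx q q.2, map_zero, map_zero]

theorem famFun_injective (hinv : Inv (dualAct p ρ) = ⊥) :
    Function.Injective (famFun hI hU₀ htriv) := by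
  refine (injective_iff_map_eq_zero _).2 fun b hb => funext fun q₀ => Subtype.ext ?_
  set d := famDatum b
  obtain ⟨V, -, hd⟩ := exists_datumLevel hU₀ htriv d
  have := finite_coset hd.mem le_rfl
  let _ : Fintype (GQ ⧸ V) := Fintype.ofFinite _
  let ω₀ : SPlace S (cosetPerm V) := ⟨q₀, Quotient.mk _ ((1 : GQ) : GQ ⧸ V)⟩
  have hconst : ∀ ω, d.weight V ω = d.weight V ω₀ := fun ω => AddMonoidHom.ext fun m => by
    let _ : ∀ q : ↥S, Fintype (Places ((q : Nat.Primes) : ℕ) (cosetPerm V)) := fun q =>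
      Fintype.ofFinite _
    refine weight_const hI hd.mem (fun v hv => (hd.triv v hv).1)
      (t := fun ω => d.weight V ω m) (fun z => ?_) ω ω₀
    rw [← pairFun_piMap' hI hU₀ htriv d hd m z,
      show d.pairFun hI hU₀ htriv = 0 from hb, AddMonoidHom.zero_apply]
  have key : ∀ g, dualAct p ρ g⁻¹ ((b q₀).1 + 0) = d.weight V ω₀ := fun g => by
    refine Eq.trans ?_ (hconst ⟨q₀, Quotient.mk _ ((g : GQ) : GQ ⧸ V)⟩)
    rw [← d.twist_eq_weight hd, d.twist_mk hd]
    rfl
  have h1 := key 1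
  rw [inv_one, act_one_apply] at h1
  have hfix : (b q₀).1 ∈ Inv (dualAct p ρ) := fun g => by
    have h2 := key g⁻¹
    rwa [inv_inv, ← h1, add_zero] at h2
  rw [hinv, AddSubgroup.mem_bot] at hfix
  exact hfix

include hI hU₀ htriv in
theorem card_shaH1_le [Finite (H2 (sLevels S) ρ)] (hL : ∀ q ∈ S, LocalInputs I q) (q₀ : ↥S) :
    Finite ↥(shaH1 S (dualAct p ρ)) ∧
      Nat.card ↥(shaH1 S (dualAct p ρ)) ≤ Nat.card ↥(shaH2 S ρ) := by
  have hexp : ∀ x : ↥(shaH2 S ρ), p • x = 0 := fun x =>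
    Subtype.ext (H2.nsmul_prime_eq_zero x.1)
  have hc := card_hom_zmod hexp
  have : Finite (↥(shaH2 S ρ) →+ ZMod p) :=
    Nat.finite_of_card_ne_zero (by rw [hc]; exact Nat.card_pos.ne')
  have hinj : Function.Injective (shaPairing hI hU₀ htriv) :=
    (injective_iff_map_eq_zero _).2 fun y hy =>
      shaPairing_separates_left hI hU₀ htriv hL q₀ y fun x => by
        rw [hy, AddMonoidHom.zero_apply]
  exact ⟨Finite.of_injective _ hinj, hc ▸ Nat.card_le_card_of_injective _ hinj⟩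

include hI hU₀ htriv in
/-- The lower bound for `H²` of a module in terms of its dual. -/
theorem card_dual_mul_le [Finite (H2 (sLevels S) ρ)] (hL : ∀ q ∈ S, LocalInputs I q) (q₀ : ↥S)
    (hinv : Inv (dualAct p ρ) = ⊥) :
    Nat.card ↥(shaH1 S (dualAct p ρ)) *
        ∏ q : ↥S,
          Nat.card ↥(Inv ((dualAct p ρ).comp (localGaloisToGlobal ((q : Nat.Primes) : ℕ)))) ≤
      Nat.card (H2 (sLevels S) ρ) := by
  have hexp : ∀ x : H2 (sLevels S) ρ ⧸ shaH2 S ρ, p • x = 0 := fun x => by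
    obtain ⟨y, rfl⟩ := QuotientAddGroup.mk'_surjective _ x
    rw [← map_nsmul, H2.nsmul_prime_eq_zero, map_zero]
  have hc := card_hom_zmod (p := p) (V := H2 (sLevels S) ρ ⧸ shaH2 S ρ) hexp
  have : Finite ((H2 (sLevels S) ρ ⧸ shaH2 S ρ) →+ ZMod p) :=
    Nat.finite_of_card_ne_zero (by rw [hc]; exact Nat.card_pos.ne')
  let ψ : InvFamily (p := p) S ρ → (H2 (sLevels S) ρ ⧸ shaH2 S ρ) →+ ZMod p := fun b =>
    QuotientAddGroup.lift _ (famFun hI hU₀ htriv b) fun x hx =>
      AddMonoidHom.mem_ker.2 (famFun_sha hI hU₀ htriv b hx)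
  have hψ : Function.Injective ψ := fun b b' h =>
    famFun_injective hI hU₀ htriv hinv (AddMonoidHom.ext fun x =>
      DFunLike.congr_fun h (x : H2 (sLevels S) ρ ⧸ shaH2 S ρ))
  rw [(shaH2 S ρ).card_eq_card_quotient_mul_card_addSubgroup, mul_comm]
  refine Nat.mul_le_mul ?_ (card_shaH1_le hI hU₀ htriv hL q₀).2
  rw [← Nat.card_pi, ← hc]
  exact Nat.card_le_card_of_injective ψ hψ

include hI hU₀ htriv in
/-- The lower bound for `H²` of a module paired perfectly with `α`. -/
theorem card_mul_le [Finite (H2 (sLevels S) ρ)] (hL : ∀ q ∈ S, LocalInputs I q) (q₀ : ↥S)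
    {A : Type} [AddCommGroup A] {α : Act GQ A} (e : A →+ (M →+ ZMod p))
    (he : IsEquivariant α (dualAct p ρ) e) (hbij : Function.Bijective e) (hinv : Inv α = ⊥) :
    Nat.card ↥(shaH1 S α) *
        ∏ q ∈ S, Nat.card ↥(Inv (α.comp (localGaloisToGlobal (q : ℕ)))) ≤
      Nat.card (H2 (sLevels S) ρ) := by
  have : Finite (M →+ ZMod p) := Finite.of_injective _ DFunLike.coe_injective
  have hinv' : Inv (dualAct p ρ) = ⊥ := (AddSubgroup.eq_bot_iff_forall _).2 fun f hf => by
    obtain ⟨a, rfl⟩ := hbij.2 f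
    have ha : a ∈ Inv α := fun g => hbij.1 ((he g a).trans (hf g))
    rw [hinv, AddSubgroup.mem_bot] at ha
    rw [ha, map_zero]
  refine le_trans ?_ (card_dual_mul_le hI hU₀ htriv hL q₀ hinv')
  have hfin := (card_shaH1_le hI hU₀ htriv hL q₀).1
  refine Nat.mul_le_mul ?_ ?_
  · refine Nat.card_le_card_of_injective
      (fun y : ↥(shaH1 S α) => (⟨H1.coef e he y.1, mem_shaH1.2 fun q hq => ?_⟩ :
        ↥(shaH1 S (dualAct p ρ)))) ?_
    · obtain ⟨c, hc⟩ := H1.mk_surjective y.1
      have h0 := mem_shaH1.1 y.2 q hq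
      rw [← hc] at h0
      obtain ⟨a, ha⟩ := (H1.mk_eq_zero_iff _).1 h0
      rw [← hc]
      refine (H1.mk_eq_zero_iff _).2 ⟨e a, funext fun g => ?_⟩
      rw [d0_apply]
      show dualAct p ρ (localGaloisToGlobal (q : ℕ) g) (e a) - e a =
        e (c.1 (localGaloisToGlobal (q : ℕ) g))
      rw [← show α (localGaloisToGlobal (q : ℕ) g) a - a = c.1 (localGaloisToGlobal (q : ℕ) g)
        from congrFun ha g, map_sub]
      exact congrArg (· - e a) (he _ a).symm
    · intro y y' h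
      refine Subtype.ext ?_
      have h' : H1.coef e he y.1 = H1.coef e he y'.1 := congrArg Subtype.val h
      obtain ⟨c, hc⟩ := H1.mk_surjective y.1
      obtain ⟨c', hc'⟩ := H1.mk_surjective y'.1
      rw [← hc, ← hc', H1.map_mk, H1.map_mk, H1.mk_eq_mk_iff] at h'
      obtain ⟨b, hb⟩ := h'
      obtain ⟨a, rfl⟩ := hbij.2 b
      rw [← hc, ← hc', H1.mk_eq_mk_iff]
      refine ⟨a, funext fun g => hbij.1 ?_⟩
      rw [d0_apply, map_sub, Pi.sub_apply, map_sub,
        show e (α g a) = dualAct p ρ g (e a) from he g a]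
      exact congrFun hb g
  · rw [← Finset.prod_coe_sort S]
    refine Finset.prod_le_prod' fun q _ => ?_
    refine Nat.card_le_card_of_injective
      (fun a : ↥(Inv (α.comp (localGaloisToGlobal ((q : Nat.Primes) : ℕ)))) =>
        (⟨e a.1, fun g => (he _ a.1).symm.trans (congrArg e (a.2 g))⟩ :
          ↥(Inv ((dualAct p ρ).comp (localGaloisToGlobal ((q : Nat.Primes) : ℕ))))))
      fun a a' h => Subtype.ext (hbij.1 (congrArg Subtype.val h))

end General

section Adjoint

variable {k : Type} [Field k] {p : ℕ} [Fact p.Prime]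

theorem eq_zero_of_forall_mul {ℓ : k →+ ZMod p} (hℓ : ℓ ≠ 0) {a : k}
    (h : ∀ t : k, ℓ (t * a) = 0) : a = 0 := by
  by_contra ha
  exact hℓ (AddMonoidHom.ext fun t => by
    have := h (t / a)
    rwa [div_mul_cancel₀ t ha] at this)

theorem trPair_injective {ℓ : k →+ ZMod p} (hℓ : ℓ ≠ 0) (h2 : (2 : k) ≠ 0) :
    Function.Injective (trPair (k := k) ℓ) := by
  refine (injective_iff_map_eq_zero _).2 fun x hx => ?_
  have hx' : ∀ y : M2 k, y.trace = 0 → ℓ ((x : M2 k) * y).trace = 0 := fun y hy =>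
    DFunLike.congr_fun hx (⟨y, hy⟩ : Tz k)
  have ht : (x : M2 k) 0 0 + (x : M2 k) 1 1 = 0 := by
    rw [← Matrix.trace_fin_two]; exact trace_coe x
  have h01 : (x : M2 k) 0 1 = 0 := eq_zero_of_forall_mul hℓ fun t => by
    have := hx' !![0, 0; t, 0] (by simp [Matrix.trace_fin_two])
    simpa [Matrix.trace_fin_two, Matrix.mul_apply, Fin.sum_univ_two, mul_comm] using this
  have h10 : (x : M2 k) 1 0 = 0 := eq_zero_of_forall_mul hℓ fun t => by
    have := hx' !![0, t; 0, 0] (by simp [Matrix.trace_fin_two])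
    simpa [Matrix.trace_fin_two, Matrix.mul_apply, Fin.sum_univ_two, mul_comm] using this
  have h00 : 2 * (x : M2 k) 0 0 = 0 := eq_zero_of_forall_mul hℓ fun t => by
    have := hx' !![t, 0; 0, -t] (by simp [Matrix.trace_fin_two])
    rw [← this]
    congr 1
    simp only [Matrix.trace_fin_two, Matrix.mul_apply, Fin.sum_univ_two, Matrix.cons_val',
      Matrix.cons_val_zero, Matrix.cons_val_one, Matrix.empty_val', Matrix.cons_val_fin_one,
      Matrix.of_apply, eq_neg_of_add_eq_zero_right ht]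
    ring
  have h00' := (mul_eq_zero.1 h00).resolve_left h2
  have h11 : (x : M2 k) 1 1 = 0 := by rwa [h00', zero_add] at ht
  refine Subtype.ext (Matrix.ext fun i j => ?_)
  fin_cases i <;> fin_cases j <;> assumption

theorem trPair_dual {ℓ : k →+ ZMod p} {rb : GQ →* M2 k} (hdet : DetCyclo p rb) :
    IsEquivariant (adAct rb) (dualAct p (twAct rb)) (trPair ℓ) := fun g x =>
  AddMonoidHom.ext fun y => by
    rw [MonoidHom.id_apply, dualAct_apply,
      show (((cycloChar p g : (ZMod p)ˣ) : ZMod p)) * trPair ℓ x (twAct rb g⁻¹ y) =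
        muAct p g (trPair ℓ x (twAct rb g⁻¹ y)) from rfl,
      ← trPair_equivariant ℓ hdet g x (twAct rb g⁻¹ y), act_apply_inv_self]

/-- The lower bound for `H²` of the twisted adjoint module over `S`. -/
theorem card_H2_tw_lower [Finite k] {I : InvSystem p} {S : Finset Nat.Primes}
    {rb : GQ →* M2 k} {U₀ : Subgroup GQ} (hI : DualInputs I S)
    (hL : ∀ q ∈ S, LocalInputs I q) (hU₀ : (sLevels S).mem U₀)
    (htriv : IsTrivOn (twAct rb) (cycloChar p) U₀) (q₀ : ↥S) {ℓ : k →+ ZMod p} (hℓ : ℓ ≠ 0)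
    (hdet : DetCyclo p rb) (hinv : Inv (adAct rb) = ⊥)
    [Finite (H2 (sLevels S) (twAct rb))] :
    Nat.card ↥(shaH1 S (adAct rb)) * ∏ q ∈ S, Nat.card ↥(Inv (adLoc rb q)) ≤
      Nat.card (H2 (sLevels S) (twAct rb)) := by
  let mT : Module (ZMod p) (Tz k) := AddCommGroup.zmodModule (nsmul_eq_zero hdet.1)
  have hinj := trPair_injective hℓ (two_ne_zero_of_cast hI.ne_two hdet.1)
  have : Finite (Tz k →+ ZMod p) := Finite.of_injective _ DFunLike.coe_injective
  exact card_mul_le hI hU₀ htriv hL q₀ (trPair ℓ) (trPair_dual hdet)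
    (hinj.bijective_of_nat_card_le (by rw [card_hom_zmod (nsmul_eq_zero hdet.1)])) hinv

end Adjoint

end Fermat.Agent.GlobalBound

end
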