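import Fermat.Agent.GlobalBound.Bridge
import Fermat.Agent.GlobalBound.LowerBound
import Fermat.Agent.TWLocal.Away
import Fermat.Agent.TWAssembly.Assembly

/-!
# The global bound on Selmer groups with auxiliary primes

`exists_bound_of_inputs` bounds the dimension of the Selmer group of `ad⁰` with Taylor–Wiles
primes `Q` by `#Q`, the dimensions of the local conditions and the number of places, given the
duality inputs, as soon as `Q` detects a fixed space `D` of twisted cocycles.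
-/

set_option autoImplicit false

noncomputable section

namespace Fermat.Agent.GlobalBound

open ExtCitation Fermat.Agent.PoitouTate
open Fermat.Agent.TWLocal (M2 adj adj_mul adj_of_eq_one)
open Fermat.Agent.TWAssembly (adCoboundary resPlace adCocycles twCocycles detectKer disc2
  GoodPrime selmer mem_selmer_iff mem_detectKer_iff GlobalBoundProp)

variable {k : Type} [Field k] (rb : GQ →* M2 k)

/-- The coboundaries of the twisted adjoint action. -/
def twCob : M2 k →ₗ[k] GQ → M2 k where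
  toFun X σ := (rb σ).det • adj rb σ X - X
  map_add' X Y := by
    funext σ
    simp only [Pi.add_apply, map_add, smul_add]
    abel
  map_smul' a X := by
    funext σ
    simp only [Pi.smul_apply, RingHom.id_apply, map_smul, smul_sub, smul_comm a]

theorem twCob_apply (X : M2 k) (σ : GQ) : twCob rb X σ = (rb σ).det • adj rb σ X - X := rfl

theorem twCob_eq_zero_of_eq_one (X : M2 k) {σ : GQ} (h : rb σ = 1) : twCob rb X σ = 0 := by
  rw [twCob_apply, adj_of_eq_one h, h, Matrix.det_one, one_smul, sub_self]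

theorem twCob_mem {X : M2 k} (hX : X.trace = 0)
    (hrb : ∃ F : IntermediateField ℚ QBar, FiniteDimensional ℚ F ∧
      ∀ σ ∈ F.fixingSubgroup, rb σ = 1) : twCob rb X ∈ twCocycles rb := by
  obtain ⟨F, hF, h⟩ := hrb
  refine ⟨fun σ τ => ?_, fun σ => ?_, F, hF, fun σ τ hτ => ?_⟩
  · show twCob rb X (σ * τ) = twCob rb X σ + (rb σ).det • adj rb σ (twCob rb X τ)
    simp only [twCob_apply, map_mul, Matrix.det_mul, adj_mul, map_sub, map_smul, smul_sub,
      smul_smul]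
    abel
  · rw [twCob_apply, Matrix.trace_sub, Matrix.trace_smul, TWLocal.trace_adj, hX, smul_zero,
      sub_zero]
  · simp only [twCob_apply, map_mul, adj_mul, adj_of_eq_one (h τ hτ), h τ hτ, mul_one]

/-- Functions vanishing on inertia outside `T`. -/
def vanishOutside (T : Finset Nat.Primes) : Submodule k (GQ → M2 k) where
  carrier := {c | ∀ q : Nat.Primes, q ∉ T → ∀ A : ValuationSubring QBar,
    A.LiesOverPrime (q : ℕ) → ∀ σ ∈ A.inertiaSubgroupIn ℚ, c σ = 0}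
  add_mem' ha hb q hq A hA σ hσ := by
    rw [Pi.add_apply, ha q hq A hA σ hσ, hb q hq A hA σ hσ, add_zero]
  zero_mem' _ _ _ _ _ _ := rfl
  smul_mem' a _ hc q hq A hA σ hσ := by rw [Pi.smul_apply, hc q hq A hA σ hσ, smul_zero]

variable {rb}

/-- A cocycle of finite level vanishing on inertia outside `S` is a cocycle over `S`. -/
theorem mem_z1_of_cocycle {S : Finset Nat.Primes} {ρ : Act GQ (Tz k)}
    (hρ : ∃ U, (sLevels S).mem U ∧ ∀ u ∈ U, ∀ x, ρ u x = x) {c : GQ → Tz k}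
    (hmul : ∀ g h, c (g * h) = ρ g (c h) + c g)
    (hlev : ∃ F : IntermediateField ℚ QBar, FiniteDimensional ℚ F ∧
      ∀ σ, ∀ τ ∈ F.fixingSubgroup, c (σ * τ) = c σ)
    (hcI : ∀ q : Nat.Primes, q ∉ S → ∀ A : ValuationSubring QBar, A.LiesOverPrime (q : ℕ) →
      ∀ σ ∈ A.inertiaSubgroupIn ℚ, c σ = 0) :
    c ∈ z1 (sLevels S) ρ := by
  obtain ⟨U₀, hU₀, htriv⟩ := hρ
  obtain ⟨hn, F₀, hF₀, hur, hfix⟩ := hU₀
  obtain ⟨F₁, hF₁, hlev⟩ := hlev
  have h1 : c 1 = 0 := cocycle₁_map_one (d1_eq_zero_of_mul hmul)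
  let H : Subgroup GQ :=
    { carrier := {g | g ∈ U₀ ∧ c g = 0}
      mul_mem' := fun {a b} ha hb => ⟨mul_mem ha.1 hb.1, by
        rw [hmul, hb.2, map_zero, zero_add, ha.2]⟩
      one_mem' := ⟨one_mem _, h1⟩
      inv_mem' := fun {a} ha => ⟨inv_mem ha.1, by
        have h := hmul a a⁻¹
        rw [mul_inv_cancel, h1, ha.2, add_zero, htriv a ha.1] at h
        exact h.symm⟩ }
  have : H.Normal := ⟨fun g hg a => ⟨hn.conj_mem g hg.1 a, by
    have h2 : c (g * a⁻¹) = c a⁻¹ := by rw [hmul, htriv g hg.1, hg.2, add_zero]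
    rw [mul_assoc, hmul, h2, ← hmul, mul_inv_cancel, h1]⟩⟩
  obtain ⟨U, hU, hle⟩ := exists_sLevel_le_of_normal (S := S) H (F₀ ⊔ F₁)
    (fun g hg => ⟨hfix ▸ IntermediateField.fixingSubgroup_antitone le_sup_left hg, by
      rw [← one_mul g, hlev 1 g (IntermediateField.fixingSubgroup_antitone le_sup_right hg), h1]⟩)
    fun q hq A hA g hg => ⟨hfix ▸ hur.2 q hq A hA hg, hcI q hq A hA g hg⟩
  refine (mem_z1 _ _).2 ⟨⟨U, hU, fun g s hs => ?_⟩, d1_eq_zero_of_mul hmul⟩
  rw [hmul, (hle hs).2, map_zero, zero_add]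

theorem finite_z1 {G A : Type*} [Group G] [AddCommGroup A] [Finite A] {L : Levels G}
    {ρ : Act G A} [Finite (H1 L ρ)] : Finite ↥(z1 L ρ) := by
  have hs : ∀ x : H1 L ρ, ∃ f, H1.mk f = x := H1.mk_surjective
  choose s hs using hs
  have : Finite (Set.range (d0 ρ)) := (Set.finite_range _).to_subtype
  refine Finite.of_injective (fun f : z1 L ρ => ((H1.mk f, ⟨(f : G → A) - (s (H1.mk f) : G → A),
    (H1.mk_eq_mk_iff _ _).1 (hs (H1.mk f)).symm⟩) : H1 L ρ × Set.range (d0 ρ))) fun f f' h => ?_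
  obtain ⟨e1, e2⟩ := Prod.ext_iff.1 h
  have e2' := congrArg Subtype.val e2
  simp only at e1 e2'
  rw [e1] at e2'
  exact Subtype.ext (sub_left_injective e2')

/-- Twisted cocycles unramified outside `T`. -/
theorem finite_twUnram [Finite k] {T : Finset Nat.Primes}
    (hU : ∃ U, (sLevels T).mem U ∧ ∀ u ∈ U, rb u = 1)
    (hfin : Finite (H1 (sLevels T) (twAct rb))) :
    Finite ↥(twCocycles rb ⊓ vanishOutside T) := by
  obtain ⟨U, hU, hU1⟩ := hU
  have : Finite ↥(z1 (sLevels T) (twAct rb)) := finite_z1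
  have hz : ∀ y : ↥(twCocycles rb ⊓ vanishOutside T),
      (fun g => (⟨y.1 g, y.2.1.2.1 g⟩ : Tz k)) ∈ z1 (sLevels T) (twAct rb) := fun y => by
    obtain ⟨hmul, -, F, hF, hlev⟩ := y.2.1
    refine mem_z1_of_cocycle ⟨U, hU, fun u hu x => Subtype.ext ?_⟩ (fun g h => Subtype.ext ?_)
      ⟨F, hF, fun σ τ hτ => Subtype.ext (hlev σ τ hτ)⟩
      fun q hq A hA σ hσ => Subtype.ext (y.2.2 q hq A hA σ hσ)
    · show (rb u).det • adj rb u (x : M2 k) = x
      rw [adj_of_eq_one (hU1 u hu), hU1 u hu, Matrix.det_one, one_smul]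
    · show y.1 (g * h) = (rb g).det • (rb g * y.1 h * rb g⁻¹) + y.1 g
      rw [hmul, add_comm]
  refine Finite.of_injective (fun y => (⟨_, hz y⟩ : z1 (sLevels T) (twAct rb))) fun y y' h => ?_
  refine Subtype.ext (funext fun g => ?_)
  exact congrArg Subtype.val (congrFun (congrArg Subtype.val h) g)

/-- A complement of the coboundaries inside a space of cocycles. -/
theorem exists_complement (Z C : Submodule k (GQ → M2 k)) :
    ∃ D ≤ Z, (∀ y ∈ D, y ∈ C → y = 0) ∧ ∀ y ∈ Z, ∃ d ∈ D, y - d ∈ C := by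
  obtain ⟨E, hE⟩ := exists_isCompl (C.comap Z.subtype)
  refine ⟨E.map Z.subtype, Submodule.map_subtype_le _ _, ?_, fun y hy => ?_⟩
  · rintro _ ⟨e, he, rfl⟩ hc
    have h := Submodule.disjoint_def.1 hE.disjoint e hc he
    rw [h, map_zero]
  · obtain ⟨a, ha, b, hb, hab⟩ := Submodule.mem_sup.1
      (hE.sup_eq_top ▸ Submodule.mem_top : (⟨y, hy⟩ : Z) ∈ C.comap Z.subtype ⊔ E)
    refine ⟨b.1, ⟨b, hb, rfl⟩, ?_⟩
    rw [show y = a.1 + b.1 from (congrArg Subtype.val hab).symm, add_sub_cancel_right]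
    exact ha

/-- A class which is a coboundary on a decomposition group is one on its conjugates. -/
theorem exists_twCob_at_conj {y : GQ → Tz k} (hy : ∀ g h, y (g * h) = twAct rb g (y h) + y g)
    {q : Nat.Primes} {x : Tz k}
    (hx : ∀ g : GQl (q : ℕ), y (localGaloisToGlobal (q : ℕ) g) =
      twAct rb (localGaloisToGlobal (q : ℕ) g) x - x)
    {P : ValuationSubring QBar} (hP : P.LiesOverPrime (q : ℕ)) :
    ∃ X : Tz k, ∀ h ∈ P.decompositionSubgroup ℚ, y h = twAct rb h X - X := by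
  obtain ⟨τ, rfl⟩ := Fermat.Agent.GaloisBasics.exists_smul_eq (padicPlace_liesOverPrime (q : ℕ))
    hP q.2
  have h1 : y 1 = 0 := cocycle₁_map_one (d1_eq_zero_of_mul hy)
  refine ⟨twAct rb τ x - y τ, fun h hh => ?_⟩
  obtain ⟨g, rfl⟩ : ∃ g, h = τ * g * τ⁻¹ := ⟨τ⁻¹ * h * τ, by group⟩
  rw [Fermat.Agent.GaloisBasics.decompositionSubgroup_smul_iff] at hh
  obtain ⟨d, hd⟩ := (decompositionEquiv (q : ℕ)).surjective ⟨g, hh⟩
  have hg : localGaloisToGlobal (q : ℕ) d = g := by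
    rw [← decompositionEquiv_apply, hd]
  have e1 : twAct rb τ⁻¹ (y τ) + y τ⁻¹ = 0 := by rw [← hy, inv_mul_cancel, h1]
  rw [mul_assoc, hy, hy, eq_neg_of_add_eq_zero_right e1, ← hg, hx, hg]
  simp only [act_mul_apply, map_sub, map_add, map_neg]
  rw [← act_mul_apply (twAct rb) τ⁻¹ τ, inv_mul_cancel, act_one_apply]
  abel

/-- A matrix with two distinct eigenvalues can be diagonalised. -/
theorem exists_units_conjM_diag (A : M2 k) {a b : k} (hab : a ≠ b) (hs : a + b = A.trace)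
    (hm : a * b = A.det) :
    ∃ U : (M2 k)ˣ, TWLocal.conjM U A 0 1 = 0 ∧ TWLocal.conjM U A 1 0 = 0 ∧
      TWLocal.conjM U A 0 0 ≠ TWLocal.conjM U A 1 1 := by
  rw [Matrix.trace_fin_two] at hs
  rw [Matrix.det_fin_two] at hm
  have hba : b - a ≠ 0 := sub_ne_zero.2 hab.symm
  suffices key : ∀ V : M2 k, V.det ≠ 0 → A * V = V * !![a, 0; 0, b] →
      ∃ U : (M2 k)ˣ, TWLocal.conjM U A 0 1 = 0 ∧ TWLocal.conjM U A 1 0 = 0 ∧
        TWLocal.conjM U A 0 0 ≠ TWLocal.conjM U A 1 1 by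
    by_cases h01 : A 0 1 = 0
    · by_cases h10 : A 1 0 = 0
      · refine ⟨1, ?_⟩
        rw [TWLocal.conjM_apply, inv_one, Units.val_one, one_mul, mul_one]
        refine ⟨h01, h10, fun h => hab ?_⟩
        have : (a - b) * (a - b) = 0 := by
          linear_combination (a + b + A 0 0 + A 1 1) * hs - 4 * hm + 4 * A 1 0 * h01 +
            (A 0 0 - A 1 1) * h
        exact sub_eq_zero.1 (mul_self_eq_zero.1 this)
      · refine key !![a - A 1 1, b - A 1 1; A 1 0, A 1 0] ?_ ?_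
        · rw [Matrix.det_fin_two_of, show (a - A 1 1) * A 1 0 - (b - A 1 1) * A 1 0 =
            -((b - a) * A 1 0) by ring]
          exact neg_ne_zero.2 (mul_ne_zero hba h10)
        · ext i j
          fin_cases i <;> fin_cases j <;> simp [Matrix.mul_apply, Fin.sum_univ_two] <;>
            grind
    · refine key !![A 0 1, A 0 1; a - A 0 0, b - A 0 0] ?_ ?_
      · rw [Matrix.det_fin_two_of, show A 0 1 * (b - A 0 0) - A 0 1 * (a - A 0 0) =
          A 0 1 * (b - a) by ring]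
        exact mul_ne_zero h01 hba
      · ext i j
        fin_cases i <;> fin_cases j <;> simp [Matrix.mul_apply, Fin.sum_univ_two] <;>
          grind
  intro V hV hAV
  obtain ⟨U, hU⟩ := (Matrix.isUnit_iff_isUnit_det V).2 (Ne.isUnit hV)
  refine ⟨U, ?_⟩
  rw [TWLocal.conjM_apply, mul_assoc, hU, hAV, ← hU, Units.inv_mul_cancel_left]
  simpa using hab

/-- Restrictions of global cocycles are local cocycles. -/
theorem resPlace_mem_Z1 {c : GQ → M2 k} (hc : c ∈ adCocycles rb) (P : ValuationSubring QBar) :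
    resPlace P c ∈ TWLocal.Z1 rb (P.decompositionSubgroup ℚ) := by
  obtain ⟨hmul, htr, F, hF, hlev⟩ := hc
  refine ⟨fun σ τ => hmul σ τ, fun σ => htr σ, F, hF, fun σ hσ => ?_⟩
  have h1 : c 1 = 0 := by
    have h := hmul 1 1
    rw [inv_one, map_one, mul_one, one_mul, mul_one] at h
    exact left_eq_add.1 h
  show c (σ : GQ) = 0
  rw [← one_mul (σ : GQ), hlev 1 _ ((IntermediateField.mem_fixingSubgroup_iff _ _).2 hσ), h1]

/-- All local cocycles satisfy the condition `Z1`. -/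
theorem mem_toLoc_Z1 {q : Nat.Primes} {f : GQl (q : ℕ) → Tz k}
    (hf : f ∈ z1 (localLevels q) (adLoc rb q)) :
    f ∈ toLoc rb q (TWLocal.Z1 rb ((padicPlace (q : ℕ)).decompositionSubgroup ℚ)) := by
  refine ⟨hf, fun d => (f ((decompositionEquiv (q : ℕ)).symm d) : M2 k), ?_, fun g => ?_⟩
  swap
  · exact congrArg (fun g => (f g : M2 k))
      ((decompositionEquiv (q : ℕ)).symm_apply_apply g).symm
  obtain ⟨⟨V, ⟨U, hU, rfl⟩, hlc⟩, h0⟩ := (mem_z1 _ _).1 hf
  obtain ⟨-, F, hF, -, hfix⟩ := hU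
  have hloc : ∀ d : ↥((padicPlace (q : ℕ)).decompositionSubgroup ℚ),
      localGaloisToGlobal (q : ℕ) ((decompositionEquiv (q : ℕ)).symm d) = d := fun d => by
    rw [← decompositionEquiv_apply, MulEquiv.apply_symm_apply]
  have h1 : f 1 = 0 := cocycle₁_map_one h0
  refine ⟨fun σ τ => ?_, fun σ => trace_coe _, F, hF, fun σ hσ => ?_⟩
  · show (f _ : M2 k) = (f _ : M2 k) + rb (σ : GQ) * (f _ : M2 k) * rb (σ : GQ)⁻¹
    rw [map_mul, cocycle₁_mul h0, Submodule.coe_add, add_comm, MonoidHom.comp_apply, adAct_coe,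
      hloc]
  · have hm : (decompositionEquiv (q : ℕ)).symm σ ∈ U.comap (localGaloisToGlobal (q : ℕ)) := by
      rw [Subgroup.mem_comap, hloc, ← hfix]
      exact (IntermediateField.mem_fixingSubgroup_iff _ _).2 hσ
    have h := hlc 1 _ hm
    rw [one_mul, h1] at h
    show (f _ : M2 k) = 0
    rw [h]; rfl

section Main

variable [Finite k] {p : ℕ} [Fact p.Prime]

/-- The twisted cocycles unramified outside `T` have a finite dimensional complement `D` of the
coboundaries. -/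
theorem exists_twisted_complement {T : Finset Nat.Primes}
    (hrb : ∃ F : IntermediateField ℚ QBar, FiniteDimensional ℚ F ∧
      ∀ σ ∈ F.fixingSubgroup, rb σ = 1)
    (hunr : ∀ q : Nat.Primes, q ∉ T → ∀ A : ValuationSubring QBar, A.LiesOverPrime (q : ℕ) →
      ∀ σ ∈ A.inertiaSubgroupIn ℚ, rb σ = 1)
    (hfin : Finite (H1 (sLevels T) (twAct rb))) :
    ∃ D : Submodule k (GQ → M2 k), FiniteDimensional k D ∧ D ≤ twCocycles rb ∧
      (∀ y ∈ D, ∀ X : M2 k, X.trace = 0 → y = twCob rb X → y = 0) ∧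
      ∀ y ∈ twCocycles rb ⊓ vanishOutside T,
        ∃ d ∈ D, ∃ X : M2 k, X.trace = 0 ∧ y - d = twCob rb X := by
  set C := (LinearMap.ker (Matrix.traceLinearMap (Fin 2) k k)).map (twCob rb)
  have : Finite ↥(twCocycles rb ⊓ vanishOutside T) :=
    finite_twUnram (exists_sLevel_rb hrb hunr) hfin
  obtain ⟨D, hDZ, hDC, hsplit⟩ := exists_complement (twCocycles rb ⊓ vanishOutside T) C
  have : Finite D := Finite.of_injective _ (Submodule.inclusion_injective hDZ)
  refine ⟨D, Module.Finite.of_finite, hDZ.trans inf_le_left,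
    fun y hy X hX hyX => hDC y hy ⟨X, hX, hyX.symm⟩, fun y hy => ?_⟩
  obtain ⟨d, hd, X, hXt, hXd⟩ := hsplit y hy
  exact ⟨d, hd, X, hXt, hXd.symm⟩

omit [Finite k] in
/-- The local cocycles at a good prime form a space of dimension at most four. -/
theorem finrank_Z1_goodPrime_le {S : Finset ℕ} {n : ℕ}
    (hrb : ∃ F : IntermediateField ℚ QBar, FiniteDimensional ℚ F ∧
      ∀ σ ∈ F.fixingSubgroup, rb σ = 1)
    (hpk : (p : k) = 0)
    (hroots : ∀ g : GQ, disc2 (rb g) ≠ 0 →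
      ∃ a b : k, a ≠ b ∧ a + b = (rb g).trace ∧ a * b = (rb g).det)
    {q : Nat.Primes} (hgood : GoodPrime rb p S n (q : ℕ)) (hqp : (q : ℕ) ≠ p) :
    FiniteDimensional k (TWLocal.Z1 rb ((padicPlace (q : ℕ)).decompositionSubgroup ℚ)) ∧
      Module.finrank k (TWLocal.Z1 rb ((padicPlace (q : ℕ)).decompositionSubgroup ℚ)) ≤ 4 := by
  obtain ⟨g₀, hg₀, -⟩ := exists_local_frobenius (q := (q : ℕ))
  obtain ⟨a, b, hab, hs, hm⟩ := hroots _ (hgood.2.2.2.2 _ (padicPlace_liesOverPrime _) _ hg₀)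
  obtain ⟨V, h01, h10, hne⟩ := exists_units_conjM_diag _ hab hs hm
  refine TWLocal.finrank_Z1_tame_le (p := p) (padicPlace_liesOverPrime _) q.2 Fact.out hqp ?_ ?_
    (hgood.2.2.2.1 _ (padicPlace_liesOverPrime _)) hg₀ V h01 h10 hne
  · obtain ⟨m, hm'⟩ := (dvd_pow_self p n.succ_ne_zero).trans hgood.2.2.1
    rw [show (q : ℕ) = p * m + 1 by have := q.2.pos; omega, Nat.cast_add, Nat.cast_mul, hpk,
      zero_mul, zero_add, Nat.cast_one]
  · obtain ⟨F, hF, h⟩ := hrb
    exact ⟨F, hF, fun σ hσ => h σ ((IntermediateField.mem_fixingSubgroup_iff _ _).2 hσ)⟩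

omit [Finite k] in
/-- A twisted cocycle orthogonal to all adjoint cocycles at a good prime `q` is a coboundary on
every decomposition group over `q`. -/
theorem exists_twCob_at_goodPrime (hdet : DetCyclo p rb) (I : InvSystem p) (ℓ : k →+ ZMod p)
    (hTame : ∀ q : Nat.Primes, p ∣ (q : ℕ) - 1 →
      (∀ σ ∈ (padicPlace (q : ℕ)).inertiaSubgroupIn ℚ, rb σ = 1) →
      ∀ φ : GQ, (padicPlace (q : ℕ)).IsFrobeniusAt φ (q : ℕ) →
      (∃ a b : k, a ≠ b ∧ a + b = (rb φ).trace ∧ a * b = (rb φ).det) →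
      ∀ y ∈ z1 (localLevels q) (twLoc rb q),
        (∀ f ∈ z1 (localLevels q) (adLoc rb q), locCup I ℓ hdet q f y = 0) →
          y ∈ (d0 (twLoc rb q)).range)
    (hroots : ∀ g : GQ, disc2 (rb g) ≠ 0 →
      ∃ a b : k, a ≠ b ∧ a + b = (rb g).trace ∧ a * b = (rb g).det)
    {S : Finset ℕ} {n : ℕ} {T : Finset Nat.Primes} {y : GQ → Tz k}
    (hy : y ∈ z1 (sLevels T) (twAct rb)) {q : Nat.Primes} (hgood : GoodPrime rb p S n (q : ℕ))
    (horth : ∀ f ∈ z1 (localLevels q) (adLoc rb q),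
      locCup I ℓ hdet q f (resLoc (q : ℕ) y) = 0)
    {P : ValuationSubring QBar} (hP : P.LiesOverPrime (q : ℕ)) :
    ∃ X : Tz k, ∀ g ∈ P.decompositionSubgroup ℚ, y g = twAct rb g X - X := by
  obtain ⟨g₀, hg₀, -⟩ := exists_local_frobenius (q := (q : ℕ))
  obtain ⟨x, hx⟩ := hTame q ((dvd_pow_self p n.succ_ne_zero).trans hgood.2.2.1)
    (fun σ hσ => hgood.2.2.2.1 _ (padicPlace_liesOverPrime _) σ hσ) _ hg₀
    (hroots _ (hgood.2.2.2.2 _ (padicPlace_liesOverPrime _) _ hg₀))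
    (resLoc (q : ℕ) y) (resLoc_mem_z1 hy q) horth
  exact exists_twCob_at_conj (cocycle₁_mul ((mem_z1 _ _).1 hy).2) (x := x)
    (fun g => (congrFun hx g).symm) hP

omit [Finite k] in
/-- A twisted cocycle over `S'` which is a coboundary at the primes of `S'` outside `T`, where
`rb` is unramified, is a twisted cocycle vanishing on inertia outside `T`. -/
theorem coe_mem_vanishOutside {T S' : Finset Nat.Primes} {y : GQ → Tz k}
    (hy : y ∈ z1 (sLevels S') (twAct rb))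
    (hunr : ∀ q ∈ S', q ∉ T → ∀ A : ValuationSubring QBar, A.LiesOverPrime (q : ℕ) →
      ∀ σ ∈ A.inertiaSubgroupIn ℚ, rb σ = 1)
    (hloc : ∀ q ∈ S', q ∉ T → ∀ P : ValuationSubring QBar, P.LiesOverPrime (q : ℕ) →
      ∃ X : Tz k, ∀ g ∈ P.decompositionSubgroup ℚ, y g = twAct rb g X - X) :
    (fun g => (y g : M2 k)) ∈ twCocycles rb ⊓ vanishOutside T := by
  obtain ⟨⟨V, hV, hVy⟩, hy0⟩ := (mem_z1 _ _).1 hy
  obtain ⟨-, FV, hFV, hFVur, hVeq⟩ := hV
  refine ⟨⟨fun σ τ => ?_, fun σ => trace_coe _, FV, hFV, fun σ τ hτ => ?_⟩,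
    fun q hqT A hA σ hσ => ?_⟩
  · show (y (σ * τ) : M2 k) = (y σ : M2 k) + (rb σ).det • (rb σ * (y τ : M2 k) * rb σ⁻¹)
    rw [cocycle₁_mul hy0, Submodule.coe_add, twAct_coe, add_comm]
  · exact congrArg Subtype.val (hVy σ τ (hVeq ▸ hτ))
  · show (y σ : M2 k) = 0
    by_cases hqS : q ∈ S'
    · obtain ⟨X, hX⟩ := hloc q hqS hqT A hA
      rw [hX σ (Fermat.Agent.GaloisBasics.inertiaSubgroupIn_le_decompositionSubgroup hσ),
        Submodule.coe_sub, twAct_coe]
      exact twCob_eq_zero_of_eq_one rb _ (hunr q hqS hqT A hA σ hσ)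
    · rw [← one_mul σ, hVy 1 σ (hVeq ▸ hFVur.2 q hqS A hA hσ), cocycle₁_map_one hy0]
      rfl

omit [Finite k] [Fact p.Prime] in
/-- A twisted cocycle which is a coboundary at the primes of `Q` differs from a coboundary by an
element of `D` undetected by `Q`; so it is a coboundary if `Q` detects `D`. -/
theorem mem_range_d0_of_detect {D : Submodule k (GQ → M2 k)} {Q : Finset ℕ}
    (hdetect : ∀ y : D, (∀ q ∈ Q, y ∈ detectKer rb D q) → y = 0) {y : GQ → Tz k}
    (hsplit : ∃ d ∈ D, ∃ X : M2 k, X.trace = 0 ∧ (fun g => (y g : M2 k)) - d = twCob rb X)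
    (hloc : ∀ q ∈ Q, ∀ P : ValuationSubring QBar, P.LiesOverPrime q →
      ∃ X : Tz k, ∀ g ∈ P.decompositionSubgroup ℚ, y g = twAct rb g X - X) :
    y ∈ (d0 (twAct rb)).range := by
  obtain ⟨d, hd, X, hXt, hXd⟩ := hsplit
  have hd0 : d = 0 := congrArg Subtype.val (hdetect ⟨d, hd⟩ fun q hq =>
    (mem_detectKer_iff rb).2 fun P hP φ hφ => by
      obtain ⟨W, hW⟩ := hloc q hq P hP
      refine ⟨(W : M2 k) - X, ?_⟩
      have h1 := congrArg Subtype.val (hW φ hφ.mem_decompositionSubgroup)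
      rw [Submodule.coe_sub, twAct_coe] at h1
      have h2 := congrFun hXd φ
      rw [twCob_apply, Pi.sub_apply] at h2
      have h3 : d φ = (y φ : M2 k) - ((rb φ).det • adj rb φ X - X) := by
        rw [← h2, sub_sub_cancel]
      show d φ = (rb φ).det • adj rb φ ((W : M2 k) - X) - ((W : M2 k) - X)
      rw [h3, h1, map_sub, smul_sub]
      simp only [TWLocal.adj_apply]
      abel)
  refine ⟨⟨X, hXt⟩, funext fun g => Subtype.ext ?_⟩
  have h2 := congrFun hXd g
  rw [hd0, twCob_apply, sub_zero] at h2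
  exact h2.symm

/-- The bound for arbitrary dimensions `w` of the conditions at the base set of primes. -/
theorem exists_bound_of_inputs (hp2 : p ≠ 2) (hdet : DetCyclo p rb)
    (hrb : ∃ F : IntermediateField ℚ QBar, FiniteDimensional ℚ F ∧
      ∀ σ ∈ F.fixingSubgroup, rb σ = 1)
    (I : InvSystem p) {ℓ : k →+ ZMod p} (hℓ : ℓ ≠ 0)
    (S Smin : Finset ℕ) (hpSmin : p ∈ Smin) (hSmin : Smin ⊆ S) (hprime : ∀ q ∈ Smin, q.Prime)
    (hunr : ∀ q : ℕ, q.Prime → q ∉ Smin → ∀ A : ValuationSubring QBar, A.LiesOverPrime q →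
      ∀ σ ∈ A.inertiaSubgroupIn ℚ, rb σ = 1)
    (hG : ∀ T : Finset Nat.Primes, pPrime p ∈ T → GlobalInputs I T)
    (hL : ∀ q : Nat.Primes, LocalInputs I q)
    (hfin : ∀ T : Finset Nat.Primes, pPrime p ∈ T →
      (∃ U, (sLevels T).mem U ∧ ∀ u ∈ U, rb u = 1) →
      Finite (H1 (sLevels T) (adAct rb)) ∧ Finite (H1 (sLevels T) (twAct rb)) ∧
        Finite (H2 (sLevels T) (twAct rb)))
    (hEul : ∀ T : Finset Nat.Primes, pPrime p ∈ T →
      (∃ U, (sLevels T).mem U ∧ ∀ u ∈ U, rb u = 1) →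
      TWEuler.EulerHolds (sLevels T) complexConjugation (twAct rb))
    (hFix : Nat.card ↥(TWEuler.fixedBy (twAct rb) complexConjugation) * Nat.card k =
      Nat.card (Tz k))
    (hinv : Inv (adAct rb) = ⊥)
    (hTame : ∀ q : Nat.Primes, p ∣ (q : ℕ) - 1 →
      (∀ σ ∈ (padicPlace (q : ℕ)).inertiaSubgroupIn ℚ, rb σ = 1) →
      ∀ φ : GQ, (padicPlace (q : ℕ)).IsFrobeniusAt φ (q : ℕ) →
      (∃ a b : k, a ≠ b ∧ a + b = (rb φ).trace ∧ a * b = (rb φ).det) →
      ∀ y ∈ z1 (localLevels q) (twLoc rb q),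
        (∀ f ∈ z1 (localLevels q) (adLoc rb q), locCup I ℓ hdet q f y = 0) →
          y ∈ (d0 (twLoc rb q)).range)
    (hroots : ∀ g : GQ, disc2 (rb g) ≠ 0 →
      ∃ a b : k, a ≠ b ∧ a + b = (rb g).trace ∧ a * b = (rb g).det)
    (w : ℕ → ℕ) (L : (q : ℕ) → (P : ValuationSubring QBar) →
      Submodule k (P.decompositionSubgroup ℚ → M2 k))
    (hLcob : ∀ q : Nat.Primes, (q : ℕ) ∈ Smin → ∀ X : M2 k, X.trace = 0 →
      resPlace (padicPlace (q : ℕ)) (adCoboundary rb X) ∈ L q (padicPlace (q : ℕ)))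
    (hLdim : ∀ q : Nat.Primes, (q : ℕ) ∈ Smin →
      FiniteDimensional k (L q (padicPlace (q : ℕ))) ∧
        Module.finrank k (L q (padicPlace (q : ℕ))) ≤ w q) :
    ∃ D : Submodule k (GQ → M2 k), FiniteDimensional k D ∧ D ≤ twCocycles rb ∧
      (∀ y ∈ D, (∃ X : M2 k, X.trace = 0 ∧
        ∀ σ, y σ = (rb σ).det • (rb σ * X * rb σ⁻¹) - X) → y = 0) ∧
      ∀ (n : ℕ) (Q : Finset ℕ), (∀ q ∈ Q, GoodPrime rb p S n q) →
        (∀ y : D, (∀ q ∈ Q, y ∈ detectKer rb D q) → y = 0) →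
        FiniteDimensional k
            ((selmer rb (Smin ∪ Q) Smin L).map (LinearMap.range (adCoboundary rb)).mkQ) ∧
          Module.finrank k
              ((selmer rb (Smin ∪ Q) Smin L).map (LinearMap.range (adCoboundary rb)).mkQ) +
            3 * Smin.card + 1 ≤ Q.card + ∑ q ∈ Smin, w q := by
  classical
  have hlevel : ∀ {S' : Finset Nat.Primes}, primesOf Smin ⊆ S' →
      ∃ U, (sLevels S').mem U ∧ ∀ u ∈ U, rb u = 1 :=
    fun h => exists_sLevel_rb hrb fun q hq A hA σ hσ =>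
      hunr q q.2 (fun h' => hq (h (mem_primesOf.2 h'))) A hA σ hσ
  have hpT : pPrime p ∈ primesOf Smin := mem_primesOf.2 hpSmin
  obtain ⟨D, hDfin, hDZ, hDC, hsplit⟩ := exists_twisted_complement hrb
    (fun q hq A hA σ hσ => hunr q q.2 (fun h => hq (mem_primesOf.2 h)) A hA σ hσ)
    (hfin _ hpT (hlevel subset_rfl)).2.1
  refine ⟨D, hDfin, hDZ, fun y hy ⟨X, hX, hyX⟩ => hDC y hy X hX (funext hyX),
    fun n Q hQ hdetect => ?_⟩
  have hQS : ∀ q ∈ Q, q ∉ Smin := fun q hq h => (hQ q hq).2.1 (hSmin h)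
  have hprimeU : ∀ q ∈ Smin ∪ Q, q.Prime := fun q hq =>
    (Finset.mem_union.1 hq).elim (hprime q) fun h => (hQ q h).1
  set S' := primesOf (Smin ∪ Q)
  have hTS : primesOf Smin ⊆ S' := fun q hq =>
    mem_primesOf.2 (Finset.mem_union_left _ (mem_primesOf.1 hq))
  have hpS' : pPrime p ∈ S' := hTS hpT
  obtain ⟨U, hU, hU1⟩ := hlevel hTS
  obtain ⟨hf1, hf2, hf3⟩ := hfin S' hpS' ⟨U, hU, hU1⟩
  have hI : DualInputs I S' :=
    ⟨hp2, hG S' hpS', fun z q hq => muToBrauer_muLocalize_eq_zero hpS' z q hq⟩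
  have hLow := card_H2_tw_lower hI (fun q _ => hL q) hU
    (fun u hu => ⟨cycloChar_eq_one hdet (hU1 u hu), fun m => Subtype.ext (by
      show (rb u).det • adj rb u (m : M2 k) = m
      rw [adj_of_eq_one (hU1 u hu), hU1 u hu, Matrix.det_one, one_smul])⟩)
    ⟨pPrime p, hpS'⟩ hℓ hdet hinv
  let Λ : ∀ q : S',
      Submodule k ((padicPlace ((q : Nat.Primes) : ℕ)).decompositionSubgroup ℚ → M2 k) := fun q =>
    if ((q : Nat.Primes) : ℕ) ∈ Smin then
      L ((q : Nat.Primes) : ℕ) (padicPlace ((q : Nat.Primes) : ℕ))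
    else TWLocal.Z1 rb _
  let f : ℕ → ℕ := fun q => if q ∈ Smin then w q else 4
  have hQmem : ∀ q : S', ((q : Nat.Primes) : ℕ) ∉ Smin → ((q : Nat.Primes) : ℕ) ∈ Q := fun q h =>
    (Finset.mem_union.1 (mem_primesOf.1 q.2)).resolve_left h
  have hΛ : ∀ q, FiniteDimensional k (Λ q) ∧ Module.finrank k (Λ q) ≤ f (q : Nat.Primes) := by
    intro q
    have key : ∀ M, Λ q = M → ∀ m, f ((q : Nat.Primes) : ℕ) = m →
        FiniteDimensional k M ∧ Module.finrank k M ≤ m →
        FiniteDimensional k (Λ q) ∧ Module.finrank k (Λ q) ≤ f ((q : Nat.Primes) : ℕ) := by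
      rintro M rfl m rfl h
      exact h
    by_cases h : ((q : Nat.Primes) : ℕ) ∈ Smin
    · exact key _ (if_pos h) _ (if_pos h) (hLdim q h)
    · exact key _ (if_neg h) _ (if_neg h)
        (finrank_Z1_goodPrime_le hrb hdet.1 hroots (hQ _ (hQmem q h)) fun e => h (e ▸ hpSmin))
  have hrb' : ∃ F : IntermediateField ℚ QBar, FiniteDimensional ℚ F ∧
      ∀ σ : GQ, (∀ x ∈ F, σ x = x) → rb σ = 1 := by
    obtain ⟨F, hF, h⟩ := hrb
    exact ⟨F, hF, fun σ hσ => h σ ((IntermediateField.mem_fixingSubgroup_iff _ _).2 hσ)⟩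
  have hbound := finrank_map_mkQ_le I ℓ hdet S' hrb
    (fun q hq A hA σ hσ => hunr q q.2 (fun h => hq (hTS (mem_primesOf.2 h))) A hA σ hσ)
    Λ (fun q => (hΛ q).1)
    (fun q X hX => by
      simp only [Λ]
      split_ifs with h
      · exact hLcob q h X hX
      · exact TWLocal.cob_mem_Z1 hrb' X)
    hf1 hf2 hf3 (sum_invMu_muLocalize hI) (hEul S' hpS' ⟨U, hU, hU1⟩) hFix
    (by rw [mul_comm, Finset.prod_coe_sort S' fun q => Nat.card ↥(Inv (adLoc rb (q : ℕ)))]
        exact hLow)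
    (fun y hy horth => ?_)
    (selmer rb (Smin ∪ Q) Smin L) (fun c hc => hc.1)
    (fun c hc q hq A hA σ hσ => hc.2.1 q q.2 (fun h => hq (mem_primesOf.2 h)) A hA σ hσ)
    (fun c hc q => by
      simp only [Λ]
      split_ifs with h
      · exact hc.2.2 _ h _ (padicPlace_liesOverPrime _)
      · exact resPlace_mem_Z1 hc.1 _)
  · obtain ⟨hWfin, hW⟩ := hbound
    refine ⟨hWfin, ?_⟩
    have hdis : Disjoint Smin Q := Finset.disjoint_right.2 hQS
    have hsum : ∑ q : S', Module.finrank k (Λ q) ≤ ∑ q ∈ Smin, w q + 4 * Q.card := by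
      refine (Finset.sum_le_sum fun q _ => (hΛ q).2).trans (le_of_eq ?_)
      rw [Finset.sum_coe_sort S' fun q : Nat.Primes => f q, sum_primesOf hprimeU f,
        Finset.sum_union hdis, Finset.sum_congr rfl fun q hq => (if_pos hq : f q = w q),
        Finset.sum_congr rfl fun q hq => (if_neg (hQS q hq) : f q = 4), Finset.sum_const,
        smul_eq_mul, mul_comm Q.card]
    have hc : S'.card = Smin.card + Q.card := by
      rw [card_primesOf hprimeU, Finset.card_union_of_disjoint hdis]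
    omega
  -- a twisted class orthogonal to all conditions is trivial
  have hloc : ∀ q ∈ Q, ∀ P : ValuationSubring QBar, P.LiesOverPrime q →
      ∃ X : Tz k, ∀ g ∈ P.decompositionSubgroup ℚ, y g = twAct rb g X - X := by
    intro q hq P hP
    refine exists_twCob_at_goodPrime hdet I ℓ hTame hroots hy
      (q := ⟨q, (hQ q hq).1⟩) (hQ q hq) (fun f hf => ?_) hP
    refine horth ⟨_, mem_primesOf.2 (Finset.mem_union_right _ hq)⟩ f ?_
    simp only [Λ]
    rw [if_neg (hQS q hq)]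
    exact mem_toLoc_Z1 hf
  have hQmem' : ∀ q ∈ S', q ∉ primesOf Smin → (q : ℕ) ∈ Q := fun q hq hqT =>
    hQmem ⟨q, hq⟩ fun h => hqT (mem_primesOf.2 h)
  exact mem_range_d0_of_detect hdetect
    (hsplit _ (coe_mem_vanishOutside hy
      (fun q hq hqT A hA σ hσ => (hQ q (hQmem' q hq hqT)).2.2.2.1 A hA σ hσ)
      fun q hq hqT P hP => hloc q (hQmem' q hq hqT) P hP)) hloc

end Main

end Fermat.Agent.GlobalBound

end
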